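import Mathlib

set_option autoImplicit false

/-! # Adelic structures on a field, heights and admissible constants

An `AdelicStr k` is a family of absolute values `abv w` on `k` together with a positive linear
functional `L` on a space `A` of real valued functions on the index set which contains the
functions `w ↦ log |x|_w` and satisfies the product formula. -/

namespace Fermat.Agent.MW

open Real

/-- An adelic structure on a field. -/
structure AdelicStr (k : Type*) [Field k] where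
  /-- the index set of the absolute values -/
  W : Type
  /-- the absolute values -/
  abv : W → AbsoluteValue k ℝ
  /-- the archimedean absolute values -/
  arch : Set W
  nonarch : ∀ w, w ∉ arch → IsNonarchimedean (abv w)
  /-- the functions which can be integrated -/
  A : Submodule ℝ (W → ℝ)
  sup_mem : ∀ {f g : W → ℝ}, f ∈ A → g ∈ A → (fun w => max (f w) (g w)) ∈ A
  log_mem : ∀ {x : k}, x ≠ 0 → (fun w => Real.log (abv w x)) ∈ A
  arch_mem : (arch.indicator fun _ => (1 : ℝ)) ∈ A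
  /-- the integral -/
  L : (W → ℝ) → ℝ
  L_add : ∀ {f g : W → ℝ}, f ∈ A → g ∈ A → L (f + g) = L f + L g
  L_smul : ∀ (c : ℝ) {f : W → ℝ}, f ∈ A → L (c • f) = c * L f
  L_mono : ∀ {f g : W → ℝ}, f ∈ A → g ∈ A → (∀ w, f w ≤ g w) → L f ≤ L g
  product_formula : ∀ {x : k}, x ≠ 0 → L (fun w => Real.log (abv w x)) = 0

section local_norm

variable {k : Type*} [Field k] (v : AbsoluteValue k ℝ)

/-- sup norm -/
noncomputable def nrm {ι : Type*} (x : ι → k) : ℝ := ⨆ i, v (x i)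

section

variable {ι : Type*} [Finite ι]

theorem bdd (x : ι → k) : BddAbove (Set.range fun i => v (x i)) :=
  (Set.finite_range _).bddAbove

theorem le_nrm (x : ι → k) (i : ι) : v (x i) ≤ nrm v x := le_ciSup (bdd v x) i

omit [Finite ι] in
theorem nrm_nonneg (x : ι → k) : 0 ≤ nrm v x := Real.iSup_nonneg fun _ => v.nonneg _

omit [Finite ι] in
theorem nrm_le {x : ι → k} {C : ℝ} (hC : 0 ≤ C) (h : ∀ i, v (x i) ≤ C) : nrm v x ≤ C :=
  Real.iSup_le h hC

theorem exists_eq_nrm [Nonempty ι] (x : ι → k) : ∃ i, v (x i) = nrm v x :=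
  exists_eq_ciSup_of_finite

theorem nrm_pos {x : ι → k} (hx : x ≠ 0) : 0 < nrm v x := by
  obtain ⟨i, hi⟩ := Function.ne_iff.mp hx
  exact lt_of_lt_of_le (v.pos hi) (le_nrm v x i)

omit [Finite ι] in
theorem nrm_zero : nrm v (0 : ι → k) = 0 :=
  le_antisymm (nrm_le v le_rfl fun i => by simp) (nrm_nonneg v _)

omit [Finite ι] in
theorem nrm_smul (c : k) (x : ι → k) : nrm v (c • x) = v c * nrm v x := by
  rw [nrm, nrm, Real.mul_iSup_of_nonneg (v.nonneg c)]
  congr 1
  ext i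
  simp

theorem exists_eq_nrm_of_ne {x : ι → k} (hx : x ≠ 0) : ∃ i, x i ≠ 0 ∧ v (x i) = nrm v x := by
  obtain ⟨i0, hi0⟩ := Function.ne_iff.mp hx
  have : Nonempty ι := ⟨i0⟩
  obtain ⟨i, hi⟩ := exists_eq_nrm v x
  refine ⟨i, ?_, hi⟩
  intro h0
  have := nrm_pos v hx
  rw [← hi, h0, map_zero] at this
  exact lt_irrefl _ this

end

open Classical in
/-- the factor for estimating sums of `n` terms -/
noncomputable def fac (n : ℕ) : ℝ := if IsNonarchimedean v then 1 else max 1 n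

theorem one_le_fac (n : ℕ) : 1 ≤ fac v n := by
  unfold fac
  split_ifs
  · exact le_rfl
  · exact le_max_left _ _

theorem fac_pos (n : ℕ) : 0 < fac v n := zero_lt_one.trans_le (one_le_fac v n)

theorem sum_le_fac {ι : Type*} (s : Finset ι) (f : ι → k) {C : ℝ} (hC : 0 ≤ C)
    (h : ∀ i ∈ s, v (f i) ≤ C) {n : ℕ} (hn : s.card ≤ n) : v (∑ i ∈ s, f i) ≤ fac v n * C := by
  classical
  unfold fac
  split_ifs with hna
  · rw [one_mul]
    clear hn
    induction s using Finset.induction_on with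
    | empty => simpa using hC
    | insert a s ha ih =>
      rw [Finset.sum_insert ha]
      refine (hna _ _).trans (max_le (h a (Finset.mem_insert_self _ _))
        (ih fun i hi => h i (Finset.mem_insert_of_mem hi)))
  · calc v (∑ i ∈ s, f i) ≤ ∑ i ∈ s, v (f i) := v.sum_le _ _
      _ ≤ ∑ i ∈ s, C := Finset.sum_le_sum h
      _ = s.card * C := by rw [Finset.sum_const, nsmul_eq_mul]
      _ ≤ max 1 (n : ℝ) * C := by
        gcongr
        exact le_max_of_le_right (by exact_mod_cast hn)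

theorem sum_univ_le_fac {ι : Type*} [Fintype ι] (f : ι → k) {C : ℝ} (hC : 0 ≤ C)
    (h : ∀ i, v (f i) ≤ C) : v (∑ i, f i) ≤ fac v (Fintype.card ι) * C :=
  sum_le_fac v _ f hC (fun i _ => h i) (by simp)

end local_norm

namespace AdelicStr

variable {k : Type*} [Field k] (𝔸 : AdelicStr k)

theorem zero_mem : (fun _ => (0 : ℝ)) ∈ 𝔸.A := 𝔸.A.zero_mem

theorem add_mem {f g : 𝔸.W → ℝ} (hf : f ∈ 𝔸.A) (hg : g ∈ 𝔸.A) : (fun w => f w + g w) ∈ 𝔸.A :=
  𝔸.A.add_mem hf hg

theorem sub_mem {f g : 𝔸.W → ℝ} (hf : f ∈ 𝔸.A) (hg : g ∈ 𝔸.A) : (fun w => f w - g w) ∈ 𝔸.A :=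
  𝔸.A.sub_mem hf hg

theorem neg_mem {f : 𝔸.W → ℝ} (hf : f ∈ 𝔸.A) : (fun w => -f w) ∈ 𝔸.A :=
  𝔸.A.neg_mem hf

theorem mul_mem (c : ℝ) {f : 𝔸.W → ℝ} (hf : f ∈ 𝔸.A) : (fun w => c * f w) ∈ 𝔸.A :=
  𝔸.A.smul_mem c hf

theorem L_add' {f g : 𝔸.W → ℝ} (hf : f ∈ 𝔸.A) (hg : g ∈ 𝔸.A) :
    𝔸.L (fun w => f w + g w) = 𝔸.L f + 𝔸.L g := 𝔸.L_add hf hg

theorem L_mul' (c : ℝ) {f : 𝔸.W → ℝ} (hf : f ∈ 𝔸.A) :
    𝔸.L (fun w => c * f w) = c * 𝔸.L f := 𝔸.L_smul c hf

theorem L_neg' {f : 𝔸.W → ℝ} (hf : f ∈ 𝔸.A) : 𝔸.L (fun w => -f w) = - 𝔸.L f := by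
  have := 𝔸.L_mul' (-1) hf
  simpa using this

theorem L_sub' {f g : 𝔸.W → ℝ} (hf : f ∈ 𝔸.A) (hg : g ∈ 𝔸.A) :
    𝔸.L (fun w => f w - g w) = 𝔸.L f - 𝔸.L g := by
  have := 𝔸.L_add' hf (𝔸.neg_mem hg)
  rw [𝔸.L_neg' hg] at this
  simpa [sub_eq_add_neg] using this

theorem L_zero : 𝔸.L (fun _ => (0 : ℝ)) = 0 := by
  have := 𝔸.L_mul' 0 𝔸.zero_mem
  simpa using this

theorem L_nonneg {f : 𝔸.W → ℝ} (hf : f ∈ 𝔸.A) (h : ∀ w, 0 ≤ f w) : 0 ≤ 𝔸.L f := by
  have := 𝔸.L_mono 𝔸.zero_mem hf h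
  rwa [L_zero] at this

/-- membership of the logarithm of the sup norm -/
theorem log_nrm_mem {ι : Type*} [Finite ι] {x : ι → k} (hx : x ≠ 0) :
    (fun w => Real.log (nrm (𝔸.abv w) x)) ∈ 𝔸.A := by
  classical
  have := Fintype.ofFinite ι
  -- sup over the support
  have key : ∀ s : Finset ι, s.Nonempty → (∀ i ∈ s, x i ≠ 0) →
      ∃ f ∈ 𝔸.A, ∀ w, (∃ i ∈ s, f w = Real.log (𝔸.abv w (x i))) ∧
        ∀ i ∈ s, Real.log (𝔸.abv w (x i)) ≤ f w := by
    intro s hs
    induction hs using Finset.Nonempty.cons_induction with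
    | singleton a =>
      intro h
      refine ⟨_, 𝔸.log_mem (h a (Finset.mem_singleton_self a)), fun w =>
        ⟨⟨a, Finset.mem_singleton_self a, rfl⟩, fun i hi => ?_⟩⟩
      rw [Finset.mem_singleton.mp hi]
    | cons a s ha hs ih =>
      intro h
      obtain ⟨f, hf, hf'⟩ := ih fun i hi => h i (Finset.mem_cons_of_mem hi)
      refine ⟨_, 𝔸.sup_mem (𝔸.log_mem (h a (Finset.mem_cons_self a s))) hf, fun w => ⟨?_, ?_⟩⟩
      · rcases le_total (Real.log (𝔸.abv w (x a))) (f w) with h1 | h1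
        · obtain ⟨i, hi, hi'⟩ := (hf' w).1
          exact ⟨i, Finset.mem_cons_of_mem hi, by rw [max_eq_right h1, hi']⟩
        · exact ⟨a, Finset.mem_cons_self a s, by rw [max_eq_left h1]⟩
      · intro i hi
        rcases Finset.mem_cons.mp hi with rfl | hi
        · exact le_max_left _ _
        · exact le_max_of_le_right ((hf' w).2 i hi)
  obtain ⟨i0, hi0⟩ := Function.ne_iff.mp hx
  obtain ⟨f, hf, hf'⟩ := key (Finset.univ.filter fun i => x i ≠ 0)
    ⟨i0, by simpa using hi0⟩ (by simp)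
  have : (fun w => Real.log (nrm (𝔸.abv w) x)) = f := by
    ext w
    obtain ⟨⟨i, hi, hfi⟩, hle⟩ := hf' w
    apply le_antisymm
    · obtain ⟨j, hj, hj'⟩ := exists_eq_nrm_of_ne (𝔸.abv w) hx
      rw [← hj']
      exact hle j (by simpa using hj)
    · rw [hfi]
      have hi' : x i ≠ 0 := by simpa using hi
      exact Real.log_le_log ((𝔸.abv w).pos hi') (le_nrm _ x i)
  rw [this]
  exact hf

/-- the height of a nonzero vector -/
noncomputable def ht {ι : Type*} (x : ι → k) : ℝ := 𝔸.L fun w => Real.log (nrm (𝔸.abv w) x)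

theorem ht_smul {ι : Type*} [Finite ι] {x : ι → k} (hx : x ≠ 0) {c : k} (hc : c ≠ 0) :
    𝔸.ht (c • x) = 𝔸.ht x := by
  unfold ht
  have : (fun w => Real.log (nrm (𝔸.abv w) (c • x))) =
      fun w => Real.log (𝔸.abv w c) + Real.log (nrm (𝔸.abv w) x) := by
    ext w
    rw [nrm_smul, Real.log_mul ((𝔸.abv w).pos hc).ne' (nrm_pos _ hx).ne']
  rw [this, 𝔸.L_add' (𝔸.log_mem hc) (𝔸.log_nrm_mem hx), 𝔸.product_formula hc, zero_add]

theorem ht_nonneg {ι : Type*} [Finite ι] {x : ι → k} (hx : x ≠ 0) : 0 ≤ 𝔸.ht x := by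
  obtain ⟨i, hi⟩ := Function.ne_iff.mp hx
  have : 𝔸.L (fun w => Real.log (𝔸.abv w (x i))) ≤ 𝔸.ht x :=
    𝔸.L_mono (𝔸.log_mem hi) (𝔸.log_nrm_mem hx) fun w =>
      Real.log_le_log ((𝔸.abv w).pos hi) (le_nrm _ x i)
  rwa [𝔸.product_formula hi] at this

/-- admissible constants -/
def Adm (C : 𝔸.W → ℝ) : Prop := (∀ w, 1 ≤ C w) ∧ (fun w => Real.log (C w)) ∈ 𝔸.A

variable {𝔸}

theorem Adm.pos {C : 𝔸.W → ℝ} (hC : 𝔸.Adm C) (w : 𝔸.W) : 0 < C w := zero_lt_one.trans_le (hC.1 w)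

theorem Adm.one_le {C : 𝔸.W → ℝ} (hC : 𝔸.Adm C) (w : 𝔸.W) : 1 ≤ C w := hC.1 w

theorem adm_one : 𝔸.Adm (fun _ => 1) := ⟨fun _ => le_rfl, by simpa using 𝔸.zero_mem⟩

theorem Adm.mul {C D : 𝔸.W → ℝ} (hC : 𝔸.Adm C) (hD : 𝔸.Adm D) : 𝔸.Adm (fun w => C w * D w) := by
  refine ⟨fun w => one_le_mul_of_one_le_of_one_le (hC.1 w) (hD.1 w), ?_⟩
  have : (fun w => Real.log (C w * D w)) = fun w => Real.log (C w) + Real.log (D w) := by
    ext w
    rw [Real.log_mul (hC.pos w).ne' (hD.pos w).ne']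
  rw [this]
  exact 𝔸.add_mem hC.2 hD.2

theorem Adm.pow {C : 𝔸.W → ℝ} (hC : 𝔸.Adm C) (n : ℕ) : 𝔸.Adm (fun w => C w ^ n) := by
  induction n with
  | zero => simpa using adm_one
  | succ n ih =>
    simp only [pow_succ]
    exact ih.mul hC

theorem Adm.max {C D : 𝔸.W → ℝ} (hC : 𝔸.Adm C) (hD : 𝔸.Adm D) :
    𝔸.Adm (fun w => max (C w) (D w)) := by
  refine ⟨fun w => le_max_of_le_left (hC.1 w), ?_⟩
  have : (fun w => Real.log (Max.max (C w) (D w))) =
      fun w => Max.max (Real.log (C w)) (Real.log (D w)) := by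
    ext w
    rcases le_total (C w) (D w) with h | h
    · rw [max_eq_right h, max_eq_right (Real.log_le_log (hC.pos w) h)]
    · rw [max_eq_left h, max_eq_left (Real.log_le_log (hD.pos w) h)]
  rw [this]
  exact 𝔸.sup_mem hC.2 hD.2

open Classical in
variable (𝔸) in
/-- archimedean constant -/
noncomputable def archC (n : ℕ) (w : 𝔸.W) : ℝ := if w ∈ 𝔸.arch then max 1 n else 1

theorem adm_archC (n : ℕ) : 𝔸.Adm (𝔸.archC n) := by
  classical
  refine ⟨fun w => ?_, ?_⟩
  · unfold archC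
    split_ifs
    · exact le_max_left _ _
    · exact le_rfl
  · have : (fun w => Real.log (𝔸.archC n w)) =
        fun w => Real.log (max 1 n) * (𝔸.arch.indicator (fun _ => (1 : ℝ)) w) := by
      ext w
      unfold archC
      split_ifs with h
      · rw [Set.indicator_of_mem h, mul_one]
      · rw [Set.indicator_of_notMem h, mul_zero, Real.log_one]
    rw [this]
    exact 𝔸.mul_mem _ 𝔸.arch_mem

theorem fac_le_archC (n : ℕ) (w : 𝔸.W) : fac (𝔸.abv w) n ≤ 𝔸.archC n w := by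
  classical
  unfold archC fac
  split_ifs with h1 h2 h2
  · exact le_max_left _ _
  · exact le_rfl
  · exact le_rfl
  · exact absurd (𝔸.nonarch w h2) h1

theorem adm_max_abv (x : k) : 𝔸.Adm (fun w => max 1 (𝔸.abv w x)) := by
  refine ⟨fun w => le_max_left _ _, ?_⟩
  rcases eq_or_ne x 0 with rfl | hx
  · simpa using 𝔸.zero_mem
  · have : (fun w => Real.log (Max.max 1 (𝔸.abv w x))) =
        fun w => Max.max (0 : ℝ) (Real.log (𝔸.abv w x)) := by
      ext w
      rcases le_total 1 (𝔸.abv w x) with h | h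
      · rw [max_eq_right h, max_eq_right (Real.log_nonneg h)]
      · rw [max_eq_left h, Real.log_one, max_eq_left (Real.log_nonpos ((𝔸.abv w).nonneg _) h)]
    rw [this]
    exact 𝔸.sup_mem 𝔸.zero_mem (𝔸.log_mem hx)

/-- a finite family of elements is bounded by an admissible constant -/
theorem exists_adm_bound {ι : Type*} (s : Finset ι) (x : ι → k) :
    ∃ C, 𝔸.Adm C ∧ ∀ w, ∀ i ∈ s, 𝔸.abv w (x i) ≤ C w := by
  classical
  induction s using Finset.induction_on with
  | empty => exact ⟨_, adm_one, by simp⟩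
  | insert a s ha ih =>
    obtain ⟨C, hC, h⟩ := ih
    refine ⟨_, hC.max (adm_max_abv (x a)), fun w i hi => ?_⟩
    rcases Finset.mem_insert.mp hi with rfl | hi
    · exact le_max_of_le_right (le_max_right _ _)
    · exact le_max_of_le_left (h w i hi)

theorem exists_adm_bound' {ι : Type*} [Finite ι] (x : ι → k) :
    ∃ C, 𝔸.Adm C ∧ ∀ w, ∀ i, 𝔸.abv w (x i) ≤ C w := by
  have := Fintype.ofFinite ι
  obtain ⟨C, hC, h⟩ := exists_adm_bound (𝔸 := 𝔸) Finset.univ x
  exact ⟨C, hC, fun w i => h w i (Finset.mem_univ i)⟩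

/-- common bound for finitely many admissible constants -/
theorem exists_adm_sup {ι : Type*} [Finite ι] (C : ι → 𝔸.W → ℝ) (hC : ∀ i, 𝔸.Adm (C i)) :
    ∃ D, 𝔸.Adm D ∧ ∀ i w, C i w ≤ D w := by
  classical
  have := Fintype.ofFinite ι
  suffices ∀ s : Finset ι, ∃ D, 𝔸.Adm D ∧ ∀ i ∈ s, ∀ w, C i w ≤ D w by
    obtain ⟨D, hD, h⟩ := this Finset.univ
    exact ⟨D, hD, fun i => h i (Finset.mem_univ i)⟩
  intro s
  induction s using Finset.induction_on with
  | empty => exact ⟨_, adm_one, by simp⟩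
  | insert a s ha ih =>
    obtain ⟨D, hD, h⟩ := ih
    refine ⟨_, hD.max (hC a), fun i hi w => ?_⟩
    rcases Finset.mem_insert.mp hi with rfl | hi
    · exact le_max_right _ _
    · exact le_max_of_le_left (h i hi w)

section poly

open MvPolynomial

/-- polynomials are bounded on the unit polydisc -/
theorem exists_adm_eval {σ : Type*} (p : MvPolynomial σ k) :
    ∃ C, 𝔸.Adm C ∧ ∀ w, ∀ z : σ → k, (∀ i, 𝔸.abv w (z i) ≤ 1) → 𝔸.abv w (eval z p) ≤ C w := by
  obtain ⟨C, hC, h⟩ := exists_adm_bound (𝔸 := 𝔸) p.support (fun m => p.coeff m)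
  refine ⟨_, hC.mul (adm_archC p.support.card), fun w z hz => ?_⟩
  rw [eval_eq]
  have h1 : ∀ m ∈ p.support, 𝔸.abv w (coeff m p * ∏ i ∈ m.support, z i ^ m i) ≤ C w := by
    intro m hm
    rw [map_mul, map_prod]
    calc 𝔸.abv w (coeff m p) * ∏ i ∈ m.support, 𝔸.abv w (z i ^ m i)
        ≤ 𝔸.abv w (coeff m p) * 1 := by
          gcongr
          apply Finset.prod_le_one
          · intro i _; exact (𝔸.abv w).nonneg _
          · intro i _
            rw [map_pow]
            exact pow_le_one₀ ((𝔸.abv w).nonneg _) (hz i)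
      _ ≤ C w := by rw [mul_one]; exact h w m hm
  have h2 := sum_le_fac (𝔸.abv w) p.support _ (hC.pos w).le h1 le_rfl
  calc _ ≤ fac (𝔸.abv w) p.support.card * C w := h2
    _ ≤ 𝔸.archC p.support.card w * C w := by
      gcongr
      · exact (hC.pos w).le
      · exact fac_le_archC _ _
    _ = _ := mul_comm _ _

/-- **Nullstellensatz principle**: polynomials without common zero are uniformly bounded below on
the unit polydisc. -/
theorem nullstellensatz [IsAlgClosed k] {σ τ : Type*} [Finite σ] [Finite τ]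
    (p : τ → MvPolynomial σ k) (hp : ∀ z : σ → k, ∃ t, eval z (p t) ≠ 0) :
    ∃ C, 𝔸.Adm C ∧ ∀ w, ∀ z : σ → k, (∀ i, 𝔸.abv w (z i) ≤ 1) →
      ∃ t, 1 ≤ C w * 𝔸.abv w (eval z (p t)) := by
  classical
  have := Fintype.ofFinite τ
  let I : Ideal (MvPolynomial σ k) := Ideal.span (Set.range p)
  have hI : I = ⊤ := by
    have h1 : zeroLocus k I = ∅ := by
      rw [Set.eq_empty_iff_forall_notMem]
      intro z hz
      obtain ⟨t, ht⟩ := hp z
      apply ht
      have := hz (p t) (Ideal.subset_span (Set.mem_range_self t))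
      simpa using this
    have h2 := vanishingIdeal_zeroLocus_eq_radical (K := k) I
    rw [h1] at h2
    have h3 : (1 : MvPolynomial σ k) ∈ I.radical := by
      rw [← h2]
      rw [mem_vanishingIdeal_iff]
      intro x hx
      exact absurd hx (Set.notMem_empty x)
    rw [← Ideal.radical_eq_top, Ideal.eq_top_iff_one]
    exact h3
  have h1 : (1 : MvPolynomial σ k) ∈ I := by rw [hI]; exact Submodule.mem_top
  rw [Ideal.mem_span_range_iff_exists_fun] at h1
  obtain ⟨q, hq⟩ := h1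
  choose C hC hbd using fun t => exists_adm_eval (𝔸 := 𝔸) (q t)
  obtain ⟨D, hD, hCD⟩ := exists_adm_sup C hC
  refine ⟨_, hD.mul (adm_archC (Fintype.card τ)), fun w z hz => ?_⟩
  by_contra hcon
  push Not at hcon
  set a := 𝔸.archC (Fintype.card τ) w with ha
  have hapos : 0 < a := (adm_archC (𝔸 := 𝔸) (Fintype.card τ)).pos w
  have hDpos : 0 < D w := hD.pos w
  have h2 : (1 : ℝ) = 𝔸.abv w (∑ t, eval z (q t) * eval z (p t)) := by
    have := congrArg (eval z) hq
    rw [map_sum, map_one] at this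
    simp only [map_mul] at this
    rw [this, map_one]
  have hτ : Nonempty τ := by
    by_contra hne
    rw [not_nonempty_iff] at hne
    rw [Finset.univ_eq_empty, Finset.sum_empty, map_zero] at h2
    exact one_ne_zero h2
  obtain ⟨t0, ht0⟩ := exists_eq_nrm (𝔸.abv w) (fun t => eval z (p t))
  set m := nrm (𝔸.abv w) (fun t => eval z (p t)) with hm
  have hm0 : 0 ≤ m := nrm_nonneg _ _
  have h3 : 𝔸.abv w (∑ t, eval z (q t) * eval z (p t)) ≤
      fac (𝔸.abv w) (Fintype.card τ) * (D w * m) := by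
    apply sum_univ_le_fac
    · positivity
    · intro t
      rw [map_mul]
      have h4 : 𝔸.abv w (eval z (q t)) ≤ D w := (hbd t w z hz).trans (hCD t w)
      have h5 : 𝔸.abv w (eval z (p t)) ≤ m := le_nrm (𝔸.abv w) (fun t => eval z (p t)) t
      have h6 := (𝔸.abv w).nonneg (eval z (p t))
      gcongr
  have h4 : fac (𝔸.abv w) (Fintype.card τ) * (D w * m) ≤ a * (D w * m) := by
    gcongr
    exact fac_le_archC _ _
  have h5 := hcon t0
  rw [ht0] at h5
  nlinarith

end poly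

end AdelicStr

end Fermat.Agent.MW
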