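import Fermat.Agent.MW.Selmer
import Fermat.Agent.RepTwo.Geometry
import Fermat.Agent.ESh.Final

/-!
# Weak Mordell-Weil for `J₀(N)`
-/

set_option autoImplicit false

open AlgebraicCurve ModularCurve

namespace Fermat.Agent.MW

local notation "Qb" => AlgebraicClosure ℚ
local notation "Γ" => (AlgebraicClosure ℚ ≃ₐ[ℚ] AlgebraicClosure ℚ)

/-- the rational points of `J₀(N)` modulo `p` form a finite group -/
theorem weak_mordell_weil_JZero (N : ℕ) [NeZero N] (p : ℕ) [Fact p.Prime]
    (hdiv : ∀ x : JZero N, ∃ y : JZero N, p • y = x) :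
    (nsmulAddMonoidHom (α := FixedPoints.addSubgroup Γ (JZero N)) p).range.FiniteIndex := by
  classical
  have : NeZero p := ⟨(Fact.out : p.Prime).ne_zero⟩
  have hNp : N * p ≠ 0 := mul_ne_zero (NeZero.ne N) (NeZero.ne p)
  have hpd : HasPrincipalDivisors Qb (modularFunctionFieldBar N) := RepTwo.hasPrincipalDivisors_bar N
  letI : Module HeckeAlg (JZero N) := heckeModuleBar N
  have hcomm := RepTwo.heckeOperatorsCommuteBar N
  have hsm : SMulCommClass Γ HeckeAlg (JZero N) := JZ.smulCommClass_heckeModuleBar N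
  have hspec : SpecializationExists (K := ℚ) (L := Qb) N p (JZero N) :=
    ESh.specializationExists N p hcomm hsm
  refine weak_mordell_weil p
    ((N * p).primeFactors.attach.image fun q => ⟨q.1, Nat.prime_of_mem_primeFactors q.2⟩)
    ?_ ?_ hdiv ?_
  · have h := Top.finite_pTor N p
    exact Set.toFinite (RepTwo.pTor (JZero N) p : Set (JZero N))
  · intro x
    obtain ⟨E, hE, h⟩ := JZ.exists_level_pic0_of_hasPrincipalDivisors
      (F₀ := modularFunctionFieldFull N) x
    exact ⟨E, hE, fun σ hσ => h σ fun y hy =>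
      (IntermediateField.mem_fixingSubgroup_iff _ _).mp hσ y hy⟩
  · intro q hq A hA σ hσ y hy
    have hqN : ¬ (q : ℕ) ∣ N * p := by
      intro h
      apply hq
      rw [Finset.mem_image]
      exact ⟨⟨q, Nat.mem_primeFactors.mpr ⟨q.2, h, hNp⟩⟩, Finset.mem_attach _ _, rfl⟩
    obtain ⟨J', i1, i2, sp, F, hsp, -⟩ := hspec q q.2 hqN A hA
    have h1 : sp (σ • y - y) = 0 := by
      rw [map_sub, hsp.inertia_comm σ hσ y, sub_self]
    have h2 := hsp.injective_torsion (σ • y - y) ⟨1, by rw [pow_one]; exact hy⟩ h1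
    exact sub_eq_zero.mp h2

end Fermat.Agent.MW
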