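import Fermat.Agent.MW.Final
import Fermat.Agent.MW.Weak

/-!
# Mordell-Weil for `J₀(N)` from height data and divisibility
-/

set_option autoImplicit false

open AlgebraicCurve ModularCurve

namespace Fermat.Agent.MW

local notation "Qb" => AlgebraicClosure ℚ
local notation "Γ" => (AlgebraicClosure ℚ ≃ₐ[ℚ] AlgebraicClosure ℚ)

theorem finiteIndex_of_level {E : IntermediateField ℚ Qb} (hE : FiniteDimensional ℚ E) :
    E.fixingSubgroup.FiniteIndex := CFT.finiteIndex_fixingSubgroup _

/-- **Mordell-Weil theorem for `J₀(N)`** over `ℚ`, given the theory of heights and the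
divisibility of `J₀(N)`. -/
theorem fg_JZero (N : ℕ) [NeZero N] (hdiv : ∀ x : JZero N, ∃ y : JZero N, 2 • y = x)
    (o : Place Qb (modularFunctionFieldBar N)) (H : HeightData QbarAd.adelicQb o) :
    AddGroup.FG (FixedPoints.addSubgroup Γ (JZero N)) := by
  have hpd : HasPrincipalDivisors Qb (modularFunctionFieldBar N) := RepTwo.hasPrincipalDivisors_bar N
  have hfin : ∀ f : modularFunctionFieldBar N, f ≠ 0 →
      {v : Place Qb (modularFunctionFieldBar N) | v.ord f ≠ 0}.Finite := by
    intro f hf
    obtain ⟨D, hD, -⟩ := HasPrincipalDivisors.exists_divisor (K := Qb) f hf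
    refine D.support.finite_toSet.subset fun v hv => ?_
    rw [Finset.mem_coe, Finsupp.mem_support_iff, hD v]
    exact hv
  have : Fact (Nat.Prime 2) := ⟨Nat.prime_two⟩
  refine fg_of_heightData (arithmeticGalois (modularFunctionFieldFull N)) ?_ o H ?_ ?_ ?_ _ ?_
    (weak_mordell_weil_JZero N 2 hdiv)
  · intro σ a
    exact arithmeticRingAut_algebraMap _ σ a
  · intro x
    obtain ⟨E, hE, h⟩ := JZ.exists_level_pic0_of_hasPrincipalDivisors
      (F₀ := modularFunctionFieldFull N) x
    exact ⟨E.fixingSubgroup, finiteIndex_of_level hE, fun σ hσ => h σ fun y hy =>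
      (IntermediateField.mem_fixingSubgroup_iff _ _).mp hσ y hy⟩
  · obtain ⟨E, hE, h⟩ := JZ.exists_level_place (F₀ := modularFunctionFieldFull N) hfin o
    exact ⟨E.fixingSubgroup, finiteIndex_of_level hE, fun σ hσ => h σ fun y hy =>
      (IntermediateField.mem_fixingSubgroup_iff _ _).mp hσ y hy⟩
  · obtain ⟨E, hE, h⟩ := JZ.exists_level_finset (F₀ := modularFunctionFieldFull N) {H.f}
    exact ⟨E.fixingSubgroup, finiteIndex_of_level hE, fun σ hσ => h σ (fun y hy =>
      (IntermediateField.mem_fixingSubgroup_iff _ _).mp hσ y hy) _ (Finset.mem_singleton_self _)⟩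
  · intro x hx σ
    exact hx σ

end Fermat.Agent.MW
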