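import Mathlib
import Fermat.Agent.RR.Duality

/-!
# Base divisors and pencils: `L(A) · L(B) = L(A + B)` and recognition of `L(n·o - D)`
-/

set_option autoImplicit false
set_option linter.unusedSectionVars false
set_option linter.style.haveILetI false

open WithZero AlgebraicCurve Fermat.Agent.RR Module
open Fermat.Agent.FF (IsFnField)

namespace Fermat.Agent.MW

variable {K F : Type*} [Field K] [Field F] [Algebra K F] [IsAlgClosed K] [IsFnField K F]

/-- the base divisor of a linear system -/
theorem exists_base {W : Submodule K F} {E : Divisor K F} (hW : W ≤ riemannRochSpace E)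
    (h0 : W ≠ ⊥) : ∃ D : Divisor K F, (∀ w ∈ W, w ≠ 0 → D ≤ divOf w) ∧
      ∀ v : Place K F, ∃ w ∈ W, w ≠ 0 ∧ v.ord w = D v := by
  classical
  obtain ⟨w0, hw0, hw00⟩ := Submodule.exists_mem_ne_zero_of_ne_bot h0
  have hlow : ∀ w ∈ W, w ≠ 0 → ∀ v : Place K F, -E v ≤ v.ord w := by
    intro w hw hw' v
    have := (mem_riemannRochSpace_iff_divOf hw').1 (hW hw) v
    simp only [Finsupp.coe_zero, Pi.zero_apply, Finsupp.add_apply, divOf_apply] at this
    omega
  have key : ∀ v : Place K F, ∃ m : ℤ, (∃ w ∈ W, w ≠ 0 ∧ v.ord w = m) ∧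
      ∀ z : ℤ, (∃ w ∈ W, w ≠ 0 ∧ v.ord w = z) → m ≤ z := by
    intro v
    apply Int.exists_least_of_bdd
    · refine ⟨-E v, ?_⟩
      rintro z ⟨w, hw, hw', rfl⟩
      exact hlow w hw hw' v
    · exact ⟨v.ord w0, w0, hw0, hw00, rfl⟩
  choose m hm hm' using key
  refine ⟨Finsupp.onFinset (E.support ∪ (divOf (K := K) w0).support) m ?_, ?_, ?_⟩
  · intro v hv
    rw [Finset.mem_union, Finsupp.mem_support_iff, Finsupp.mem_support_iff]
    by_contra hcon
    push Not at hcon
    apply hv
    obtain ⟨w, hw, hw', h⟩ := hm v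
    have h1 := hlow w hw hw' v
    have h2 := hm' v (v.ord w0) ⟨w0, hw0, hw00, rfl⟩
    rw [divOf_apply] at hcon
    omega
  · intro w hw hw' v
    exact hm' v _ ⟨w, hw, hw', rfl⟩
  · intro v
    exact hm v

/-- an infinite field: a generic member avoids finitely many proper conditions. -/
theorem exists_pencil {W : Submodule K F} (h0 : W ≠ ⊥) {D : Divisor K F}
    (hD : ∀ w ∈ W, w ≠ 0 → D ≤ divOf w) (hD' : ∀ v : Place K F, ∃ w ∈ W, w ≠ 0 ∧ v.ord w = D v) :
    ∃ w₁ ∈ W, ∃ w₂ ∈ W, w₁ ≠ 0 ∧ w₂ ≠ 0 ∧ ∀ v : Place K F, D v = min (v.ord w₁) (v.ord w₂) := by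
  classical
  obtain ⟨w₁, hw₁, hw₁0⟩ := Submodule.exists_mem_ne_zero_of_ne_bot h0
  -- the condition at `v`
  let P : Place K F → Subspace K W := fun v =>
    (riemannRochSpace (-D - Finsupp.single v 1)).comap W.subtype
  have hP : ∀ (v : Place K F) (w : W), w ∉ P v → v.ord (w : F) = D v := by
    intro v w hw
    have hw0 : (w : F) ≠ 0 := by
      intro h
      apply hw
      show (w : F) ∈ riemannRochSpace (-D - Finsupp.single v 1)
      rw [h]
      exact Submodule.zero_mem _
    have h1 := hD w w.2 hw0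
    have h1v : D v ≤ v.ord (w : F) := h1 v
    refine le_antisymm ?_ h1v
    by_contra hlt
    push Not at hlt
    apply hw
    show (w : F) ∈ riemannRochSpace (-D - Finsupp.single v 1)
    rw [mem_riemannRochSpace_iff_divOf hw0]
    intro u
    have h2 := h1 u
    simp only [Finsupp.coe_zero, Pi.zero_apply, Finsupp.add_apply, divOf_apply, Finsupp.sub_apply,
      Finsupp.neg_apply, Finsupp.single_apply] at h2 ⊢
    split_ifs with huv
    · subst huv; omega
    · omega
  have hPtop : ∀ v : Place K F, P v ≠ ⊤ := by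
    intro v h
    obtain ⟨w, hw, hw0, hwv⟩ := hD' v
    have h1 : (⟨w, hw⟩ : W) ∈ P v := by rw [h]; trivial
    have h2 : w ∈ riemannRochSpace (-D - Finsupp.single v 1) := h1
    rw [mem_riemannRochSpace_iff_divOf hw0] at h2
    have := h2 v
    simp only [Finsupp.coe_zero, Pi.zero_apply, Finsupp.add_apply, divOf_apply, Finsupp.sub_apply,
      Finsupp.neg_apply, Finsupp.single_apply, if_true] at this
    omega
  let S : Finset (Subspace K W) := insert ⊥ (((divOf (K := K) w₁ - D).support).image P)
  have hS : (⊤ : Subspace K W) ∉ S := by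
    rw [Finset.mem_insert, Finset.mem_image]
    rintro (h | ⟨v, -, h⟩)
    · apply h0
      rw [eq_bot_iff]
      intro w hw
      have h1 : (⟨w, hw⟩ : W) ∈ (⊤ : Submodule K W) := trivial
      rw [h, Submodule.mem_bot] at h1
      rw [Submodule.mem_bot]
      exact congrArg Subtype.val h1
    · exact hPtop v h
  have h2 := Subspace.biUnion_ne_univ_of_top_notMem hS
  obtain ⟨w₂, hw₂⟩ := (Set.ne_univ_iff_exists_notMem _).1 h2
  simp only [Set.mem_iUnion, not_exists] at hw₂
  have hw₂0 : (w₂ : F) ≠ 0 := by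
    intro h
    apply hw₂ ⊥ (Finset.mem_insert_self _ _)
    rw [SetLike.mem_coe, Submodule.mem_bot]
    exact Subtype.ext h
  refine ⟨w₁, hw₁, w₂, w₂.2, hw₁0, hw₂0, fun v => ?_⟩
  have hv1 := hD w₁ hw₁ hw₁0 v
  have hv2 := hD w₂ w₂.2 hw₂0 v
  rw [divOf_apply] at hv1 hv2
  by_cases hv : v.ord w₁ = D v
  · omega
  · have : v.ord (w₂ : F) = D v := by
      apply hP v w₂
      apply hw₂ (P v)
      apply Finset.mem_insert_of_mem
      apply Finset.mem_image_of_mem
      rw [Finsupp.mem_support_iff, Finsupp.sub_apply, divOf_apply]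
      omega
    omega

/-- multiplication by `w` -/
noncomputable def mulL (w : F) : F →ₗ[K] F := LinearMap.mulLeft K w

theorem mem_map_mulL {w f : F} (hw : w ≠ 0) {B : Divisor K F} :
    f ∈ (riemannRochSpace B).map (mulL (K := K) w) ↔ f ∈ riemannRochSpace (B - divOf w) := by
  by_cases hf : f = 0
  · subst hf
    exact ⟨fun _ => Submodule.zero_mem _, fun _ => Submodule.zero_mem _⟩
  rw [Submodule.mem_map, mem_riemannRochSpace_iff_divOf hf]
  constructor
  · rintro ⟨b, hb, rfl⟩
    have hb0 : b ≠ 0 := by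
      rintro rfl
      exact hf (map_zero _)
    rw [mem_riemannRochSpace_iff_divOf hb0] at hb
    have h1 : mulL (K := K) w b = w * b := rfl
    rw [h1, divOf_mul hw hb0]
    intro v
    have := hb v
    simp only [Finsupp.coe_zero, Pi.zero_apply, Finsupp.add_apply, Finsupp.sub_apply] at this ⊢
    omega
  · intro h
    refine ⟨w⁻¹ * f, ?_, ?_⟩
    · rw [mem_riemannRochSpace_iff_divOf (mul_ne_zero (inv_ne_zero hw) hf),
        divOf_mul (inv_ne_zero hw) hf, divOf_inv]
      intro v
      have := h v
      simp only [Finsupp.coe_zero, Pi.zero_apply, Finsupp.add_apply, Finsupp.sub_apply,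
        Finsupp.neg_apply] at this ⊢
      omega
    · show w * (w⁻¹ * f) = f
      rw [← mul_assoc, mul_inv_cancel₀ hw, one_mul]

theorem map_mulL {w : F} (hw : w ≠ 0) (B : Divisor K F) :
    (riemannRochSpace B).map (mulL (K := K) w) = riemannRochSpace (B - divOf w) :=
  Submodule.ext fun _ => mem_map_mulL hw

/-- the pencil trick -/
theorem finrank_pencil {w₁ w₂ : F} (h1 : w₁ ≠ 0) (h2 : w₂ ≠ 0) {D : Divisor K F}
    (hD : ∀ v : Place K F, D v = min (v.ord w₁) (v.ord w₂)) (B : Divisor K F) :
    finrank K ((riemannRochSpace B).map (mulL (K := K) w₁) ⊔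
      (riemannRochSpace B).map (mulL (K := K) w₂) : Submodule K F) +
      ell (B + D - divOf w₁ - divOf w₂) = 2 * ell B := by
  have hinf : (riemannRochSpace B).map (mulL (K := K) w₁) ⊓
      (riemannRochSpace B).map (mulL (K := K) w₂) =
      riemannRochSpace (B + D - divOf w₁ - divOf w₂) := by
    rw [map_mulL h1, map_mulL h2]
    ext f
    by_cases hf : f = 0
    · subst hf
      exact ⟨fun _ => Submodule.zero_mem _, fun _ => Submodule.zero_mem _⟩
    rw [Submodule.mem_inf, mem_riemannRochSpace_iff_divOf hf, mem_riemannRochSpace_iff_divOf hf,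
      mem_riemannRochSpace_iff_divOf hf]
    constructor
    · rintro ⟨ha, hb⟩ v
      have ha := ha v
      have hb := hb v
      have hc := hD v
      simp only [Finsupp.coe_zero, Pi.zero_apply, Finsupp.add_apply, Finsupp.sub_apply,
        divOf_apply] at ha hb ⊢
      omega
    · intro h
      constructor <;>
      · intro v
        have h := h v
        have hc := hD v
        simp only [Finsupp.coe_zero, Pi.zero_apply, Finsupp.add_apply, Finsupp.sub_apply,
          divOf_apply] at h ⊢
        omega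
  have hfr : ∀ w : F, w ≠ 0 → finrank K ((riemannRochSpace B).map (mulL (K := K) w)) = ell B := by
    intro w hw
    rw [map_mulL hw]
    have := ell_add_divOf (B - divOf w) hw
    rw [sub_add_cancel] at this
    exact this.symm
  have := Submodule.finrank_sup_add_finrank_inf_eq ((riemannRochSpace B).map (mulL (K := K) w₁))
    ((riemannRochSpace B).map (mulL (K := K) w₂))
  rw [hinf, hfr w₁ h1, hfr w₂ h2] at this
  rw [ell, this]
  omega

/-- the lower bound for `dim W · L(B)` -/
theorem le_finrank_mul {W : Submodule K F} {w₁ w₂ : F} (hw₁ : w₁ ∈ W) (hw₂ : w₂ ∈ W)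
    (h1 : w₁ ≠ 0) (h2 : w₂ ≠ 0) {D : Divisor K F}
    (hD : ∀ v : Place K F, D v = min (v.ord w₁) (v.ord w₂)) (B : Divisor K F)
    (hB : 2 * (genusFF K F : ℤ) - 2 < Divisor.degree B)
    (hBD : 2 * (genusFF K F : ℤ) - 2 < Divisor.degree B + Divisor.degree D) :
    ∃ U : Submodule K F, U ≤ riemannRochSpace B * W ∧ Module.Finite K U ∧
      (finrank K U : ℤ) = Divisor.degree B - Divisor.degree D + 1 - genusFF K F := by
  refine ⟨(riemannRochSpace B).map (mulL (K := K) w₁) ⊔
      (riemannRochSpace B).map (mulL (K := K) w₂), ?_, ?_, ?_⟩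
  · apply sup_le
    · rintro _ ⟨b, hb, rfl⟩
      have : mulL (K := K) w₁ b = b * w₁ := mul_comm _ _
      rw [this]
      exact Submodule.mul_mem_mul hb hw₁
    · rintro _ ⟨b, hb, rfl⟩
      have : mulL (K := K) w₂ b = b * w₂ := mul_comm _ _
      rw [this]
      exact Submodule.mul_mem_mul hb hw₂
  · infer_instance
  · have h3 := finrank_pencil h1 h2 hD B
    have h4 := ell_eq_of_lt_degree hB
    have hdeg : Divisor.degree (B + D - divOf w₁ - divOf w₂) =
        Divisor.degree B + Divisor.degree D := by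
      rw [map_sub, map_sub, map_add, degree_divOf, degree_divOf, sub_zero, sub_zero]
    have h5 := ell_eq_of_lt_degree (D := B + D - divOf w₁ - divOf w₂) (by rw [hdeg]; exact hBD)
    rw [hdeg] at h5
    zify at h3
    linarith

/-- `L(A)` has no base points if `deg A ≥ 2g`. -/
theorem exists_ord_eq {A : Divisor K F} (h1 : 2 * (genusFF K F : ℤ) ≤ Divisor.degree A)
    (v : Place K F) : ∃ w ∈ riemannRochSpace A, w ≠ 0 ∧ v.ord w = -A v := by
  classical
  have hA := ell_eq_of_lt_degree (D := A) (by omega)
  have hdeg : Divisor.degree (A - Finsupp.single v 1) = Divisor.degree A - 1 := by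
    rw [map_sub, degree_single']
  have hA' := ell_eq_of_lt_degree (D := A - Finsupp.single v 1) (by rw [hdeg]; omega)
  rw [hdeg] at hA'
  have hle : riemannRochSpace (A - Finsupp.single v 1) ≤ riemannRochSpace A := by
    apply riemannRochSpace_mono
    intro u
    rw [Finsupp.sub_apply, Finsupp.single_apply]
    split_ifs <;> omega
  have hlt : riemannRochSpace (A - Finsupp.single v 1) < riemannRochSpace A := by
    refine lt_of_le_of_ne hle fun h => ?_
    have : ell (A - Finsupp.single v 1) = ell A := by rw [ell, ell, h]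
    omega
  obtain ⟨w, hw, hw'⟩ := SetLike.exists_of_lt hlt
  have hw0 : w ≠ 0 := by
    rintro rfl
    exact hw' (Submodule.zero_mem _)
  refine ⟨w, hw, hw0, ?_⟩
  rw [mem_riemannRochSpace_iff_divOf hw0] at hw hw'
  have hv := hw v
  simp only [Finsupp.coe_zero, Pi.zero_apply, Finsupp.add_apply, divOf_apply] at hv
  by_contra hne
  apply hw'
  intro u
  have hu := hw u
  simp only [Finsupp.coe_zero, Pi.zero_apply, Finsupp.add_apply, Finsupp.sub_apply,
    divOf_apply, Finsupp.single_apply] at hu ⊢
  split_ifs with huv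
  · subst huv; omega
  · omega

/-- **(C2)** -/
theorem c2 (A B : Divisor K F) (h1 : 2 * (genusFF K F : ℤ) ≤ Divisor.degree A)
    (h2 : Divisor.degree A + 2 * genusFF K F - 1 ≤ Divisor.degree B) :
    riemannRochSpace A * riemannRochSpace B = riemannRochSpace (A + B) := by
  have h0 : riemannRochSpace A ≠ ⊥ := by
    obtain ⟨v⟩ := exists_place K F
    obtain ⟨w, hw, hw0, -⟩ := exists_ord_eq h1 v
    intro h
    rw [h, Submodule.mem_bot] at hw
    exact hw0 hw
  obtain ⟨w₁, hw₁, w₂, hw₂, h10, h20, hD⟩ := exists_pencil (D := -A) h0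
    (by
      intro w hw hw0 v
      have := (mem_riemannRochSpace_iff_divOf hw0).1 hw v
      simp only [Finsupp.coe_zero, Pi.zero_apply, Finsupp.add_apply, divOf_apply] at this
      rw [Finsupp.neg_apply, divOf_apply]
      omega)
    (fun v => exists_ord_eq h1 v)
  obtain ⟨U, hU, hUf, hUr⟩ := le_finrank_mul hw₁ hw₂ h10 h20 hD B (by omega)
    (by rw [map_neg]; omega)
  have hle : riemannRochSpace A * riemannRochSpace B ≤ riemannRochSpace (A + B) := by
    rw [Submodule.mul_le]
    intro a ha b hb
    exact mul_mem_riemannRochSpace ha hb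
  apply le_antisymm hle
  rw [mul_comm] at hU
  have hr := ell_eq_of_lt_degree (D := A + B) (by rw [map_add]; omega)
  have : U = riemannRochSpace (A + B) := by
    apply Submodule.eq_of_le_of_finrank_eq (hU.trans hle)
    rw [map_neg] at hUr
    rw [map_add] at hr
    have : (finrank K U : ℤ) = finrank K (riemannRochSpace (A + B)) := by
      rw [hUr]
      rw [ell] at hr
      rw [hr]
      ring
    exact_mod_cast this
  rw [← this]
  exact hU

/-- **(C1)** -/
theorem c1 (o : Place K F) (W : Submodule K F) (n d k : ℕ)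
    (hW : W ≤ riemannRochSpace (Finsupp.single o (n : ℤ)))
    (hdim : (finrank K W : ℤ) = n + 1 - genusFF K F - d) (hnd : d + 3 * genusFF K F ≤ n)
    (hk : n + 2 * genusFF K F ≤ k)
    (hr : (finrank K (riemannRochSpace (Finsupp.single o (k : ℤ)) * W : Submodule K F) : ℤ) ≤
      n + k + 1 - genusFF K F - d) :
    ∃ D : Divisor K F, 0 ≤ D ∧ Divisor.degree D = d ∧
      W = riemannRochSpace (Finsupp.single o (n : ℤ) - D) := by
  classical
  have h0 : W ≠ ⊥ := by
    rintro rfl
    rw [finrank_bot] at hdim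
    push_cast at hdim
    omega
  obtain ⟨D, hD, hD'⟩ := exists_base hW h0
  obtain ⟨w₁, hw₁, w₂, hw₂, h10, h20, hDm⟩ := exists_pencil h0 hD hD'
  set D' : Divisor K F := Finsupp.single o (n : ℤ) + D with hDef
  have hD'0 : 0 ≤ D' := by
    intro v
    obtain ⟨w, hw, hw0, hwv⟩ := hD' v
    have := (mem_riemannRochSpace_iff_divOf hw0).1 (hW hw) v
    simp only [Finsupp.coe_zero, Pi.zero_apply, Finsupp.add_apply, divOf_apply, hDef] at this ⊢
    omega
  have hD'deg : 0 ≤ Divisor.degree D' := by
    have := degree_mono hD'0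
    rwa [map_zero] at this
  have hDdeg : Divisor.degree D = Divisor.degree D' - n := by
    rw [hDef, map_add, degree_single']
    ring
  have hWD : W ≤ riemannRochSpace (Finsupp.single o (n : ℤ) - D') := by
    intro w hw
    by_cases hw0 : w = 0
    · subst hw0; exact Submodule.zero_mem _
    rw [mem_riemannRochSpace_iff_divOf hw0]
    intro v
    have := hD w hw hw0 v
    simp only [Finsupp.coe_zero, Pi.zero_apply, Finsupp.add_apply, Finsupp.sub_apply, divOf_apply,
      hDef] at this ⊢
    omega
  have hell : finrank K W ≤ ell (Finsupp.single o (n : ℤ) - D') :=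
    Submodule.finrank_mono hWD
  have hdegs : Divisor.degree (Finsupp.single o (n : ℤ) - D') = n - Divisor.degree D' := by
    rw [map_sub, degree_single']
  -- `n - d' ≥ 2g - 1`
  have hbig : 2 * (genusFF K F : ℤ) - 2 < Divisor.degree (Finsupp.single o (n : ℤ) - D') := by
    by_contra hcon
    push Not at hcon
    by_cases hneg : Divisor.degree (Finsupp.single o (n : ℤ) - D') < 0
    · have := ell_eq_zero_of_degree_neg hneg
      omega
    · push Not at hneg
      have := ell_le_degree_add_one hneg
      omega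
  have hellD := ell_eq_of_lt_degree hbig
  have hdle : Divisor.degree D' ≤ d := by
    rw [hdegs] at hellD
    omega
  obtain ⟨U, hU, hUf, hUr⟩ := le_finrank_mul hw₁ hw₂ h10 h20 hDm (Finsupp.single o (k : ℤ))
    (by rw [degree_single']; omega) (by rw [degree_single', hDdeg]; omega)
  have hfin : Module.Finite K (riemannRochSpace (Finsupp.single o (k : ℤ)) * W : Submodule K F) := by
    have hle : riemannRochSpace (Finsupp.single o (k : ℤ)) * W ≤
        riemannRochSpace (Finsupp.single o (k : ℤ) + Finsupp.single o (n : ℤ)) := by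
      rw [Submodule.mul_le]
      intro a ha b hb
      exact mul_mem_riemannRochSpace ha (hW hb)
    exact Submodule.finiteDimensional_of_le hle
  have hUle : finrank K U ≤
      finrank K (riemannRochSpace (Finsupp.single o (k : ℤ)) * W : Submodule K F) :=
    Submodule.finrank_mono hU
  rw [degree_single', hDdeg] at hUr
  have hdeq : Divisor.degree D' = d := by omega
  refine ⟨D', hD'0, hdeq, ?_⟩
  apply Submodule.eq_of_le_of_finrank_eq hWD
  rw [hdegs] at hellD
  rw [ell] at hellD
  omega

end Fermat.Agent.MW
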