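import Mathlib

set_option autoImplicit false

/-! # From an approximately quadratic function to the descent height -/

namespace Fermat.Agent.MW

open Filter Topology

/-- Tate's limit argument. -/
theorem tate_limit {A : Type*} [AddCommGroup A] (φ : A → ℝ) (κ C : ℝ) (hκ : 1 < κ)
    (h : ∀ x, |φ (x + x) - κ * φ x| ≤ C) :
    ∃ Φ : A → ℝ, (∀ x, Tendsto (fun n : ℕ => φ ((2 ^ n : ℕ) • x) / κ ^ n) atTop (𝓝 (Φ x))) ∧
      ∀ x, |Φ x - φ x| ≤ C / (κ - 1) := by
  have hκ0 : 0 < κ := by linarith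
  have hC : 0 ≤ C := (abs_nonneg _).trans (h 0)
  have hstep : ∀ x (n : ℕ), dist (φ ((2 ^ n : ℕ) • x) / κ ^ n)
      (φ ((2 ^ (n + 1) : ℕ) • x) / κ ^ (n + 1)) ≤ (C / κ) * (κ⁻¹) ^ n := by
    intro x n
    have h1 := h ((2 ^ n : ℕ) • x)
    have h2 : (2 ^ n : ℕ) • x + (2 ^ n : ℕ) • x = (2 ^ (n + 1) : ℕ) • x := by
      rw [← add_nsmul, pow_succ]; congr 1; ring
    rw [h2] at h1
    rw [Real.dist_eq, abs_sub_comm]
    have h3 : φ ((2 ^ (n + 1) : ℕ) • x) / κ ^ (n + 1) - φ ((2 ^ n : ℕ) • x) / κ ^ n =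
        (φ ((2 ^ (n + 1) : ℕ) • x) - κ * φ ((2 ^ n : ℕ) • x)) / κ ^ (n + 1) := by
      field_simp
      ring
    rw [h3, abs_div, abs_of_pos (pow_pos hκ0 _)]
    calc _ ≤ C / κ ^ (n + 1) := by gcongr
      _ = (C / κ) * (κ⁻¹) ^ n := by
        rw [pow_succ, inv_pow]; field_simp
  have hr : κ⁻¹ < 1 := inv_lt_one_of_one_lt₀ hκ
  have hcau : ∀ x, CauchySeq (fun n : ℕ => φ ((2 ^ n : ℕ) • x) / κ ^ n) :=
    fun x => cauchySeq_of_le_geometric _ _ hr (hstep x)
  choose Φ hΦ using fun x => cauchySeq_tendsto_of_complete (hcau x)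
  refine ⟨Φ, hΦ, fun x => ?_⟩
  have h1 := dist_le_of_le_geometric_of_tendsto₀ _ _ hr (hstep x) (hΦ x)
  rw [Real.dist_eq, abs_sub_comm] at h1
  simp only [pow_zero, one_smul, div_one] at h1
  refine h1.trans (le_of_eq ?_)
  have : 1 - κ⁻¹ = (κ - 1) / κ := by field_simp
  rw [this]
  have h4 : κ - 1 ≠ 0 := by linarith
  field_simp

/-- limits in Tate's argument commute with bounded linear relations -/
theorem tate_rel {κ C a b : ℝ} (hκ : 1 < κ) {u : ℕ → ℝ} {l : ℝ} (hu : ∀ n, |u n| ≤ C)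
    (hl : Tendsto (fun n : ℕ => u n / κ ^ n) atTop (𝓝 l)) : l = 0 := by
  have _ := a
  have _ := b
  have hκ0 : 0 < κ := by linarith
  have h0 : Tendsto (fun n : ℕ => u n / κ ^ n) atTop (𝓝 0) := by
    apply squeeze_zero_norm (a := fun n : ℕ => C * (κ⁻¹) ^ n)
    · intro n
      rw [Real.norm_eq_abs, abs_div, abs_of_pos (pow_pos hκ0 n), inv_pow, ← div_eq_mul_inv]
      gcongr
      exact hu n
    · have := (tendsto_pow_atTop_nhds_zero_of_lt_one (inv_nonneg.mpr hκ0.le)
        (inv_lt_one_of_one_lt₀ hκ)).const_mul C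
      simpa using this
  exact tendsto_nhds_unique hl h0

section

variable {A : Type*} [AddCommGroup A]

/-- the defect of additivity -/
def bil (Q : A → ℝ) (x y : A) : ℝ := Q (x + y) - Q x - Q y

theorem bil_comm (Q : A → ℝ) (x y : A) : bil Q x y = bil Q y x := by
  unfold bil; rw [add_comm x y]; ring

/-- An approximately quadratic function is the sum of a quadratic function and a linear one. -/
theorem exists_quadratic (Q : A → ℝ) (C : ℝ)
    (hB : ∀ x x' y, |bil Q (x + x') y - bil Q x y - bil Q x' y| ≤ C) :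
    ∃ (H : A → ℝ) (l : A → ℝ) (C' : ℝ),
      (∀ x y, H (x + y) + H (x - y) = 2 * (H x + H y)) ∧
      (∀ x y, l (x + y) = l x + l y) ∧ ∀ x, |Q x - H x - l x| ≤ C' := by
  have hC : 0 ≤ C := (abs_nonneg _).trans (hB 0 0 0)
  -- basic consequences
  have hB' : ∀ x y y', |bil Q x (y + y') - bil Q x y - bil Q x y'| ≤ C := by
    intro x y y'
    rw [bil_comm Q x, bil_comm Q x, bil_comm Q x]
    exact hB y y' x
  have hb0 : ∀ x, |bil Q x 0| = |Q 0| := by
    intro x
    unfold bil; rw [add_zero]; rw [show Q x - Q x - Q 0 = - Q 0 by ring, abs_neg]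
  have hneg : ∀ x y, |bil Q x y + bil Q x (-y)| ≤ C + |Q 0| := by
    intro x y
    have h1 := hB' x y (-y)
    rw [add_neg_cancel] at h1
    have h2 := hb0 x
    rw [abs_le] at h1 ⊢
    have h3 := abs_le.mp h2.le
    constructor <;> linarith [h3.1, h3.2, h1.1, h1.2]
  have hnegneg : ∀ x y, |bil Q (-x) (-y) - bil Q x y| ≤ 2 * (C + |Q 0|) := by
    intro x y
    have h1 := hneg (-x) y
    have h2 := hneg y x
    rw [bil_comm Q y x, bil_comm Q y (-x)] at h2
    rw [abs_le] at h1 h2 ⊢
    constructor <;> linarith [h1.1, h1.2, h2.1, h2.2]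
  -- the even part
  set q : A → ℝ := fun x => Q x + Q (-x) with hq
  have hpar : ∀ x y, |q (x + y) + q (x - y) - 2 * (q x + q y)| ≤ 2 * (C + |Q 0|) := by
    intro x y
    have e : q (x + y) + q (x - y) - 2 * (q x + q y) =
        (bil Q x y + bil Q x (-y)) + (bil Q (-x) (-y) + bil Q (-x) y) := by
      simp only [hq, bil]
      have e1 : -(x + y) = -x + -y := by abel
      have e2 : -(x - y) = -x + y := by abel
      rw [e1, e2, ← sub_eq_add_neg x y]
      ring
    rw [e]
    have h1 := hneg x y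
    have h2 := hneg (-x) y
    rw [abs_le] at h1 h2 ⊢
    constructor <;> linarith [h1.1, h1.2, h2.1, h2.2]
  have hq2 : ∀ x, |q (x + x) - 4 * q x| ≤ 2 * (C + |Q 0|) + |q 0| := by
    intro x
    have h1 := hpar x x
    rw [sub_self] at h1
    have h2 := abs_le.mp (le_refl |q 0|)
    rw [abs_le] at h1 ⊢
    constructor <;> linarith [h1.1, h1.2, h2.1, h2.2]
  obtain ⟨Φ, hΦ, hΦ'⟩ := tate_limit q 4 _ (by norm_num) hq2
  have hΦpar : ∀ x y, Φ (x + y) + Φ (x - y) = 2 * (Φ x + Φ y) := by
    intro x y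
    have hlim : Tendsto (fun n : ℕ => (q ((2 ^ n : ℕ) • x + (2 ^ n : ℕ) • y) +
        q ((2 ^ n : ℕ) • x - (2 ^ n : ℕ) • y) -
        2 * (q ((2 ^ n : ℕ) • x) + q ((2 ^ n : ℕ) • y))) / 4 ^ n) atTop
        (𝓝 (Φ (x + y) + Φ (x - y) - 2 * (Φ x + Φ y))) := by
      have := ((hΦ (x + y)).add (hΦ (x - y))).sub (((hΦ x).add (hΦ y)).const_mul 2)
      refine this.congr fun n => ?_
      rw [smul_add, smul_sub]
      ring
    have := tate_rel (a := 0) (b := 0) (by norm_num) (fun n => hpar _ _) hlim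
    linarith
  -- the odd part
  set r : A → ℝ := fun x => Q x - Q (-x) with hr
  have hradd : ∀ x y, |r (x + y) - (r x + r y)| ≤ 2 * (C + |Q 0|) := by
    intro x y
    have e : r (x + y) - (r x + r y) = -(bil Q (-x) (-y) - bil Q x y) := by
      simp only [hr, bil]
      have e1 : -(x + y) = -x + -y := by abel
      rw [e1]; ring
    rw [e, abs_neg]
    exact hnegneg x y
  have hr2 : ∀ x, |r (x + x) - 2 * r x| ≤ 2 * (C + |Q 0|) := by
    intro x
    have := hradd x x
    rwa [← two_mul] at this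
  obtain ⟨Λ, hΛ, hΛ'⟩ := tate_limit r 2 _ (by norm_num) hr2
  have hΛadd : ∀ x y, Λ (x + y) = Λ x + Λ y := by
    intro x y
    have hlim : Tendsto (fun n : ℕ => (r ((2 ^ n : ℕ) • x + (2 ^ n : ℕ) • y) -
        (r ((2 ^ n : ℕ) • x) + r ((2 ^ n : ℕ) • y))) / 2 ^ n) atTop
        (𝓝 (Λ (x + y) - (Λ x + Λ y))) := by
      have := (hΛ (x + y)).sub ((hΛ x).add (hΛ y))
      refine this.congr fun n => ?_
      rw [smul_add]
      ring
    have := tate_rel (a := 0) (b := 0) (by norm_num) (fun n => hradd _ _) hlim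
    linarith
  refine ⟨fun x => Φ x / 2, fun x => Λ x / 2,
    ((2 * (C + |Q 0|) + |q 0|) / (4 - 1) + (2 * (C + |Q 0|)) / (2 - 1)) / 2,
    fun x y => ?_, fun x y => ?_, fun x => ?_⟩
  · have := hΦpar x y
    linarith
  · have := hΛadd x y
    linarith
  · have h1 := hΦ' x
    have h2 := hΛ' x
    have e : Q x - Φ x / 2 - Λ x / 2 = -((Φ x - q x) + (Λ x - r x)) / 2 := by
      simp only [hq, hr]; ring
    rw [e, abs_div, abs_neg, abs_two]
    gcongr
    exact (abs_add_le _ _).trans (add_le_add h1 h2)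

/-- a function satisfying the parallelogram law along an arithmetic progression -/
theorem par_progression {H : A → ℝ} (hH : ∀ x y, H (x + y) + H (x - y) = 2 * (H x + H y))
    (x c : A) (n : ℕ) :
    H (n • x + c) = n ^ 2 * H x + n * (H (x + c) - H x - H c) + H c := by
  have key : ∀ n : ℕ, H (n • x + c) = n ^ 2 * H x + n * (H (x + c) - H x - H c) + H c ∧
      H ((n + 1) • x + c) = (n + 1 : ℕ) ^ 2 * H x + (n + 1 : ℕ) * (H (x + c) - H x - H c) + H c := by
    intro n
    induction n with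
    | zero =>
      constructor
      · simp
      · simp only [zero_add, one_smul, Nat.cast_one]
        ring
    | succ n ih =>
      refine ⟨ih.2, ?_⟩
      have h1 := hH ((n + 1) • x + c) x
      have e1 : (n + 1) • x + c + x = (n + 1 + 1) • x + c := by rw [succ_nsmul x (n + 1)]; abel
      have e2 : (n + 1) • x + c - x = n • x + c := by rw [succ_nsmul x n]; abel
      rw [e1, e2, ih.1, ih.2] at h1
      push_cast at h1 ⊢
      linarith
  exact (key n).1

theorem par_zero {H : A → ℝ} (hH : ∀ x y, H (x + y) + H (x - y) = 2 * (H x + H y)) : H 0 = 0 := by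
  have := hH 0 0
  simp at this
  linarith

theorem par_neg {H : A → ℝ} (hH : ∀ x y, H (x + y) + H (x - y) = 2 * (H x + H y)) (x : A) :
    H (-x) = H x := by
  have := hH 0 x
  rw [par_zero hH] at this
  simp at this
  linarith

/-- The main formal result: positivity and control of `Q` by the quadratic part. -/
theorem exists_height (Q : A → ℝ) (C : ℝ)
    (hB : ∀ x x' y, |bil Q (x + x') y - bil Q x y - bil Q x' y| ≤ C)
    (good : A → Prop) (S : Finset A) (hS : ∀ x, ∃ c ∈ S, good (x + c))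
    (hlow : ∀ x, good x → -C ≤ Q x) :
    ∃ H : A → ℝ, (∀ x y, H (x + y) + H (x - y) = 2 * (H x + H y)) ∧ (∀ x, 0 ≤ H x) ∧
      ∀ T : ℝ, ∃ T' : ℝ, ∀ x, H x ≤ T → ∀ c ∈ S, Q (x + c) ≤ T' := by
  obtain ⟨H, l, C', hH, hl, hQ⟩ := exists_quadratic Q C hB
  have hlneg : ∀ x, l (-x) = - l x := by
    have h0 : l 0 = 0 := by have := hl 0 0; simp at this; exact this
    intro x
    have := hl x (-x)
    rw [add_neg_cancel, h0] at this
    linarith
  have hln : ∀ (n : ℕ) x, l (n • x) = n * l x := by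
    have h0 : l 0 = 0 := by have := hl 0 0; simp at this; exact this
    intro n x
    induction n with
    | zero => simp [h0]
    | succ n ih => rw [succ_nsmul, hl, ih]; push_cast; ring
  -- positivity
  have hpos : ∀ x, 0 ≤ H x := by
    intro x
    by_contra hneg
    push Not at hneg
    -- a bound
    set M := ∑ c ∈ S, (|H (x + c) - H x - H c + l x| + |H c| + |l c|) with hM
    have hbound : ∀ n : ℕ, -C - C' - M - n * M ≤ n ^ 2 * H x := by
      intro n
      obtain ⟨c, hc, hg⟩ := hS (n • x)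
      have h1 := hlow _ hg
      have h2 := (abs_le.mp (hQ (n • x + c))).2
      rw [par_progression hH x c n, hl, hln] at h2
      have h3 : |H (x + c) - H x - H c + l x| + |H c| + |l c| ≤ M :=
        Finset.single_le_sum (f := fun c => |H (x + c) - H x - H c + l x| + |H c| + |l c|)
          (fun c _ => by positivity) hc
      have h4 := le_abs_self (H (x + c) - H x - H c + l x)
      have h5 := le_abs_self (H c)
      have h6 := le_abs_self (l c)
      have h7 := abs_nonneg (H (x + c) - H x - H c + l x)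
      have h8 := abs_nonneg (H c)
      have h9 := abs_nonneg (l c)
      have h10 : (n : ℝ) * (H (x + c) - H x - H c + l x) ≤ n * M := by
        apply mul_le_mul_of_nonneg_left _ (Nat.cast_nonneg n)
        linarith
      have h11 : H c + l c ≤ M := by linarith
      nlinarith
    -- let n tend to infinity
    have hM0 : 0 ≤ M := Finset.sum_nonneg fun c _ => by positivity
    have hC0 : 0 ≤ C := (abs_nonneg _).trans (hB 0 0 0)
    have hC'0 : 0 ≤ C' := (abs_nonneg _).trans (hQ 0)
    obtain ⟨n, hn⟩ := exists_nat_gt ((C + C' + M + M) / (-H x))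
    have hHx : 0 < -H x := by linarith
    rw [div_lt_iff₀ hHx] at hn
    have hn1 : (1 : ℝ) ≤ n := by
      have : 0 < n := by
        rcases Nat.eq_zero_or_pos n with h | h
        · rw [h] at hn
          simp only [Nat.cast_zero, zero_mul] at hn
          linarith
        · exact h
      exact_mod_cast this
    have h1 := hbound n
    have h2 : (n : ℝ) * (C + C' + M + M) < n * (n * (-H x)) :=
      mul_lt_mul_of_pos_left hn (by linarith)
    nlinarith
  refine ⟨H, hH, hpos, fun T => ?_⟩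
  set N := ∑ c ∈ S, (|H c| + |l c|) with hN
  have hNc : ∀ c ∈ S, |H c| + |l c| ≤ N := fun c hc =>
    Finset.single_le_sum (f := fun c => |H c| + |l c|) (fun c _ => by positivity) hc
  have hadd : ∀ x c, H (x + c) ≤ 2 * H x + 2 * H c := by
    intro x c
    have h1 := hH x c
    have h2 := hpos (x - c)
    linarith
  refine ⟨(2 * T + 2 * N) + (2 * T + 2 * N + N + C + C') + N + C', fun x hx c hc => ?_⟩
  -- bound for l x
  have hlx : l x ≤ 2 * T + 2 * N + N + C + C' := by
    obtain ⟨c', hc', hg⟩ := hS (-x)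
    have h1 := hlow _ hg
    have h2 := (abs_le.mp (hQ (-x + c'))).2
    have h3 := hadd (-x) c'
    rw [par_neg hH] at h3
    rw [hl, hlneg] at h2
    have h4 := hNc c' hc'
    have h5 := le_abs_self (H c')
    have h6 := le_abs_self (l c')
    have h7 := abs_nonneg (H c')
    have h8 := abs_nonneg (l c')
    linarith
  have h2 := (abs_le.mp (hQ (x + c))).2
  have h3 := hadd x c
  rw [hl] at h2
  have h4 := hNc c hc
  have h5 := le_abs_self (H c)
  have h6 := le_abs_self (l c)
  have h7 := abs_nonneg (H c)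
  have h8 := abs_nonneg (l c)
  linarith

/-- **Descent**. -/
theorem fg_of_height (A₀ : AddSubgroup A) (Q : A → ℝ) (C : ℝ)
    (hB : ∀ x x' y, |bil Q (x + x') y - bil Q x y - bil Q x' y| ≤ C)
    (good : A → Prop) (S : Finset A) (hS : ∀ x, ∃ c ∈ S, good (x + c))
    (hlow : ∀ x, good x → -C ≤ Q x)
    (hfin : ∀ c ∈ S, ∀ T : ℝ, {x : A | x ∈ A₀ ∧ good (x + c) ∧ Q (x + c) ≤ T}.Finite)
    (hmod : (nsmulAddMonoidHom (α := A₀) 2).range.FiniteIndex) :
    AddGroup.FG A₀ := by
  obtain ⟨H, hH, hpos, hT⟩ := exists_height Q C hB good S hS hlow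
  have hN : Northcott (fun x : A₀ => H x) := by
    constructor
    intro T
    obtain ⟨T', hT'⟩ := hT T
    have h1 : (⋃ c ∈ S, {x : A | x ∈ A₀ ∧ good (x + c) ∧ Q (x + c) ≤ T'}).Finite :=
      S.finite_toSet.biUnion fun c hc => hfin c hc T'
    refine (h1.preimage (f := fun x : A₀ => (x : A)) Subtype.val_injective.injOn).subset ?_
    intro x hx
    obtain ⟨c, hc, hg⟩ := hS x
    rw [Set.mem_preimage, Set.mem_iUnion₂]
    exact ⟨c, hc, x.2, hg, hT' x hx c hc⟩
  refine AddCommGroup.fg_of_descent' (h := fun x : A₀ => H x) (C := 0) hmod (fun x => hpos x)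
    (fun x y => ?_)
  have := hH x y
  rw [abs_le]
  constructor
  · simp only [AddSubgroup.coe_add, AddSubgroup.coe_sub]; linarith
  · simp only [AddSubgroup.coe_add, AddSubgroup.coe_sub]; linarith

end

end Fermat.Agent.MW
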