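import Fermat.Agent.MW.QbarAdelic

set_option autoImplicit false

/-! # Northcott's theorem for algebraic numbers -/

namespace Fermat.Agent.MW

open MeasureTheory Polynomial

noncomputable section

namespace QbarAd

/-- the absolute logarithmic height -/
def hgt (x : Qb) : ℝ := Lint (fun w => Real.log (max 1 (abvW w x)))

theorem log_max_mem (x : Qb) : (fun w => Real.log (max 1 (abvW w x))) ∈ Asub :=
  (AdelicStr.adm_max_abv (𝔸 := adelicQb) x).2

theorem hgt_nonneg (x : Qb) : 0 ≤ hgt x := by
  have := Lint_mono (f := 0) (g := fun w => Real.log (max 1 (abvW w x))) Asub.zero_mem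
    (log_max_mem x) (fun w => Real.log_nonneg (le_max_left _ _))
  refine le_trans (le_of_eq ?_) this
  have := Lint_smul 0 (f := 0) Asub.zero_mem
  simpa using this.symm

theorem hgt_galois (g : GQ) (x : Qb) : hgt (g x) = hgt x :=
  Lint_log_galois g (fun r => Real.log (max 1 r)) x

/-- the height as a sum for rational numbers -/
theorem hgt_rat (r : ℚ) : hgt (algebraMap ℚ Qb r) =
    ∑ᶠ p, Real.log (max 1 (absP p (algebraMap ℚ Qb r))) := by
  unfold hgt Lint
  refine finsum_congr fun p => ?_
  have : (fun s : GQ => Real.log (max 1 (abvW (p, s) (algebraMap ℚ Qb r)))) =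
      fun _ => Real.log (max 1 (absP p (algebraMap ℚ Qb r))) := by
    ext s
    rw [abvW_apply, AlgEquiv.commutes]
  rw [this, integral_const]
  simp

theorem hgt_rat_support (r : ℚ) :
    (Function.support fun p => Real.log (max 1 (absP p (algebraMap ℚ Qb r)))).Finite := by
  refine (log_max_mem (algebraMap ℚ Qb r)).2.subset fun p hp => ⟨1, ?_⟩
  have : abvW (p, (1 : GQ)) (algebraMap ℚ Qb r) = absP p (algebraMap ℚ Qb r) := by
    rw [abvW_apply, AlgEquiv.commutes]
  show Real.log (max 1 (abvW (p, (1 : GQ)) (algebraMap ℚ Qb r))) ≠ 0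
  rw [this]
  exact hp

theorem log_abs_le_hgt (r : ℚ) : Real.log (max 1 |(r : ℝ)|) ≤ hgt (algebraMap ℚ Qb r) := by
  rw [hgt_rat]
  have h1 := single_le_finsum (none : Option Nat.Primes) (hgt_rat_support r)
    (fun p => Real.log_nonneg (le_max_left _ _))
  rwa [absP_none_rat] at h1

theorem log_den_le_hgt (r : ℚ) : Real.log (r.den : ℝ) ≤ hgt (algebraMap ℚ Qb r) := by
  have hd : (r.den : ℚ) ≠ 0 := by exact_mod_cast r.den_nz
  have h1 := Phi_eq_zero hd
  unfold Phi at h1
  rw [hgt_rat]
  set f : Option Nat.Primes → ℝ := fun p => Real.log (absP p (algebraMap ℚ Qb (r.den : ℚ))) with hf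
  set g : Option Nat.Primes → ℝ := fun p => Real.log (max 1 (absP p (algebraMap ℚ Qb r))) with hg
  have hfs : (Function.support f).Finite := rat_support hd
  have hgs : (Function.support g).Finite := hgt_rat_support r
  -- f none = log den
  classical
  have hfin : ((Function.support f) ∪ (Function.support g) ∪ {none}).Finite :=
    (hfs.union hgs).union (Set.finite_singleton none)
  have e1 : ∑ᶠ p, f p = ∑ p ∈ hfin.toFinset, f p := by
    apply finsum_eq_sum_of_support_subset
    rw [Set.Finite.coe_toFinset]
    exact Set.subset_union_left.trans Set.subset_union_left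
  have e2 : ∑ᶠ p, g p = ∑ p ∈ hfin.toFinset, g p := by
    apply finsum_eq_sum_of_support_subset
    rw [Set.Finite.coe_toFinset]
    exact Set.subset_union_right.trans Set.subset_union_left
  have hnone : none ∈ hfin.toFinset := by
    rw [Set.Finite.mem_toFinset]; exact Or.inr rfl
  rw [e1, ← Finset.add_sum_erase _ _ hnone] at h1
  rw [e2, ← Finset.add_sum_erase _ _ hnone]
  have hf0 : f none = Real.log (r.den : ℝ) := by
    simp only [hf, absP_none_rat]
    congr 1
    simp
  have hg0 : 0 ≤ g none := Real.log_nonneg (le_max_left _ _)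
  have hle : ∀ p ∈ hfin.toFinset.erase none, -f p ≤ g p := by
    intro p hp
    cases p with
    | none => simp at hp
    | some p =>
      simp only [hf, hg]
      rw [absP_some_rat, absP_some_rat]
      have hpp : Fact (p : ℕ).Prime := ⟨p.2⟩
      by_cases hdiv : (p : ℕ) ∣ r.den
      · have hnum : padicNorm (p : ℕ) (r.num : ℚ) = 1 := by
          rw [padicNorm.int_eq_one_iff]
          intro h
          have h2 : (p : ℕ) ∣ r.num.natAbs := Int.natCast_dvd.mp h
          have h3 := Nat.dvd_gcd h2 hdiv
          rw [r.reduced.gcd_eq_one] at h3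
          exact p.2.one_lt.ne' (Nat.dvd_one.mp h3)
        have hpos : (0 : ℚ) < padicNorm (p : ℕ) (r.den : ℚ) :=
          lt_of_le_of_ne (padicNorm.nonneg _) (Ne.symm (padicNorm.nonzero hd))
        have hmul : padicNorm (p : ℕ) r * padicNorm (p : ℕ) (r.den : ℚ) = 1 := by
          rw [← padicNorm.mul, Rat.mul_den_eq_num, hnum]
        have hr : padicNorm (p : ℕ) r = (padicNorm (p : ℕ) (r.den : ℚ))⁻¹ :=
          eq_inv_of_mul_eq_one_left hmul
        rw [← Real.log_inv]
        apply Real.log_le_log
        · apply inv_pos.mpr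
          exact_mod_cast hpos
        · apply le_max_of_le_right
          rw [hr]
          push_cast
          exact le_rfl
      · have : padicNorm (p : ℕ) ((r.den : ℕ) : ℚ) = 1 := by
          rw [padicNorm.nat_eq_one_iff]
          exact hdiv
        rw [this]
        simp only [Rat.cast_one, Real.log_one, neg_zero]
        exact Real.log_nonneg (le_max_left _ _)
  have hsum := Finset.sum_le_sum hle
  rw [Finset.sum_neg_distrib] at hsum
  rw [hf0] at h1
  linarith

theorem finite_rat (T : ℝ) : {r : ℚ | hgt (algebraMap ℚ Qb r) ≤ T}.Finite := by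
  set N := ⌊Real.exp T * Real.exp T⌋₊ with hN
  have hfin : ((Set.Icc (-(N : ℤ)) N) ×ˢ (Set.Icc 1 N) : Set (ℤ × ℕ)).Finite :=
    (Set.finite_Icc _ _).prod (Set.finite_Icc _ _)
  refine (hfin.image fun q : ℤ × ℕ => (q.1 : ℚ) / q.2).subset fun r hr => ?_
  have hT0 : 0 ≤ T := (hgt_nonneg _).trans hr
  have h1 : Real.log (max 1 |(r : ℝ)|) ≤ T := (log_abs_le_hgt r).trans hr
  have h2 : Real.log (r.den : ℝ) ≤ T := (log_den_le_hgt r).trans hr
  have hdpos : (0 : ℝ) < r.den := by exact_mod_cast r.den_pos
  have h3 : |(r : ℝ)| ≤ Real.exp T :=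
    (le_max_right _ _).trans ((Real.log_le_iff_le_exp (lt_max_of_lt_left one_pos)).mp h1)
  have h4 : (r.den : ℝ) ≤ Real.exp T := (Real.log_le_iff_le_exp hdpos).mp h2
  have he1 : 1 ≤ Real.exp T := Real.one_le_exp hT0
  refine ⟨(r.num, r.den), ⟨?_, ?_⟩, Rat.num_div_den r⟩
  · have h5 : (|r.num| : ℝ) = |(r : ℝ)| * r.den := by
      have : (r.num : ℝ) = (r : ℝ) * r.den := by
        have := Rat.mul_den_eq_num r
        exact_mod_cast this.symm
      rw [this, abs_mul, abs_of_pos hdpos]
    have h6 : (|r.num| : ℝ) ≤ Real.exp T * Real.exp T := by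
      rw [h5]
      gcongr
    have h7 : (r.num.natAbs : ℕ) ≤ N := by
      apply Nat.le_floor
      have : ((r.num.natAbs : ℕ) : ℝ) = |(r.num : ℝ)| := by
        rw [← Int.cast_abs, Int.abs_eq_natAbs]; simp
      rw [this]
      exact h6
    rw [Set.mem_Icc]
    dsimp only
    omega
  · rw [Set.mem_Icc]
    refine ⟨r.den_pos, ?_⟩
    apply Nat.le_floor
    nlinarith

/-- the coefficients of a product of linear factors -/
theorem coeff_prod_le (w : Wt) (s : Multiset Qb) (k : ℕ) :
    abvW w ((s.map fun y => (X - C y)).prod.coeff k) ≤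
      (adelicQb.archC 2 w) ^ (Multiset.card s) * (s.map fun y => max 1 (abvW w y)).prod := by
  have hA1 : 1 ≤ adelicQb.archC 2 w := (AdelicStr.adm_archC (𝔸 := adelicQb) 2).1 w
  induction s using Multiset.induction_on generalizing k with
  | empty =>
    simp only [Multiset.map_zero, Multiset.prod_zero, Multiset.card_zero, pow_zero, one_mul]
    rw [Polynomial.coeff_one]
    split_ifs
    · rw [map_one]
    · rw [map_zero]; exact zero_le_one
  | cons a s ih =>
    rw [Multiset.map_cons, Multiset.prod_cons, Multiset.map_cons, Multiset.prod_cons,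
      Multiset.card_cons]
    set P := (s.map fun y => (X - C y)).prod with hP
    set M := (s.map fun y => max 1 (abvW w y)).prod with hM
    set B := (adelicQb.archC 2 w) ^ (Multiset.card s) with hB
    have hM0 : 0 ≤ M := by
      apply Multiset.prod_nonneg
      intro y hy
      obtain ⟨z, _, rfl⟩ := Multiset.mem_map.mp hy
      exact zero_le_one.trans (le_max_left _ _)
    have hB0 : 0 ≤ B := pow_nonneg (zero_le_one.trans hA1) _
    have hBM : 0 ≤ B * M := mul_nonneg hB0 hM0
    have hm1 : 1 ≤ max 1 (abvW w a) := le_max_left _ _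
    have hcoef : ((X - C a) * P).coeff k = (if k = 0 then 0 else P.coeff (k - 1)) +
        (- (a * P.coeff k)) := by
      rw [sub_mul, Polynomial.coeff_sub, Polynomial.coeff_C_mul]
      rcases k with _ | k
      · simp
      · simp [Polynomial.coeff_X_mul, sub_eq_add_neg]
    rw [hcoef]
    set f : Bool → Qb := fun b => if b then (if k = 0 then 0 else P.coeff (k - 1)) else
      (-(a * P.coeff k)) with hf
    have hsum : (if k = 0 then 0 else P.coeff (k - 1)) + (- (a * P.coeff k)) = ∑ b, f b := by
      rw [Fintype.sum_bool]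
      simp [hf]
    rw [hsum]
    have h1 : ∀ b, abvW w (f b) ≤ max 1 (abvW w a) * (B * M) := by
      intro b
      cases b with
      | true =>
        simp only [hf, if_true]
        split_ifs with h0
        · rw [map_zero]; positivity
        · calc _ ≤ B * M := ih _
            _ = 1 * (B * M) := (one_mul _).symm
            _ ≤ _ := by gcongr
      | false =>
        simp only [hf]
        rw [if_neg (by simp), AbsoluteValue.map_neg, map_mul]
        have h2 := ih k
        have h3 := (abvW w).nonneg (P.coeff k)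
        gcongr
        exact le_max_right _ _
    have h2 := sum_univ_le_fac (abvW w) f (C := max 1 (abvW w a) * (B * M)) (by positivity) h1
    have h3 : fac (abvW w) (Fintype.card Bool) ≤ adelicQb.archC 2 w :=
      AdelicStr.fac_le_archC (𝔸 := adelicQb) 2 w
    calc _ ≤ fac (abvW w) (Fintype.card Bool) * (max 1 (abvW w a) * (B * M)) := h2
      _ ≤ adelicQb.archC 2 w * (max 1 (abvW w a) * (B * M)) := by
        gcongr
      _ = _ := by
        rw [pow_succ]; ring

theorem hgt_coeff_le (x : Qb) (k : ℕ) : hgt (algebraMap ℚ Qb ((minpoly ℚ x).coeff k)) ≤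
    (minpoly ℚ x).natDegree * (Lint (fun w : Wt => Real.log (adelicQb.archC 2 w)) + hgt x) := by
  classical
  have hint : IsIntegral ℚ x := Algebra.IsIntegral.isIntegral x
  set s := (minpoly ℚ x).aroots Qb with hs
  have hsplit : ((minpoly ℚ x).map (algebraMap ℚ Qb)).Splits := IsAlgClosed.splits _
  have hcard : Multiset.card s = (minpoly ℚ x).natDegree := by
    rw [hs, Polynomial.aroots, ← hsplit.natDegree_eq_card_roots, Polynomial.natDegree_map]
  have hprod : (minpoly ℚ x).map (algebraMap ℚ Qb) = (s.map fun y => (X - C y)).prod := by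
    have := hsplit.eq_prod_roots_of_monic ((minpoly.monic hint).map _)
    exact this
  have hcoef : algebraMap ℚ Qb ((minpoly ℚ x).coeff k) =
      (s.map fun y => (X - C y)).prod.coeff k := by
    rw [← hprod, Polynomial.coeff_map]
  have hgtr : ∀ y ∈ s, hgt y = hgt x := by
    intro y hy
    obtain ⟨g, rfl⟩ := exists_galois_of_mem_roots hy
    exact hgt_galois g x
  -- integrate
  have hAdm := AdelicStr.adm_archC (𝔸 := adelicQb) 2
  have hprodmem : ∀ t : Multiset Qb,
      (fun w => Real.log ((t.map fun y => max 1 (abvW w y)).prod)) ∈ Asub ∧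
      Lint (fun w => Real.log ((t.map fun y => max 1 (abvW w y)).prod)) = (t.map hgt).sum := by
    intro t
    induction t using Multiset.induction_on with
    | empty =>
      have h0 : (fun w : Wt => Real.log (((0 : Multiset Qb).map fun y => max 1 (abvW w y)).prod)) =
          0 := by
        ext w; simp
      rw [h0]
      refine ⟨Asub.zero_mem, ?_⟩
      have := Lint_smul 0 (f := 0) Asub.zero_mem
      simpa using this
    | cons a t ih =>
      have h0 : (fun w : Wt => Real.log (((a ::ₘ t).map fun y => max 1 (abvW w y)).prod)) =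
          (fun w => Real.log (max 1 (abvW w a))) +
            fun w => Real.log ((t.map fun y => max 1 (abvW w y)).prod) := by
        ext w
        rw [Multiset.map_cons, Multiset.prod_cons, Real.log_mul]
        · rfl
        · exact (lt_max_of_lt_left one_pos).ne'
        · apply Multiset.prod_ne_zero
          intro h
          obtain ⟨z, _, hz⟩ := Multiset.mem_map.mp h
          have h1 : (1 : ℝ) ≤ max 1 (abvW w z) := le_max_left _ _
          linarith
      rw [h0]
      refine ⟨Asub.add_mem (log_max_mem a) ih.1, ?_⟩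
      rw [Lint_add (log_max_mem a) ih.1, ih.2, Multiset.map_cons, Multiset.sum_cons]
      rfl
  have hA : (fun w : Wt => Real.log (adelicQb.archC 2 w)) ∈ Asub := hAdm.2
  have hR : ((Multiset.card s : ℝ) • (fun w : Wt => Real.log (adelicQb.archC 2 w))) ∈ Asub :=
    Asub.smul_mem _ hA
  have hle : hgt (algebraMap ℚ Qb ((minpoly ℚ x).coeff k)) ≤
      Lint ((Multiset.card s : ℝ) • (fun w : Wt => Real.log (adelicQb.archC 2 w)) +
        fun w : Wt => Real.log ((s.map fun y => max 1 (abvW w y)).prod)) := by
    refine Lint_mono (log_max_mem _) (Asub.add_mem hR (hprodmem s).1) fun w => ?_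
    have h1 : 1 ≤ adelicQb.archC 2 w := hAdm.1 w
    have h2 : 1 ≤ (s.map fun y => max 1 (abvW w y)).prod := by
      have : ∀ t : Multiset Qb, 1 ≤ (t.map fun y => max 1 (abvW w y)).prod := by
        intro t
        induction t using Multiset.induction_on with
        | empty => simp
        | cons a t ih =>
          rw [Multiset.map_cons, Multiset.prod_cons]
          exact one_le_mul_of_one_le_of_one_le (le_max_left _ _) ih
      exact this s
    have h3 : max 1 (abvW w (algebraMap ℚ Qb ((minpoly ℚ x).coeff k))) ≤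
        (adelicQb.archC 2 w) ^ (Multiset.card s) * (s.map fun y => max 1 (abvW w y)).prod := by
      apply max_le
      · exact one_le_mul_of_one_le_of_one_le (one_le_pow₀ h1) h2
      · rw [hcoef]
        exact coeff_prod_le w s k
    calc Real.log (max 1 (abvW w (algebraMap ℚ Qb ((minpoly ℚ x).coeff k))))
        ≤ Real.log ((adelicQb.archC 2 w) ^ (Multiset.card s) *
          (s.map fun y => max 1 (abvW w y)).prod) :=
          Real.log_le_log (lt_max_of_lt_left one_pos) h3
      _ = _ := by
        rw [Real.log_mul (pow_pos (zero_lt_one.trans_le h1) _).ne' (zero_lt_one.trans_le h2).ne',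
          Real.log_pow]
        rfl
  rw [Lint_add hR (hprodmem s).1, Lint_smul _ hA, (hprodmem s).2,
    Multiset.map_congr rfl hgtr, Multiset.map_const', Multiset.sum_replicate, hcard,
    nsmul_eq_mul] at hle
  rw [mul_add]
  exact hle

/-- **Northcott's theorem** -/
theorem northcott (d : ℕ) (T : ℝ) :
    {x : Qb | (minpoly ℚ x).natDegree ≤ d ∧ hgt x ≤ T}.Finite := by
  classical
  set A := Lint (fun w : Wt => Real.log (adelicQb.archC 2 w)) with hA
  set R := {r : ℚ | hgt (algebraMap ℚ Qb r) ≤ d * (|A| + |T|)} with hR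
  have hRfin : R.Finite := finite_rat _
  set P : (Fin (d + 1) → ℚ) → ℚ[X] := fun q => ∑ k : Fin (d + 1), C (q k) * X ^ (k : ℕ) with hP
  have hpi : (Set.univ.pi fun _ : Fin (d + 1) => R).Finite := Set.Finite.pi fun _ => hRfin
  refine ((hpi.subset (Set.sep_subset _ fun q => P q ≠ 0)).biUnion
    (t := fun q => {x : Qb | x ∈ ((P q).map (algebraMap ℚ Qb)).roots}) fun q _ => ?_).subset ?_
  · exact (((P q).map (algebraMap ℚ Qb)).roots.toFinset.finite_toSet).subset fun x hx => by
      simpa using hx
  · rintro x ⟨hx1, hx2⟩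
    have hint : IsIntegral ℚ x := Algebra.IsIntegral.isIntegral x
    set q : Fin (d + 1) → ℚ := fun k => (minpoly ℚ x).coeff k with hq
    have hPq : P q = minpoly ℚ x := by
      simp only [hP, hq]
      rw [Fin.sum_univ_eq_sum_range (fun k => C ((minpoly ℚ x).coeff k) * X ^ k) (d + 1)]
      exact ((minpoly ℚ x).as_sum_range_C_mul_X_pow' (by omega)).symm
    rw [Set.mem_iUnion₂]
    refine ⟨q, ⟨?_, ?_⟩, ?_⟩
    · intro k _
      show hgt _ ≤ _
      refine (hgt_coeff_le x k).trans ?_
      have h1 : A + hgt x ≤ |A| + |T| := add_le_add (le_abs_self _) (hx2.trans (le_abs_self _))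
      have h2 : ((minpoly ℚ x).natDegree : ℝ) ≤ d := by exact_mod_cast hx1
      have h3 : (0 : ℝ) ≤ |A| + |T| := by positivity
      calc _ ≤ ((minpoly ℚ x).natDegree : ℝ) * (|A| + |T|) := by gcongr
        _ ≤ _ := by gcongr
    · rw [hPq]; exact minpoly.ne_zero hint
    · show x ∈ ((P q).map (algebraMap ℚ Qb)).roots
      rw [hPq, Polynomial.mem_roots (Polynomial.map_ne_zero (minpoly.ne_zero hint)),
        Polynomial.IsRoot, Polynomial.eval_map_algebraMap]
      exact minpoly.aeval ℚ x

end QbarAd

end

end Fermat.Agent.MW
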