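import Fermat.Agent.CFT.SLevDim

set_option autoImplicit false

/-! # Finiteness of the characters and cocycles unramified outside a finite set -/

open scoped Pointwise NumberField
open IsDedekindDomain

namespace Fermat.Agent.MW

open Fermat.Agent.Frob Fermat.Agent.CFT

local notation "Qb" => AlgebraicClosure ℚ
local notation "Γ" => (AlgebraicClosure ℚ ≃ₐ[ℚ] AlgebraicClosure ℚ)

section

variable {p : ℕ} [Fact p.Prime] {S : Finset Nat.Primes}
variable {L : IntermediateField ℚ Qb} [FiniteDimensional ℚ L] {ζ : Qb}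

theorem finite_SL : (SL S L).Finite := by
  have h : SL S L = ⋃ l ∈ S, {v : HeightOneSpectrum (𝓞 L) | (((l : Nat.Primes) : ℕ) : 𝓞 L) ∈ v.asIdeal} := by
    ext v
    simp [SL]
  rw [h]
  exact Set.Finite.biUnion S.finite_toSet fun l _ => finite_places_dvd l.2.ne_zero

/-- unramified outside `S` -/
def UnrOut (S : Finset Nat.Primes) (L : IntermediateField ℚ Qb) {X : Type*} [Zero X]
    (f : L.fixingSubgroup → X) : Prop :=
  ∀ q : Nat.Primes, q ∉ S → ∀ A : ValuationSubring Qb, A.LiesOverPrime (q : ℕ) →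
    ∀ τ : L.fixingSubgroup, (τ : Γ) ∈ A.inertiaSubgroupIn ℚ → f τ = 0

theorem finite_VT_SL (hζ : IsPrimitiveRoot ζ p) (hζL : ζ ∈ L) :
    ((VT (SL S L) : Submodule (ZMod p) (KP p L)) : Set (KP p L)).Finite := by
  obtain ⟨T0, hT0, hST, hcl⟩ := exists_T0 (K := L) (SL S L) finite_SL
  have hζ' : IsPrimitiveRoot (⟨ζ, hζL⟩ : L) p :=
    IsPrimitiveRoot.of_map_of_injective (f := algebraMap L Qb) (by exact hζ)
      (algebraMap L Qb).injective
  have h1 : Finite (VT T0 : Submodule (ZMod p) (KP p L)) := finite_VT hcl hT0 hζ'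
  exact (Set.toFinite ((VT T0 : Submodule (ZMod p) (KP p L)) : Set (KP p L))).subset
    (VT_mono (p := p) hST)

theorem finite_unr_aux (hζ : IsPrimitiveRoot ζ p) (hζL : ζ ∈ L)
    (hL : L.fixingSubgroup ∈ sLevels S) (hpS : ExtCitation.pPrime p ∈ S) :
    {χ : L.fixingSubgroup → ZMod p | χ ∈ Z1 ((galLevels ℚ Qb).restrict L.fixingSubgroup)
      (triv p L.fixingSubgroup) ∧ UnrOut S L χ}.Finite := by
  obtain ⟨T⟩ := exists_tame' (S := S) hζ hζL hL
  refine ((finite_VT_SL (S := S) hζ hζL).image fun x =>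
    ((kumL hζ hζL x : Z1 ((galLevels ℚ Qb).restrict L.fixingSubgroup)
      (triv p L.fixingSubgroup)) : L.fixingSubgroup → ZMod p)).subset ?_
  rintro χ ⟨hχ, hun⟩
  obtain ⟨x, hx⟩ := kumL_surjective hζ hζL ⟨χ, hχ⟩
  refine ⟨x, ?_, congrArg Subtype.val hx⟩
  have h1 := nv_kumL hζ hζL hL hpS T x
  have h2 := (ordMap_eq_zero_iff (p := p) (S := S) x).1
  apply h2
  rw [← h1, hx]
  ext v
  rw [nv_apply]
  show χ (T v).τ - χ 1 = 0
  rw [hun _ (T v).hqS _ (T v).hA _ (T v).hτ]
  have : χ 1 = 0 := by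
    have := hχ.2 1 1
    simpa using this
  rw [this, sub_zero]

/-- finiteness of the characters of `G_L` unramified outside `S` -/
theorem finite_unr (hζ : IsPrimitiveRoot ζ p) (hζL : ζ ∈ L) (S : Finset Nat.Primes) :
    {χ : L.fixingSubgroup → ZMod p | χ ∈ Z1 ((galLevels ℚ Qb).restrict L.fixingSubgroup)
      (triv p L.fixingSubgroup) ∧ UnrOut S L χ}.Finite := by
  classical
  obtain ⟨N, hN0, hN⟩ := exists_bound L
  have hfinN : {q : Nat.Primes | (q : ℕ) ∣ N}.Finite := by
    have h1 : {q : ℕ | q ∣ N}.Finite :=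
      (Set.finite_le_nat N).subset fun q hq => Nat.le_of_dvd (Nat.pos_of_ne_zero hN0) hq
    exact h1.preimage (f := fun p : Nat.Primes => (p : ℕ)) (Nat.Primes.coe_nat_injective.injOn)
  set S' : Finset Nat.Primes := insert (ExtCitation.pPrime p) (S ∪ hfinN.toFinset) with hS'
  have hL : L.fixingSubgroup ∈ sLevels S' := by
    rw [mem_sLevels_iff]
    refine ⟨fixingSubgroup_mem_galLevels L, fun q hq A hA => hN q q.2 (fun h => hq ?_) A hA⟩
    rw [hS', Finset.mem_insert, Finset.mem_union, Set.Finite.mem_toFinset]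
    exact Or.inr (Or.inr h)
  refine (finite_unr_aux hζ hζL hL (Finset.mem_insert_self _ _)).subset ?_
  rintro χ ⟨h1, h2⟩
  refine ⟨h1, fun q hq A hA τ hτ => h2 q (fun h => hq ?_) A hA τ hτ⟩
  exact Finset.mem_insert_of_mem (Finset.mem_union_left _ h)

/-- finiteness of homomorphisms to a finite vector space -/
theorem finite_unr_hom_aux (hζ : IsPrimitiveRoot ζ p) (hζL : ζ ∈ L) (S : Finset Nat.Primes)
    (M : Type*) [AddCommGroup M] [Module (ZMod p) M] [Finite M] :
    {f : L.fixingSubgroup → M | ((galLevels ℚ Qb).restrict L.fixingSubgroup).LC f ∧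
      (∀ g h, f (g * h) = f g + f h) ∧ UnrOut S L f}.Finite := by
  classical
  have : Module.Finite (ZMod p) M := Module.Finite.of_finite
  let b := Module.finBasis (ZMod p) M
  have hfin := finite_unr hζ hζL S
  have hpi := Set.Finite.pi (fun _ : Fin (Module.finrank (ZMod p) M) => hfin)
  refine (hpi.preimage (f := fun f : L.fixingSubgroup → M => fun i g => b.repr (f g) i)
    (Function.Injective.injOn ?_)).subset ?_
  · intro f f' h
    ext g
    apply b.repr.injective
    ext i
    exact congrFun (congrFun h i) g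
  · rintro f ⟨h1, h2, h3⟩
    rw [Set.mem_preimage, Set.mem_univ_pi]
    intro i
    refine ⟨⟨h1.comp fun m => b.repr m i, fun g h => ?_⟩, fun q hq A hA τ hτ => ?_⟩
    · show b.repr (f (g * h)) i = (triv p L.fixingSubgroup) g (b.repr (f h) i) + b.repr (f g) i
      rw [h2, map_add, Finsupp.add_apply, Representation.trivial_apply, add_comm]
    · show b.repr (f τ) i = 0
      rw [h3 q hq A hA τ hτ, map_zero]
      rfl

theorem finite_unr_hom (hζ : IsPrimitiveRoot ζ p) (hζL : ζ ∈ L) (S : Finset Nat.Primes)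
    (M : Type*) [AddCommGroup M] [Finite M] (hM : ∀ m : M, p • m = 0) :
    {f : L.fixingSubgroup → M | ((galLevels ℚ Qb).restrict L.fixingSubgroup).LC f ∧
      (∀ g h, f (g * h) = f g + f h) ∧ UnrOut S L f}.Finite :=
  @finite_unr_hom_aux p _ L _ ζ hζ hζL S M _ (AddCommGroup.zmodModule hM) _

end

section Weak

variable {J : Type*} [AddCommGroup J] [DistribMulAction Γ J]

/-- **Weak Mordell-Weil**, abstract form: `J` is a divisible Galois module with open stabilisers
and finite `p`-torsion, such that the inertia outside `S` acts trivially on every `y` for which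
`σ y - y` is `p`-torsion. -/
theorem weak_mordell_weil (p : ℕ) [Fact p.Prime] (S : Finset Nat.Primes)
    (hfin : {x : J | p • x = 0}.Finite)
    (hopen : ∀ x : J, ∃ E : IntermediateField ℚ Qb, FiniteDimensional ℚ E ∧
      ∀ σ ∈ E.fixingSubgroup, σ • x = x)
    (hdiv : ∀ x : J, ∃ y : J, p • y = x)
    (hunr : ∀ q : Nat.Primes, q ∉ S → ∀ A : ValuationSubring Qb, A.LiesOverPrime (q : ℕ) →
      ∀ σ ∈ A.inertiaSubgroupIn ℚ, ∀ y : J, p • (σ • y - y) = 0 → σ • y = y) :
    (nsmulAddMonoidHom (α := FixedPoints.addSubgroup Γ J) p).range.FiniteIndex := by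
  classical
  have hp0 : p ≠ 0 := (Fact.out : p.Prime).ne_zero
  have : NeZero p := ⟨hp0⟩
  -- the module of p-torsion
  set M : AddSubgroup J := (nsmulAddMonoidHom (α := J) p).ker with hM
  have hMmem : ∀ x : J, x ∈ M ↔ p • x = 0 := fun x => Iff.rfl
  have hMfin : Finite M := hfin.to_subtype
  -- the field L
  obtain ⟨ζ, hζ⟩ : ∃ ζ : Qb, IsPrimitiveRoot ζ p := by
    have : NeZero ((p : ℕ) : Qb) := ⟨by exact_mod_cast hp0⟩
    exact HasEnoughRootsOfUnity.exists_primitiveRoot Qb p
  obtain ⟨E, hE, hEM⟩ : ∃ E : IntermediateField ℚ Qb, FiniteDimensional ℚ E ∧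
      ∀ σ ∈ E.fixingSubgroup, ∀ x ∈ M, σ • x = x := by
    have key : ∀ s : Finset J, ∃ E : IntermediateField ℚ Qb, FiniteDimensional ℚ E ∧
        ∀ σ ∈ E.fixingSubgroup, ∀ x ∈ s, σ • x = x := by
      intro s
      induction s using Finset.induction_on with
      | empty => exact ⟨⊥, inferInstance, fun σ _ x hx => absurd hx (Finset.notMem_empty x)⟩
      | insert a s _ ih =>
        obtain ⟨E, hE, h⟩ := ih
        obtain ⟨E', hE', h'⟩ := hopen a
        refine ⟨E ⊔ E', IntermediateField.finiteDimensional_sup E E', fun σ hσ x hx => ?_⟩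
        rw [IntermediateField.fixingSubgroup_sup] at hσ
        rcases Finset.mem_insert.mp hx with rfl | hx
        · exact h' σ hσ.2
        · exact h σ hσ.1 x hx
    obtain ⟨E, hE, h⟩ := key hfin.toFinset
    exact ⟨E, hE, fun σ hσ x hx => h σ hσ x (by rw [Set.Finite.mem_toFinset]; exact hx)⟩
  have hζfd : FiniteDimensional ℚ (IntermediateField.adjoin ℚ {ζ}) :=
    IntermediateField.adjoin.finiteDimensional
      ((AlgebraicClosure.isAlgebraic ℚ).isAlgebraic ζ).isIntegral
  set L : IntermediateField ℚ Qb := E ⊔ IntermediateField.adjoin ℚ {ζ} with hL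
  have hLfd : FiniteDimensional ℚ L := IntermediateField.finiteDimensional_sup _ _
  have hζL : ζ ∈ L :=
    (le_sup_right : IntermediateField.adjoin ℚ {ζ} ≤ L) (IntermediateField.mem_adjoin_simple_self ℚ ζ)
  have hLM : ∀ σ ∈ L.fixingSubgroup, ∀ x ∈ M, σ • x = x := fun σ hσ x hx =>
    hEM σ (by
      rw [hL, IntermediateField.fixingSubgroup_sup] at hσ
      exact hσ.1) x hx
  -- choose divisions
  choose y hy using hdiv
  set A₀ := FixedPoints.addSubgroup Γ J with hA₀
  have hfix : ∀ x : A₀, ∀ σ : Γ, σ • (x : J) = x := fun x σ => x.2 σ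
  have hcM : ∀ (x : A₀) (σ : Γ), σ • y x - y x ∈ M := by
    intro x σ
    rw [hMmem, smul_sub, smul_comm p σ (y x), hy, hfix, sub_self]
  -- the homomorphisms
  let c : A₀ → Γ → M := fun x σ => ⟨σ • y x - y x, hcM x σ⟩
  have hcmul : ∀ x σ τ, (c x (σ * τ) : J) = σ • (c x τ : J) + c x σ := by
    intro x σ τ
    simp only [c]
    rw [mul_smul, smul_sub]
    abel
  let F : A₀ → (L.fixingSubgroup → M) := fun x σ => c x σ
  have hF : ∀ x, F x ∈ {f : L.fixingSubgroup → M |
      ((galLevels ℚ Qb).restrict L.fixingSubgroup).LC f ∧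
      (∀ g h, f (g * h) = f g + f h) ∧ UnrOut S L f} := by
    intro x
    have hadd : ∀ g h : L.fixingSubgroup, F x (g * h) = F x g + F x h := by
      intro g h
      apply Subtype.ext
      show (c x ((g : Γ) * h) : J) = c x g + c x h
      rw [hcmul, hLM g g.2 _ (c x h).2, add_comm]
    refine ⟨?_, hadd, ?_⟩
    · obtain ⟨E', hE', h'⟩ := hopen (y x)
      refine ⟨E'.fixingSubgroup.subgroupOf L.fixingSubgroup,
        ⟨_, fixingSubgroup_mem_galLevels E', le_rfl⟩, fun g s hs => ?_⟩
      rw [hadd]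
      have : F x s = 0 := by
        apply Subtype.ext
        show (s : Γ) • y x - y x = 0
        rw [h' s (Subgroup.mem_subgroupOf.mp hs), sub_self]
      rw [this, add_zero]
    · intro q hq A hA τ hτ
      apply Subtype.ext
      show (τ : Γ) • y x - y x = 0
      rw [hunr q hq A hA τ hτ (y x) (hcM x τ), sub_self]
  have hfinF := finite_unr_hom hζ hζL S M (fun m => Subtype.ext m.2)
  -- the finite target
  have hquot : Finite (Γ ⧸ L.fixingSubgroup) := by
    have := finiteIndex_fixingSubgroup L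
    exact Subgroup.finite_quotient_of_finiteIndex
  have hfinT : Finite ({f : L.fixingSubgroup → M |
      ((galLevels ℚ Qb).restrict L.fixingSubgroup).LC f ∧
      (∀ g h, f (g * h) = f g + f h) ∧ UnrOut S L f} × ((Γ ⧸ L.fixingSubgroup) → M)) := by
    have := hfinF.to_subtype
    infer_instance
  let Ψ : A₀ → ({f : L.fixingSubgroup → M |
      ((galLevels ℚ Qb).restrict L.fixingSubgroup).LC f ∧
      (∀ g h, f (g * h) = f g + f h) ∧ UnrOut S L f} × ((Γ ⧸ L.fixingSubgroup) → M)) :=
    fun x => (⟨F x, hF x⟩, fun r => c x r.out)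
  have hΨ : ∀ x x', Ψ x = Ψ x' → x - x' ∈ (nsmulAddMonoidHom (α := A₀) p).range := by
    intro x x' h
    have h1 : F x = F x' := congrArg (fun t => (t.1 : L.fixingSubgroup → M)) h
    have h2 : ∀ r : Γ ⧸ L.fixingSubgroup, c x r.out = c x' r.out := fun r =>
      congrFun (congrArg Prod.snd h) r
    have h3 : ∀ σ : Γ, σ • (y x - y x') = y x - y x' := by
      intro σ
      obtain ⟨s, hs⟩ := QuotientGroup.mk_out_eq_mul L.fixingSubgroup σ
      -- σ = r.out * s⁻¹
      have hσ : σ = (QuotientGroup.mk σ : Γ ⧸ L.fixingSubgroup).out * ((s⁻¹ : L.fixingSubgroup) : Γ) := by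
        rw [hs]
        simp
      have h4 : (c x σ : J) = c x' σ := by
        rw [hσ, hcmul, hcmul, h2]
        have h5 : c x ((s⁻¹ : L.fixingSubgroup) : Γ) = c x' ((s⁻¹ : L.fixingSubgroup) : Γ) :=
          congrFun h1 s⁻¹
        rw [h5]
      simp only [c] at h4
      rw [smul_sub]
      rw [sub_eq_sub_iff_add_eq_add] at h4 ⊢
      rw [h4, add_comm]
    refine ⟨⟨y x - y x', h3⟩, Subtype.ext ?_⟩
    show p • (y x - y x') = (x : J) - x'
    rw [smul_sub, hy, hy]
  rw [AddSubgroup.finiteIndex_iff_finite_quotient]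
  refine Finite.of_injective (fun q : A₀ ⧸ (nsmulAddMonoidHom (α := A₀) p).range => Ψ q.out) ?_
  intro q q' h
  have h1 := hΨ _ _ h
  rw [← QuotientAddGroup.out_eq' q, ← QuotientAddGroup.out_eq' q', eq_comm, QuotientAddGroup.eq]
  rw [neg_add_eq_sub]
  exact h1

end Weak

end Fermat.Agent.MW
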