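import Fermat.Agent.MW.Iface
import Fermat.Agent.MW.Northcott
import Fermat.Agent.MW.Selmer
import Fermat.Agent.JZ.OpenStab

/-!
# Mordell-Weil from height data
-/

set_option autoImplicit false

open AlgebraicCurve Fermat.Agent.RR ModularCurve
open Fermat.Agent.FF (IsFnField)

namespace Fermat.Agent.MW

open QbarAd

local notation "Qb'" => AlgebraicClosure ℚ

/-- an algebraic number whose orbit under an open subgroup is small has small degree -/
theorem natDegree_minpoly_le (U : Subgroup GQ) [U.FiniteIndex] (α : Qb') (s : Set Qb')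
    (hs : s.Finite) (n : ℕ) (hcard : s.ncard ≤ n) (h : ∀ σ ∈ U, σ α ∈ s) :
    (minpoly ℚ α).natDegree ≤ U.index * n := by
  classical
  have hint : IsIntegral ℚ α := Algebra.IsIntegral.isIntegral α
  set t := (minpoly ℚ α).aroots Qb' with ht
  have hsplit : ((minpoly ℚ α).map (algebraMap ℚ Qb')).Splits := IsAlgClosed.splits _
  have hcardt : Multiset.card t = (minpoly ℚ α).natDegree := by
    rw [ht, Polynomial.aroots, ← hsplit.natDegree_eq_card_roots, Polynomial.natDegree_map]
  have hnodup : t.Nodup := by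
    rw [ht]
    apply Polynomial.nodup_roots
    exact (minpoly.irreducible hint).separable.map
  -- each root is of the form r.out⁻¹... applied to an element of s
  have hquot : Finite (GQ ⧸ U) := Subgroup.finite_quotient_of_finiteIndex
  have := Fintype.ofFinite (GQ ⧸ U)
  have hsub : t.toFinset ⊆ (Finset.univ : Finset (GQ ⧸ U)).biUnion fun r =>
      hs.toFinset.image fun y => (r.out : GQ) y := by
    intro y hy
    rw [Multiset.mem_toFinset] at hy
    obtain ⟨g, rfl⟩ := exists_galois_of_mem_roots hy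
    rw [Finset.mem_biUnion]
    refine ⟨(QuotientGroup.mk g : GQ ⧸ U), Finset.mem_univ _, ?_⟩
    obtain ⟨u, hu⟩ := QuotientGroup.mk_out_eq_mul U g
    rw [Finset.mem_image]
    refine ⟨((u⁻¹ : U) : GQ) α, ?_, ?_⟩
    · rw [Set.Finite.mem_toFinset]
      exact h _ (u⁻¹).2
    · rw [hu]
      show ((g * (u : GQ)) * ((u⁻¹ : U) : GQ)) α = g α
      simp
  have h1 := Finset.card_le_card hsub
  rw [Multiset.toFinset_card_of_nodup hnodup, hcardt] at h1
  refine h1.trans (Finset.card_biUnion_le.trans ?_)
  calc ∑ r : GQ ⧸ U, (hs.toFinset.image fun y => (r.out : GQ) y).card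
      ≤ ∑ _r : GQ ⧸ U, n := by
        refine Finset.sum_le_sum fun r _ => Finset.card_image_le.trans ?_
        rw [← Set.ncard_eq_toFinset_card s hs]
        exact hcard
    _ = U.index * n := by
        rw [Finset.sum_const, smul_eq_mul, Finset.card_univ, Subgroup.index, Nat.card_eq_fintype_card]

theorem good_smul {K F : Type*} [Field K] [Field F] [Algebra K F] [IsAlgClosed K]
    [IsFnField K F] (s : SemilinearAut K F) {o : Place K F} {x : Pic0 K F} {E : Divisor K F}
    (h : Good o x E) (ho : s • o = o) (hx : s • x = x) : s • E = E := by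
  refine h.unique ?_ ?_
  · intro v
    rw [SemilinearAut.divisor_smul_apply]
    exact h.1 _
  · obtain ⟨-, -, hd, hx'⟩ := h
    have e : s • E - Finsupp.single o (genusFF K F : ℤ) =
        s • (E - Finsupp.single o (genusFF K F : ℤ)) := by
      rw [smul_sub, SemilinearAut.smul_single, ho]
    refine ⟨by rw [e]; exact SemilinearAut.smul_mem_degZero _ hd, ?_⟩
    have e2 : s • (-x) = -x := by rw [smul_neg, hx]
    rw [← e2, ← hx', SemilinearAut.pic0_smul_mk]
    congr 1
    exact Subtype.ext e

section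

variable {F : Type*} [Field F] [Algebra Qb' F] [IsFnField Qb' F]
variable (ρ : GQ →* SemilinearAut Qb' F)
  (hρ : ∀ (σ : GQ) (a : Qb'), ρ σ • algebraMap Qb' F a = algebraMap Qb' F (σ a))

/-- the finiteness of the set of divisors supported on a finite set with bounded multiplicities -/
theorem finite_divisors {K F : Type*} [Field K] [Field F] [Algebra K F] {P : Set (Place K F)}
    (hP : P.Finite) (g : ℤ) :
    {E : Divisor K F | (∀ v, E v ≠ 0 → v ∈ P) ∧ ∀ v, 0 ≤ E v ∧ E v ≤ g}.Finite := by
  classical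
  have h4 : (Set.univ.pi fun _ : hP.toFinset => Set.Icc (0 : ℤ) g).Finite :=
    Set.Finite.pi fun _ => Set.finite_Icc _ _
  refine Set.Finite.of_finite_image (f := fun (E : Divisor K F) (v : hP.toFinset) => E v)
    (h4.subset ?_) ?_
  · rintro _ ⟨E, ⟨-, hE⟩, rfl⟩
    rw [Set.mem_univ_pi]
    exact fun v => ⟨(hE v).1, (hE v).2⟩
  · intro E hE E' hE' h
    ext v
    by_cases hv : v ∈ P
    · exact congrFun h ⟨v, hP.mem_toFinset.mpr hv⟩
    · have h5 : E v = 0 := by by_contra hne; exact hv (hE.1 v hne)
      have h6 : E' v = 0 := by by_contra hne; exact hv (hE'.1 v hne)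
      rw [h5, h6]

theorem Good.le_genus {K F : Type*} [Field K] [Field F] [Algebra K F] [IsAlgClosed K]
    [IsFnField K F] {o : Place K F} {x : Pic0 K F} {E : Divisor K F}
    (h : Good o x E) (v : Place K F) : E v ≤ genusFF K F := by
  have hsum : ∑ v ∈ E.support, E v = genusFF K F := by
    have := h.degree_eq
    rwa [degree_eq_sum] at this
  by_cases hv : v ∈ E.support
  · rw [← hsum]
    exact Finset.single_le_sum (f := fun v => E v) (fun w _ => h.1 w) hv
  · rw [Finsupp.notMem_support_iff.mp hv]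
    positivity

theorem Good.card_le_genus {K F : Type*} [Field K] [Field F] [Algebra K F] [IsAlgClosed K]
    [IsFnField K F] {o : Place K F} {x : Pic0 K F} {E : Divisor K F}
    (h : Good o x E) : E.support.card ≤ genusFF K F := by
  have hsum : ∑ v ∈ E.support, E v = genusFF K F := by
    have := h.degree_eq
    rwa [degree_eq_sum] at this
  have : (E.support.card : ℤ) ≤ genusFF K F := by
    rw [← hsum]
    have : (E.support.card : ℤ) = ∑ a ∈ E.support, (1 : ℤ) := by simp
    rw [this]
    refine Finset.sum_le_sum fun a ha => ?_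
    have h1 := h.1 a
    rw [Finsupp.mem_support_iff] at ha
    simp only [Finsupp.coe_zero, Pi.zero_apply] at h1
    omega
  exact_mod_cast this

/-- height bound for the points of a good divisor -/
theorem HeightData.hP_le {K F : Type*} [Field K] [Field F] [Algebra K F] [IsAlgClosed K]
    [IsFnField K F] {𝔸 : AdelicStr K} {o : Place K F} (H : HeightData 𝔸 o)
    {x : Pic0 K F} {E : Divisor K F} (h : Good o x E) {v : Place K F} (hv : v ∈ E.support)
    {T : ℝ} (hT : H.Q x ≤ T) :
    H.hP v ≤ |T| + |H.C| + genusFF K F * |H.C| := by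
  have hsum : ∑ v ∈ E.support, (E v : ℝ) = genusFF K F := by
    have : ∑ v ∈ E.support, E v = genusFF K F := by
      have := h.degree_eq
      rwa [degree_eq_sum] at this
    exact_mod_cast this
  have hlow := H.low x E h
  have h1 : (1 : ℝ) ≤ E v := by
    have h1 := h.1 v
    rw [Finsupp.mem_support_iff] at hv
    simp only [Finsupp.coe_zero, Pi.zero_apply] at h1
    have : 1 ≤ E v := by omega
    exact_mod_cast this
  have hnn : ∀ w ∈ E.support, 0 ≤ (E w : ℝ) * (H.hP w + |H.C|) := by
    intro w _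
    have h2 : (0 : ℝ) ≤ E w := by exact_mod_cast h.1 w
    have h3 : 0 ≤ H.hP w + |H.C| := by
      have := H.hP_ge w
      have := le_abs_self H.C
      linarith
    positivity
  have h4 : (E v : ℝ) * (H.hP v + |H.C|) ≤ ∑ w ∈ E.support, (E w : ℝ) * (H.hP w + |H.C|) :=
    Finset.single_le_sum hnn hv
  have h5 : ∑ w ∈ E.support, (E w : ℝ) * (H.hP w + |H.C|) =
      (E.sum fun P n => (n : ℝ) * H.hP P) + genusFF K F * |H.C| := by
    rw [← hsum, Finsupp.sum, Finset.sum_mul, ← Finset.sum_add_distrib]
    exact Finset.sum_congr rfl fun w _ => by ring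
  have h6 : H.hP v + |H.C| ≤ (E v : ℝ) * (H.hP v + |H.C|) := by
    have h3 : 0 ≤ H.hP v + |H.C| := by
      have := H.hP_ge v
      have := le_abs_self H.C
      linarith
    nlinarith
  have h7 := le_abs_self T
  have h8 := le_abs_self H.C
  have h9 := abs_nonneg H.C
  linarith

include hρ in
/-- the finiteness statement needed for the descent -/
theorem finite_good (o : Place Qb' F) (H : HeightData adelicQb o) (c : Pic0 Qb' F) (T : ℝ)
    (U : Subgroup GQ) [U.FiniteIndex] (hUc : ∀ σ ∈ U, ρ σ • c = c) (hUo : ∀ σ ∈ U, ρ σ • o = o)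
    (hUf : ∀ σ ∈ U, ρ σ • H.f = H.f) :
    {x : Pic0 Qb' F | (∀ σ, ρ σ • x = x) ∧
      (∃ E, Good o (x + c) E) ∧ H.Q (x + c) ≤ T}.Finite := by
  classical
  set g := genusFF Qb' F with hg
  -- the finite set of values
  set B : ℝ := H.a * (|T| + |H.C| + g * |H.C|) + H.C with hB
  have hN := northcott (U.index * g) B
  set N := {x : Qb' | (minpoly ℚ x).natDegree ≤ U.index * g ∧ hgt x ≤ B} with hNdef
  have hplaces : ({o} ∪ ⋃ α ∈ N, {v : Place Qb' F | 0 < v.ord (H.f - algebraMap Qb' F α)}).Finite :=
    (Set.finite_singleton o).union (hN.biUnion fun α _ => finite_zeros _)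
  set P := {o} ∪ ⋃ α ∈ N, {v : Place Qb' F | 0 < v.ord (H.f - algebraMap Qb' F α)} with hP
  -- finitely many divisors
  have hdiv := finite_divisors hplaces (g : ℤ)
  -- each x gives such a divisor
  choose! Ex hEx using fun (x : Pic0 Qb' F) (h : ∃ E, Good o (x + c) E) => h
  refine Set.Finite.of_finite_image (f := Ex) (hdiv.subset ?_) ?_
  · rintro _ ⟨x, ⟨hx, hgood, hQ⟩, rfl⟩
    have hG := hEx x hgood
    set E := Ex x with hE
    have hUE : ∀ σ ∈ U, ρ σ • E = E := by
      intro σ hσ
      refine good_smul _ hG (hUo σ hσ) ?_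
      rw [smul_add, hUc σ hσ, hx σ]
    have hstab : ∀ σ ∈ U, ∀ v ∈ E.support, ρ σ • v ∈ E.support := by
      intro σ hσ v hv
      rw [Finsupp.mem_support_iff] at hv ⊢
      rw [← hUE σ hσ, SemilinearAut.divisor_smul_apply_smul]
      exact hv
    refine ⟨fun v hv => ?_, fun v => ⟨hG.1 v, hG.le_genus v⟩⟩
    by_cases hvo : v = o
    · exact Or.inl hvo
    right
    have hval : ∀ w : Place Qb' F, w ≠ o → ∃ α : Qb', 0 < w.ord (H.f - algebraMap Qb' F α) := by
      intro w hw
      obtain ⟨a, ha⟩ := exists_sub_ord_pos w (H.ord_nonneg w hw)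
      refine ⟨a, ha.resolve_left fun h => ?_⟩
      apply H.transcendental
      rw [sub_eq_zero.mp h]
      exact isAlgebraic_algebraMap a
    choose! val hval using hval
    -- uniqueness of values
    have huniq : ∀ w : Place Qb' F, ∀ α β : Qb', 0 < w.ord (H.f - algebraMap Qb' F α) →
        0 < w.ord (H.f - algebraMap Qb' F β) → α = β := by
      intro w α β h1 h2
      by_contra hne
      have h3 : (H.f - algebraMap Qb' F α) - (H.f - algebraMap Qb' F β) =
          algebraMap Qb' F (β - α) := by rw [map_sub]; ring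
      have hne' : H.f - algebraMap Qb' F α ≠ 0 := fun h => by
        rw [h, Place.ord_zero] at h1; exact lt_irrefl _ h1
      have hne'' : H.f - algebraMap Qb' F β ≠ 0 := fun h => by
        rw [h, Place.ord_zero] at h2; exact lt_irrefl _ h2
      have h4 : (H.f - algebraMap Qb' F α) + -(H.f - algebraMap Qb' F β) ≠ 0 := by
        rw [← sub_eq_add_neg, h3]
        intro h
        rw [map_eq_zero, sub_eq_zero] at h
        exact hne h.symm
      have h5 := Fermat.Agent.FF.min_le_ord_add w h4
      rw [Fermat.Agent.FF.ord_neg, ← sub_eq_add_neg, h3, Fermat.Agent.FF.ord_algebraMap] at h5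
      rcases min_le_iff.mp h5 with h | h
      · omega
      · omega
    refine Set.mem_biUnion (x := val v) ?_ (hval v hvo)
    have hvs : v ∈ E.support := Finsupp.mem_support_iff.mpr hv
    refine ⟨?_, ?_⟩
    · -- degree bound
      refine natDegree_minpoly_le U (val v) (val '' (E.support : Set (Place Qb' F)))
        ((Finset.finite_toSet _).image _) g ?_ ?_
      · refine (Set.ncard_image_le (Finset.finite_toSet _)).trans ?_
        rw [Set.ncard_coe_finset]
        exact hG.card_le_genus
      · intro σ hσ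
        refine ⟨ρ σ • v, hstab σ hσ v hvs, ?_⟩
        have hne : ρ σ • v ≠ o := by
          intro h
          apply hvo
          have := congrArg ((ρ σ)⁻¹ • ·) (h.trans (hUo σ hσ).symm)
          simpa using this
        refine huniq (ρ σ • v) _ _ (hval _ hne) ?_
        have h1 := SemilinearAut.ord_smul (ρ σ) v (H.f - algebraMap Qb' F (val v))
        rw [smul_sub, hUf σ hσ, hρ] at h1
        rw [h1]
        exact hval v hvo
    · -- height bound
      have h1 := H.h_f v hvo _ (hval v hvo)
      have h2 := H.hP_le hG hvs hQ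
      have h3 := mul_le_mul_of_nonneg_left h2 H.a_nonneg
      have h4 : hgt (val v) = adelicQb.L (fun w => Real.log (max 1 (adelicQb.abv w (val v)))) := rfl
      rw [h4]
      linarith
  · rintro x ⟨-, hx, -⟩ x' ⟨-, hx', -⟩ h
    obtain ⟨-, -, hd, e⟩ := hEx x hx
    obtain ⟨-, -, hd', e'⟩ := hEx x' hx'
    have h1 : -(x + c) = -(x' + c) := by
      rw [← e, ← e']
      congr 1
      exact Subtype.ext (congrArg (· - Finsupp.single o (genusFF Qb' F : ℤ)) h)
    have h2 := neg_injective h1
    exact add_right_cancel h2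

include hρ in
/-- **Mordell-Weil from the theory of heights and weak Mordell-Weil** -/
theorem fg_of_heightData (o : Place Qb' F) (H : HeightData adelicQb o)
    (hopen : ∀ (x : Pic0 Qb' F), ∃ U : Subgroup GQ, U.FiniteIndex ∧ ∀ σ ∈ U, ρ σ • x = x)
    (hopen_o : ∃ U : Subgroup GQ, U.FiniteIndex ∧ ∀ σ ∈ U, ρ σ • o = o)
    (hopen_f : ∃ U : Subgroup GQ, U.FiniteIndex ∧ ∀ σ ∈ U, ρ σ • H.f = H.f)
    (A₀ : AddSubgroup (Pic0 Qb' F)) (hA₀ : ∀ x ∈ A₀, ∀ σ, ρ σ • x = x)
    (hmod : (nsmulAddMonoidHom (α := A₀) 2).range.FiniteIndex) : AddGroup.FG A₀ := by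
  classical
  obtain ⟨S, hS⟩ := exists_good_translates o
  obtain ⟨U2, hU2, h2⟩ := hopen_o
  obtain ⟨U3, hU3, h3⟩ := hopen_f
  have hbound : ∀ x E, Good o x E → -(|H.C| + genusFF Qb' F * |H.C|) ≤ H.Q x := by
    intro x E hE
    have hlow := H.low x E hE
    have hsum : ∑ v ∈ E.support, (E v : ℝ) = genusFF Qb' F := by
      have : ∑ v ∈ E.support, E v = genusFF Qb' F := by
        have := hE.degree_eq
        rwa [degree_eq_sum] at this
      exact_mod_cast this
    have h5 : -(genusFF Qb' F * |H.C|) ≤ E.sum fun P n => (n : ℝ) * H.hP P := by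
      rw [← hsum, Finsupp.sum, Finset.sum_mul, ← Finset.sum_neg_distrib]
      refine Finset.sum_le_sum fun w _ => ?_
      have h2 : (0 : ℝ) ≤ E w := by exact_mod_cast hE.1 w
      have h3 : -|H.C| ≤ H.hP w := by
        have := H.hP_ge w
        have := le_abs_self H.C
        linarith
      nlinarith
    have := le_abs_self H.C
    linarith
  set C' : ℝ := |H.C| + genusFF Qb' F * |H.C| with hC'
  have hCC' : H.C ≤ C' := by
    have := le_abs_self H.C
    have := abs_nonneg H.C
    have : (0 : ℝ) ≤ genusFF Qb' F * |H.C| := by positivity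
    linarith
  refine fg_of_height A₀ H.Q C' (fun x x' y => (H.bil_le x x' y).trans hCC')
    (fun x => ∃ E, Good o x E) S hS ?_ ?_ hmod
  · rintro x ⟨E, hE⟩
    exact hbound x E hE
  · intro c _ T
    obtain ⟨U1, hU1, h1⟩ := hopen c
    have hfi : (U1 ⊓ (U2 ⊓ U3)).FiniteIndex := inferInstance
    refine (finite_good ρ hρ o H c T (U1 ⊓ (U2 ⊓ U3)) (fun σ hσ => h1 σ hσ.1)
      (fun σ hσ => h2 σ hσ.2.1) (fun σ hσ => h3 σ hσ.2.2)).subset ?_
    rintro x ⟨hx, hgood, hQ⟩
    exact ⟨hA₀ x hx, hgood, hQ⟩

end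

end Fermat.Agent.MW
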