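import Fermat.Agent.MW.Minors

set_option autoImplicit false

/-! # Frames: coordinates on a finite dimensional subspace of a field -/

namespace Fermat.Agent.MW

open Matrix Module

/-- A frame of a field `F` over `K`: a basis of a finite dimensional subspace together with an
extension of the coordinates to all of `F`. -/
structure Frame (K F : Type*) [Field K] [Field F] [Algebra K F] where
  /-- number of coordinates -/
  N : ℕ
  /-- the basis -/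
  e : Fin N → F
  /-- the coordinates -/
  co : F →ₗ[K] (Fin N → K)
  co_e : ∀ i, co (e i) = Pi.single i 1

namespace Frame

variable {K F : Type*} [Field K] [Field F] [Algebra K F] (𝔣 : Frame K F)

/-- the ambient space -/
def V : Submodule K F := Submodule.span K (Set.range 𝔣.e)

theorem repr {f : F} (hf : f ∈ 𝔣.V) : ∑ i, 𝔣.co f i • 𝔣.e i = f := by
  unfold V at hf
  rw [Submodule.mem_span_range_iff_exists_fun] at hf
  obtain ⟨c, rfl⟩ := hf
  have : 𝔣.co (∑ i, c i • 𝔣.e i) = c := by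
    rw [map_sum]
    simp only [map_smul, 𝔣.co_e]
    ext j
    simp [Pi.single_apply]
  rw [this]

theorem co_sum (c : Fin 𝔣.N → K) : 𝔣.co (∑ i, c i • 𝔣.e i) = c := by
  rw [map_sum]
  simp only [map_smul, 𝔣.co_e]
  ext j
  simp [Pi.single_apply]

theorem sum_mem (c : Fin 𝔣.N → K) : ∑ i, c i • 𝔣.e i ∈ 𝔣.V :=
  Submodule.sum_mem _ fun i _ => Submodule.smul_mem _ _ (Submodule.subset_span ⟨i, rfl⟩)

theorem eq_zero_of_co {f : F} (hf : f ∈ 𝔣.V) (h : 𝔣.co f = 0) : f = 0 := by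
  rw [← 𝔣.repr hf, h]
  simp

theorem exists_frame (V : Submodule K F) [Module.Finite K V] : ∃ 𝔣 : Frame K F, 𝔣.V = V := by
  let b := Module.finBasis K V
  obtain ⟨g, hg⟩ := LinearMap.exists_extend (b.equivFun : V →ₗ[K] (Fin (finrank K V) → K))
  refine ⟨⟨finrank K V, fun i => (b i : F), g, fun i => ?_⟩, ?_⟩
  · have := LinearMap.congr_fun hg (b i)
    rw [LinearMap.comp_apply, Submodule.subtype_apply] at this
    rw [this]
    ext j
    simp [Pi.single_apply, eq_comm]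
  · unfold Frame.V
    have : (Set.range fun i => (b i : F)) = V.subtype '' (Set.range b) := by
      ext x
      simp
    show Submodule.span K (Set.range fun i => (b i : F)) = V
    rw [this, Submodule.span_image, b.span_eq, Submodule.map_top, Submodule.range_subtype]

/-- matrix of coordinates of a family -/
def mat {r : ℕ} (w : Fin r → F) : Matrix (Fin r) (Fin 𝔣.N) K := fun i => 𝔣.co (w i)

@[simp] theorem mat_apply {r : ℕ} (w : Fin r → F) (i : Fin r) : 𝔣.mat w i = 𝔣.co (w i) := rfl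

theorem mat_sum {r s : ℕ} (T : Matrix (Fin s) (Fin r) K) (w : Fin r → F) :
    𝔣.mat (fun i => ∑ j, T i j • w j) = T * 𝔣.mat w := by
  ext i l
  rw [mat_apply, map_sum, Finset.sum_apply, mul_apply]
  simp [mat_apply]

theorem vecMul_mat {r : ℕ} (α : Fin r → K) (w : Fin r → F) :
    α ᵥ* 𝔣.mat w = 𝔣.co (∑ j, α j • w j) := by
  ext l
  rw [map_sum, Finset.sum_apply]
  simp [vecMul, dotProduct, mat_apply]

theorem mat_li {r : ℕ} {w : Fin r → F} (hw : LinearIndependent K w) (hV : ∀ i, w i ∈ 𝔣.V) :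
    LinearIndependent K (fun i => 𝔣.mat w i) := by
  rw [Fintype.linearIndependent_iff] at hw ⊢
  intro c hc
  apply hw
  apply 𝔣.eq_zero_of_co
  · exact Submodule.sum_mem _ fun i _ => Submodule.smul_mem _ _ (hV i)
  · rw [map_sum]
    simpa using hc

section nm

variable (v : AbsoluteValue K ℝ)

/-- the norm at a place -/
noncomputable def nm (f : F) : ℝ := nrm v (𝔣.co f)

theorem nm_nonneg (f : F) : 0 ≤ 𝔣.nm v f := nrm_nonneg v _

theorem nm_pos {f : F} (hf : f ∈ 𝔣.V) (h0 : f ≠ 0) : 0 < 𝔣.nm v f :=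
  nrm_pos v fun h => h0 (𝔣.eq_zero_of_co hf h)

theorem nm_smul (c : K) (f : F) : 𝔣.nm v (c • f) = v c * 𝔣.nm v f := by
  rw [nm, map_smul, nrm_smul]; rfl

theorem nm_sum_le {ι : Type*} [Fintype ι] (c : ι → K) (p : ι → F) {B m : ℝ} (hB : 0 ≤ B)
    (hm : 0 ≤ m) (hp : ∀ i, 𝔣.nm v (p i) ≤ B) (hc : ∀ i, v (c i) ≤ m) :
    𝔣.nm v (∑ i, c i • p i) ≤ fac v (Fintype.card ι) * (m * B) := by
  apply nrm_le v (mul_nonneg (fac_pos v _).le (mul_nonneg hm hB))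
  intro l
  rw [map_sum, Finset.sum_apply]
  apply sum_univ_le_fac v _ (mul_nonneg hm hB)
  intro i
  rw [map_smul, Pi.smul_apply, smul_eq_mul, map_mul]
  exact mul_le_mul (hc i) ((le_nrm v _ l).trans (hp i)) (v.nonneg _) hm

end nm

variable (𝔸 : AdelicStr K)

variable {𝔸} in
theorem exists_adm_nm {ι : Type*} [Finite ι] (p : ι → F) :
    ∃ C, 𝔸.Adm C ∧ ∀ w i, 𝔣.nm (𝔸.abv w) (p i) ≤ C w := by
  obtain ⟨C, hC, h⟩ := AdelicStr.exists_adm_bound' (𝔸 := 𝔸)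
    (fun x : ι × Fin 𝔣.N => 𝔣.co (p x.1) x.2)
  exact ⟨C, hC, fun w i => nrm_le _ (hC.pos w).le fun l => h w (i, l)⟩

/-- upper bound for products -/
theorem exists_mul_upper : ∃ C, 𝔸.Adm C ∧ ∀ w, ∀ f ∈ 𝔣.V, ∀ g ∈ 𝔣.V,
    𝔣.nm (𝔸.abv w) (f * g) ≤ C w * (𝔣.nm (𝔸.abv w) f * 𝔣.nm (𝔸.abv w) g) := by
  obtain ⟨C, hC, h⟩ := 𝔣.exists_adm_nm (𝔸 := 𝔸) (fun x : Fin 𝔣.N × Fin 𝔣.N => 𝔣.e x.1 * 𝔣.e x.2)
  refine ⟨_, hC.mul (AdelicStr.adm_archC (Fintype.card (Fin 𝔣.N × Fin 𝔣.N))),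
    fun w f hf g hg => ?_⟩
  have h1 : f * g = ∑ x : Fin 𝔣.N × Fin 𝔣.N, (𝔣.co f x.1 * 𝔣.co g x.2) • (𝔣.e x.1 * 𝔣.e x.2) := by
    conv_lhs => rw [← 𝔣.repr hf, ← 𝔣.repr hg]
    rw [Finset.sum_mul_sum, ← Finset.univ_product_univ, Finset.sum_product]
    refine Finset.sum_congr rfl fun i _ => Finset.sum_congr rfl fun j _ => ?_
    rw [smul_mul_smul_comm]
  have h2 := 𝔣.nm_sum_le (𝔸.abv w) (fun x : Fin 𝔣.N × Fin 𝔣.N => 𝔣.co f x.1 * 𝔣.co g x.2)
    (fun x => 𝔣.e x.1 * 𝔣.e x.2) (hC.pos w).le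
    (mul_nonneg (𝔣.nm_nonneg (𝔸.abv w) f) (𝔣.nm_nonneg (𝔸.abv w) g)) (h w) (fun x => by
      rw [map_mul]
      exact mul_le_mul (le_nrm _ _ _) (le_nrm _ _ _) (AbsoluteValue.nonneg _ _) (𝔣.nm_nonneg _ _))
  rw [← h1] at h2
  refine h2.trans ?_
  have h3 := AdelicStr.fac_le_archC (𝔸 := 𝔸) (Fintype.card (Fin 𝔣.N × Fin 𝔣.N)) w
  have h4 := 𝔣.nm_nonneg (𝔸.abv w) f
  have h5 := 𝔣.nm_nonneg (𝔸.abv w) g
  have h6 := (hC.pos w).le
  calc _ ≤ 𝔸.archC (Fintype.card (Fin 𝔣.N × Fin 𝔣.N)) w *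
        (𝔣.nm (𝔸.abv w) f * 𝔣.nm (𝔸.abv w) g * C w) := by gcongr
    _ = _ := by ring

section lower

open MvPolynomial

variable {𝔣 𝔸}

/-- (U1) in coordinates -/
theorem exists_mul_lower_aux [IsAlgClosed K] {a b : ℕ} {p : Fin a → F} {q : Fin b → F}
    (hp : LinearIndependent K p) (hq : LinearIndependent K q) (hpq : ∀ i j, p i * q j ∈ 𝔣.V) :
    ∃ C, 𝔸.Adm C ∧ ∀ w, ∀ (x : Fin a → K) (y : Fin b → K),
      nrm (𝔸.abv w) x * nrm (𝔸.abv w) y ≤
        C w * 𝔣.nm (𝔸.abv w) ((∑ i, x i • p i) * (∑ j, y j • q j)) := by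
  classical
  -- the polynomials
  let P : Fin a × Fin b → (Unit ⊕ Unit) ⊕ Fin 𝔣.N → MvPolynomial (Fin a ⊕ Fin b) K := fun ij t =>
    match t with
    | Sum.inl (Sum.inl _) => X (Sum.inl ij.1) - 1
    | Sum.inl (Sum.inr _) => X (Sum.inr ij.2) - 1
    | Sum.inr l => ∑ i, ∑ j, C (𝔣.co (p i * q j) l) * (X (Sum.inl i) * X (Sum.inr j))
  have hprod : ∀ (x : Fin a → K) (y : Fin b → K), (∑ i, x i • p i) * (∑ j, y j • q j) =
      ∑ i, ∑ j, (x i * y j) • (p i * q j) := by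
    intro x y
    rw [Finset.sum_mul_sum]
    refine Finset.sum_congr rfl fun i _ => Finset.sum_congr rfl fun j _ => ?_
    rw [smul_mul_smul_comm]
  have heval : ∀ ij (z : Fin a ⊕ Fin b → K) (l : Fin 𝔣.N), eval z (P ij (Sum.inr l)) =
      𝔣.co ((∑ i, z (Sum.inl i) • p i) * (∑ j, z (Sum.inr j) • q j)) l := by
    intro ij z l
    rw [hprod]
    simp only [P, map_sum, map_mul, eval_C, eval_X, map_smul, Finset.sum_apply, Pi.smul_apply,
      smul_eq_mul]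
    refine Finset.sum_congr rfl fun i _ => Finset.sum_congr rfl fun j _ => ?_
    ring
  have key : ∀ ij, ∃ C, 𝔸.Adm C ∧ ∀ w, ∀ z : Fin a ⊕ Fin b → K, (∀ i, 𝔸.abv w (z i) ≤ 1) →
      ∃ t, 1 ≤ C w * 𝔸.abv w (eval z (P ij t)) := by
    intro ij
    apply AdelicStr.nullstellensatz
    intro z
    by_contra hcon
    push Not at hcon
    have h1 : z (Sum.inl ij.1) = 1 := by
      have := hcon (Sum.inl (Sum.inl ()))
      simp only [P, map_sub, eval_X, map_one, sub_eq_zero] at this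
      exact this
    have h2 : z (Sum.inr ij.2) = 1 := by
      have := hcon (Sum.inl (Sum.inr ()))
      simp only [P, map_sub, eval_X, map_one, sub_eq_zero] at this
      exact this
    have h3 : (∑ i, z (Sum.inl i) • p i) * (∑ j, z (Sum.inr j) • q j) = 0 := by
      apply 𝔣.eq_zero_of_co
      · rw [hprod]
        exact Submodule.sum_mem _ fun i _ => Submodule.sum_mem _ fun j _ =>
          Submodule.smul_mem _ _ (hpq i j)
      · ext l
        rw [← heval ij z l]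
        exact hcon (Sum.inr l)
    rcases mul_eq_zero.mp h3 with h4 | h4
    · have := (Fintype.linearIndependent_iff.mp hp) _ h4 ij.1
      rw [h1] at this
      exact one_ne_zero this
    · have := (Fintype.linearIndependent_iff.mp hq) _ h4 ij.2
      rw [h2] at this
      exact one_ne_zero this
  choose C hC hbd using key
  obtain ⟨D, hD, hCD⟩ := AdelicStr.exists_adm_sup C hC
  refine ⟨D, hD, fun w x y => ?_⟩
  have hDpos := hD.pos w
  rcases eq_or_ne x 0 with rfl | hx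
  · rw [nrm_zero, zero_mul]
    exact mul_nonneg hDpos.le (𝔣.nm_nonneg _ _)
  rcases eq_or_ne y 0 with rfl | hy
  · rw [nrm_zero, mul_zero]
    exact mul_nonneg hDpos.le (𝔣.nm_nonneg _ _)
  obtain ⟨i0, hi0, hi⟩ := exists_eq_nrm_of_ne (𝔸.abv w) hx
  obtain ⟨j0, hj0, hj⟩ := exists_eq_nrm_of_ne (𝔸.abv w) hy
  let z : Fin a ⊕ Fin b → K := Sum.elim ((x i0)⁻¹ • x) ((y j0)⁻¹ • y)
  have hxpos := nrm_pos (𝔸.abv w) hx
  have hypos := nrm_pos (𝔸.abv w) hy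
  have hz : ∀ i, 𝔸.abv w (z i) ≤ 1 := by
    rintro (i | j)
    · simp only [z, Sum.elim_inl, Pi.smul_apply, smul_eq_mul, map_mul, map_inv₀]
      rw [hi, inv_mul_le_iff₀ hxpos, mul_one]
      exact le_nrm _ _ _
    · simp only [z, Sum.elim_inr, Pi.smul_apply, smul_eq_mul, map_mul, map_inv₀]
      rw [hj, inv_mul_le_iff₀ hypos, mul_one]
      exact le_nrm _ _ _
  obtain ⟨t, ht⟩ := hbd (i0, j0) w z hz
  rcases t with (t | t) | l
  · exfalso
    simp only [P, z, map_sub, eval_X, map_one, Sum.elim_inl, Pi.smul_apply, smul_eq_mul] at ht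
    rw [inv_mul_cancel₀ hi0, sub_self, map_zero, mul_zero] at ht
    exact absurd ht (by norm_num)
  · exfalso
    simp only [P, z, map_sub, eval_X, map_one, Sum.elim_inr, Pi.smul_apply, smul_eq_mul] at ht
    rw [inv_mul_cancel₀ hj0, sub_self, map_zero, mul_zero] at ht
    exact absurd ht (by norm_num)
  · rw [heval (i0, j0)] at ht
    have h5 : (∑ i, z (Sum.inl i) • p i) * (∑ j, z (Sum.inr j) • q j) =
        ((x i0)⁻¹ * (y j0)⁻¹) • ((∑ i, x i • p i) * (∑ j, y j • q j)) := by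
      simp only [z, Sum.elim_inl, Sum.elim_inr, Pi.smul_apply, smul_eq_mul, mul_smul,
        ← Finset.smul_sum]
      rw [smul_mul_smul_comm, mul_smul]
    rw [h5, map_smul, Pi.smul_apply, smul_eq_mul, map_mul, map_mul, map_inv₀, map_inv₀, hi, hj] at ht
    have h6 : 𝔸.abv w (𝔣.co ((∑ i, x i • p i) * (∑ j, y j • q j)) l) ≤
        𝔣.nm (𝔸.abv w) ((∑ i, x i • p i) * (∑ j, y j • q j)) := le_nrm _ _ _
    have h7 := hCD (i0, j0) w
    have h8 := (hC (i0, j0)).pos w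
    have h9 := (𝔸.abv w).nonneg (𝔣.co ((∑ i, x i • p i) * (∑ j, y j • q j)) l)
    calc nrm (𝔸.abv w) x * nrm (𝔸.abv w) y
        = nrm (𝔸.abv w) x * nrm (𝔸.abv w) y * 1 := (mul_one _).symm
      _ ≤ nrm (𝔸.abv w) x * nrm (𝔸.abv w) y * (C (i0, j0) w *
          ((nrm (𝔸.abv w) x)⁻¹ * (nrm (𝔸.abv w) y)⁻¹ *
            𝔸.abv w (𝔣.co ((∑ i, x i • p i) * (∑ j, y j • q j)) l))) := by gcongr
      _ = C (i0, j0) w * 𝔸.abv w (𝔣.co ((∑ i, x i • p i) * (∑ j, y j • q j)) l) := by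
        field_simp
      _ ≤ _ := by gcongr

theorem exists_mem_tuple (A : Submodule K F) [Module.Finite K A] :
    ∃ (a : ℕ) (p : Fin a → F), LinearIndependent K p ∧ (∀ i, p i ∈ A) ∧
      ∀ f ∈ A, ∃ x : Fin a → K, f = ∑ i, x i • p i := by
  let b := Module.finBasis K A
  refine ⟨_, fun i => (b i : F), b.linearIndependent.map' A.subtype A.ker_subtype,
    fun i => (b i).2, fun f hf => ⟨b.repr ⟨f, hf⟩, ?_⟩⟩
  have := congrArg Subtype.val (b.sum_repr ⟨f, hf⟩)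
  simp only [AddSubmonoidClass.coe_finsetSum, Submodule.coe_smul] at this
  exact this.symm

variable (𝔣 𝔸) in
/-- (U1) -/
theorem exists_mul_lower [IsAlgClosed K] (A B : Submodule K F) [Module.Finite K A]
    [Module.Finite K B] (hAB : ∀ f ∈ A, ∀ g ∈ B, f * g ∈ 𝔣.V) :
    ∃ C, 𝔸.Adm C ∧ ∀ w, ∀ f ∈ A, ∀ g ∈ B,
      𝔣.nm (𝔸.abv w) f * 𝔣.nm (𝔸.abv w) g ≤ C w * 𝔣.nm (𝔸.abv w) (f * g) := by
  obtain ⟨a, p, hp, hpA, hspA⟩ := exists_mem_tuple A
  obtain ⟨b, q, hq, hqB, hspB⟩ := exists_mem_tuple B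
  obtain ⟨C, hC, hbd⟩ := exists_mul_lower_aux (𝔣 := 𝔣) (𝔸 := 𝔸) hp hq
    (fun i j => hAB _ (hpA i) _ (hqB j))
  obtain ⟨D, hD, hD'⟩ := 𝔣.exists_adm_nm (𝔸 := 𝔸) p
  obtain ⟨E, hE, hE'⟩ := 𝔣.exists_adm_nm (𝔸 := 𝔸) q
  refine ⟨_, (hC.mul (hD.mul hE)).mul ((AdelicStr.adm_archC a).mul (AdelicStr.adm_archC b)),
    fun w f hf g hg => ?_⟩
  obtain ⟨x, rfl⟩ := hspA f hf
  obtain ⟨y, rfl⟩ := hspB g hg
  have h1 := 𝔣.nm_sum_le (𝔸.abv w) x p (hD.pos w).le (nrm_nonneg (𝔸.abv w) x) (hD' w)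
    (le_nrm _ x)
  have h2 := 𝔣.nm_sum_le (𝔸.abv w) y q (hE.pos w).le (nrm_nonneg (𝔸.abv w) y) (hE' w)
    (le_nrm _ y)
  rw [Fintype.card_fin] at h1 h2
  have h3 := AdelicStr.fac_le_archC (𝔸 := 𝔸) a w
  have h4 := AdelicStr.fac_le_archC (𝔸 := 𝔸) b w
  have h5 := hbd w x y
  have e1 := nrm_nonneg (𝔸.abv w) x
  have e2 := nrm_nonneg (𝔸.abv w) y
  have e3 := (hD.pos w).le
  have e4 := (hE.pos w).le
  have e5 := fac_pos (𝔸.abv w) a
  have e6 := fac_pos (𝔸.abv w) b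
  have e7 := 𝔣.nm_nonneg (𝔸.abv w) (∑ i, x i • p i)
  have e8 := 𝔣.nm_nonneg (𝔸.abv w) (∑ i, y i • q i)
  have e9 := (AdelicStr.adm_archC (𝔸 := 𝔸) a).pos w
  have e10 := (AdelicStr.adm_archC (𝔸 := 𝔸) b).pos w
  calc _ ≤ (fac (𝔸.abv w) a * (nrm (𝔸.abv w) x * D w)) *
        (fac (𝔸.abv w) b * (nrm (𝔸.abv w) y * E w)) := by gcongr
    _ ≤ (𝔸.archC a w * (nrm (𝔸.abv w) x * D w)) *
        (𝔸.archC b w * (nrm (𝔸.abv w) y * E w)) := by gcongr
    _ = (𝔸.archC a w * 𝔸.archC b w) * (D w * E w) *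
        (nrm (𝔸.abv w) x * nrm (𝔸.abv w) y) := by ring
    _ ≤ (𝔸.archC a w * 𝔸.archC b w) * (D w * E w) *
        (C w * 𝔣.nm (𝔸.abv w) ((∑ i, x i • p i) * (∑ j, y j • q j))) := by gcongr
    _ = _ := by ring

end lower

end Frame

end Fermat.Agent.MW
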