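import Fermat.Agent.MW.Frame

set_option autoImplicit false

/-! # Heights of subspaces -/

namespace Fermat.Agent.MW

open Matrix Module

section calculus

variable {k : Type*} [Field k] (𝔸 : AdelicStr k)

/-- positive functions with integrable logarithm -/
def Lg (a : 𝔸.W → ℝ) : Prop := (∀ w, 0 < a w) ∧ (fun w => Real.log (a w)) ∈ 𝔸.A

/-- integral of the logarithm -/
noncomputable def lg (a : 𝔸.W → ℝ) : ℝ := 𝔸.L fun w => Real.log (a w)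

variable {𝔸}

theorem Lg.mul {a b : 𝔸.W → ℝ} (ha : Lg 𝔸 a) (hb : Lg 𝔸 b) : Lg 𝔸 (fun w => a w * b w) := by
  refine ⟨fun w => mul_pos (ha.1 w) (hb.1 w), ?_⟩
  have : (fun w => Real.log (a w * b w)) = fun w => Real.log (a w) + Real.log (b w) := by
    ext w
    rw [Real.log_mul (ha.1 w).ne' (hb.1 w).ne']
  rw [this]
  exact 𝔸.add_mem ha.2 hb.2

theorem lg_mul {a b : 𝔸.W → ℝ} (ha : Lg 𝔸 a) (hb : Lg 𝔸 b) :
    lg 𝔸 (fun w => a w * b w) = lg 𝔸 a + lg 𝔸 b := by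
  have : (fun w => Real.log (a w * b w)) = fun w => Real.log (a w) + Real.log (b w) := by
    ext w
    rw [Real.log_mul (ha.1 w).ne' (hb.1 w).ne']
  rw [lg, this]
  exact 𝔸.L_add' ha.2 hb.2

theorem Lg.inv {a : 𝔸.W → ℝ} (ha : Lg 𝔸 a) : Lg 𝔸 (fun w => (a w)⁻¹) := by
  refine ⟨fun w => inv_pos.mpr (ha.1 w), ?_⟩
  simp only [Real.log_inv]
  exact 𝔸.neg_mem ha.2

theorem lg_inv {a : 𝔸.W → ℝ} (ha : Lg 𝔸 a) : lg 𝔸 (fun w => (a w)⁻¹) = - lg 𝔸 a := by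
  rw [lg]
  simp only [Real.log_inv]
  exact 𝔸.L_neg' ha.2

theorem Lg.div {a b : 𝔸.W → ℝ} (ha : Lg 𝔸 a) (hb : Lg 𝔸 b) : Lg 𝔸 (fun w => a w / b w) := by
  simp only [div_eq_mul_inv]
  exact ha.mul hb.inv

theorem lg_div {a b : 𝔸.W → ℝ} (ha : Lg 𝔸 a) (hb : Lg 𝔸 b) :
    lg 𝔸 (fun w => a w / b w) = lg 𝔸 a - lg 𝔸 b := by
  simp only [div_eq_mul_inv]
  rw [lg_mul ha hb.inv, lg_inv hb]
  ring

theorem lg_one : lg 𝔸 (fun _ => 1) = 0 := by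
  rw [lg]
  simp only [Real.log_one]
  exact 𝔸.L_zero

theorem Lg.one : Lg 𝔸 (fun _ => 1) := ⟨fun _ => one_pos, by simpa using 𝔸.zero_mem⟩

theorem Lg.pow {a : 𝔸.W → ℝ} (ha : Lg 𝔸 a) (n : ℕ) : Lg 𝔸 (fun w => a w ^ n) := by
  induction n with
  | zero => simpa using Lg.one
  | succ n ih => simp only [pow_succ]; exact ih.mul ha

theorem lg_pow {a : 𝔸.W → ℝ} (ha : Lg 𝔸 a) (n : ℕ) : lg 𝔸 (fun w => a w ^ n) = n * lg 𝔸 a := by
  induction n with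
  | zero => simpa using lg_one
  | succ n ih =>
    simp only [pow_succ]
    rw [lg_mul (ha.pow n) ha, ih]
    push_cast
    ring

theorem lg_le {a b : 𝔸.W → ℝ} (ha : Lg 𝔸 a) (hb : Lg 𝔸 b) (h : ∀ w, a w ≤ b w) :
    lg 𝔸 a ≤ lg 𝔸 b :=
  𝔸.L_mono ha.2 hb.2 fun w => Real.log_le_log (ha.1 w) (h w)

theorem AdelicStr.Adm.lg {C : 𝔸.W → ℝ} (hC : 𝔸.Adm C) : Lg 𝔸 C := ⟨hC.pos, hC.2⟩

theorem lg_nonneg {a : 𝔸.W → ℝ} (ha : Lg 𝔸 a) (h : ∀ w, 1 ≤ a w) : 0 ≤ lg 𝔸 a := by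
  rw [← lg_one (𝔸 := 𝔸)]
  exact lg_le Lg.one ha h

theorem AdelicStr.Adm.lg_nonneg {C : 𝔸.W → ℝ} (hC : 𝔸.Adm C) : 0 ≤ MW.lg 𝔸 C :=
  MW.lg_nonneg hC.lg hC.one_le

theorem Lg.nrm {ι : Type*} [Finite ι] {x : ι → k} (hx : x ≠ 0) :
    Lg 𝔸 (fun w => nrm (𝔸.abv w) x) :=
  ⟨fun _ => nrm_pos _ hx, 𝔸.log_nrm_mem hx⟩

theorem lg_nrm {ι : Type*} (x : ι → k) : lg 𝔸 (fun w => MW.nrm (𝔸.abv w) x) = 𝔸.ht x := rfl

theorem fac_mono (v : AbsoluteValue k ℝ) {m n : ℕ} (h : m ≤ n) : fac v m ≤ fac v n := by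
  unfold fac
  split_ifs
  · exact le_rfl
  · exact max_le_max le_rfl (by exact_mod_cast h)

theorem fac_le_archC' {m n : ℕ} (h : m ≤ n) (w : 𝔸.W) : fac (𝔸.abv w) m ≤ 𝔸.archC n w :=
  (fac_mono _ h).trans (AdelicStr.fac_le_archC n w)

end calculus

namespace Frame

variable {K F : Type*} [Field K] [Field F] [Algebra K F] (𝔣 : Frame K F) (𝔸 : AdelicStr K)

/-- Plücker norm of a family -/
noncomputable def pl (v : AbsoluteValue K ℝ) {r : ℕ} (w : Fin r → F) : ℝ := nrm v (mnr (𝔣.mat w))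

variable {𝔣} in
theorem mnr_mat_ne_zero {r : ℕ} {w : Fin r → F} (hw : LinearIndependent K w)
    (hV : ∀ i, w i ∈ 𝔣.V) : mnr (𝔣.mat w) ≠ 0 := mnr_ne_zero (𝔣.mat_li hw hV)

variable {𝔣} in
theorem pl_pos (v : AbsoluteValue K ℝ) {r : ℕ} {w : Fin r → F} (hw : LinearIndependent K w)
    (hV : ∀ i, w i ∈ 𝔣.V) : 0 < 𝔣.pl v w := nrm_pos v (mnr_mat_ne_zero hw hV)

/-- height of a family -/
noncomputable def hF {r : ℕ} (w : Fin r → F) : ℝ := 𝔸.ht (mnr (𝔣.mat w))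

variable {𝔣 𝔸} in
theorem hF_eq {r : ℕ} {w w' : Fin r → F} (hw' : LinearIndependent K w')
    (hV' : ∀ i, w' i ∈ 𝔣.V) (hw : LinearIndependent K w) (hV : ∀ i, w i ∈ 𝔣.V)
    (h : ∀ i, w' i ∈ Submodule.span K (Set.range w)) : 𝔣.hF 𝔸 w' = 𝔣.hF 𝔸 w := by
  obtain ⟨T, hT⟩ : ∃ T : Matrix (Fin r) (Fin r) K, ∀ i, ∑ j, T i j • w j = w' i := by
    have h1 : ∀ i, ∃ c : Fin r → K, ∑ j, c j • w j = w' i := fun i =>
      Submodule.mem_span_range_iff_exists_fun K |>.mp (h i)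
    choose T hT using h1
    exact ⟨T, hT⟩
  have h2 : 𝔣.mat w' = T * 𝔣.mat w := by
    rw [← 𝔣.mat_sum]
    congr 1
    ext i
    rw [hT]
  have h3 := mnr_mat_ne_zero hw' hV'
  rw [h2, mnr_mul] at h3
  have h4 : T.det ≠ 0 := by
    intro h5
    rw [h5, zero_smul] at h3
    exact h3 rfl
  rw [hF, h2, mnr_mul, 𝔸.ht_smul (mnr_mat_ne_zero hw hV) h4]
  rfl

section basis

variable (W : Submodule K F) [Module.Finite K W]

/-- a basis of a subspace as a family -/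
noncomputable def bs (W : Submodule K F) [Module.Finite K W] (i : Fin (finrank K W)) : F :=
  Module.finBasis K W i

theorem bs_mem (i : Fin (finrank K W)) : bs W i ∈ W := (Module.finBasis K W i).2

theorem bs_li : LinearIndependent K (bs W) :=
  (Module.finBasis K W).linearIndependent.map' W.subtype W.ker_subtype

theorem exists_bs {f : F} (hf : f ∈ W) : ∃ c : Fin (finrank K W) → K, f = ∑ i, c i • bs W i := by
  refine ⟨(Module.finBasis K W).repr ⟨f, hf⟩, ?_⟩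
  have := congrArg Subtype.val ((Module.finBasis K W).sum_repr ⟨f, hf⟩)
  simp only [AddSubmonoidClass.coe_finsetSum, Submodule.coe_smul] at this
  exact this.symm

theorem span_bs : Submodule.span K (Set.range (bs W)) = W := by
  apply le_antisymm
  · rw [Submodule.span_le]
    rintro _ ⟨i, rfl⟩
    exact bs_mem W i
  · intro f hf
    obtain ⟨c, rfl⟩ := exists_bs W hf
    exact Submodule.sum_mem _ fun i _ => Submodule.smul_mem _ _ (Submodule.subset_span ⟨i, rfl⟩)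

theorem exists_family : ∃ (r : ℕ) (w : Fin r → F), finrank K W = r ∧ LinearIndependent K w ∧
    (∀ i, w i ∈ W) ∧ ∀ f ∈ W, ∃ c : Fin r → K, f = ∑ i, c i • w i :=
  ⟨_, bs W, rfl, bs_li W, bs_mem W, fun _ hf => exists_bs W hf⟩

end basis

open Classical in
/-- height of a subspace -/
noncomputable def HS (W : Submodule K F) : ℝ :=
  if _h : Module.Finite K W then 𝔣.hF 𝔸 (bs W) else 0

theorem HS_def (W : Submodule K F) [h : Module.Finite K W] : 𝔣.HS 𝔸 W = 𝔣.hF 𝔸 (bs W) :=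
  dif_pos h

variable {𝔣 𝔸}

theorem HS_eq {W : Submodule K F} [Module.Finite K W] (hWV : W ≤ 𝔣.V) {r : ℕ}
    (hr : finrank K W = r) {w : Fin r → F} (hw : LinearIndependent K w) (hwW : ∀ i, w i ∈ W) :
    𝔣.HS 𝔸 W = 𝔣.hF 𝔸 w := by
  subst hr
  rw [HS_def]
  refine (hF_eq hw (fun i => hWV (hwW i)) (bs_li W) (fun i => hWV (bs_mem W i)) fun i => ?_).symm
  rw [span_bs]
  exact hwW i

theorem finrank_le_N {W : Submodule K F} [Module.Finite K W] (hWV : W ≤ 𝔣.V) :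
    finrank K W ≤ 𝔣.N := by
  have h1 : Module.Finite K 𝔣.V := FiniteDimensional.span_of_finite K (Set.finite_range _)
  calc finrank K W ≤ finrank K 𝔣.V := Submodule.finrank_mono hWV
    _ ≤ 𝔣.N := by
      have := finrank_range_le_card (R := K) 𝔣.e
      rw [Fintype.card_fin] at this
      exact this

theorem HS_nonneg {W : Submodule K F} [Module.Finite K W] (hWV : W ≤ 𝔣.V) : 0 ≤ 𝔣.HS 𝔸 W := by
  rw [HS_def]
  exact 𝔸.ht_nonneg (mnr_mat_ne_zero (bs_li W) fun i => hWV (bs_mem W i))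

variable (𝔣 𝔸) in
/-- multiplication of a subspace by an element -/
def mulS (a : F) (W : Submodule K F) : Submodule K F := W.map (LinearMap.mulLeft K a)

variable (𝔣 𝔸) in
/-- (L2) + (U1) -/
theorem exists_HS_mulS [IsAlgClosed K] (A B : Submodule K F) [Module.Finite K A]
    [Module.Finite K B] (hA : A ≤ 𝔣.V) (hB : B ≤ 𝔣.V)
    (hAB : ∀ f ∈ A, ∀ g ∈ B, f * g ∈ 𝔣.V) :
    ∃ c : ℝ, ∀ a ∈ A, a ≠ 0 → ∀ W ≤ B,
      |𝔣.HS 𝔸 (mulS a W) - 𝔣.HS 𝔸 W - finrank K W * 𝔸.ht (𝔣.co a)| ≤ c := by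
  obtain ⟨C, hC, hCb⟩ := 𝔣.exists_mul_upper 𝔸
  obtain ⟨D, hD, hDb⟩ := 𝔣.exists_mul_lower 𝔸 A B hAB
  have hCN := (hC.pow 𝔣.N).mul (AdelicStr.adm_archC (𝔸 := 𝔸) 𝔣.N.factorial)
  have hDN := (hD.pow 𝔣.N).mul (AdelicStr.adm_archC (𝔸 := 𝔸) 𝔣.N.factorial)
  refine ⟨lg 𝔸 (fun w => C w ^ 𝔣.N * 𝔸.archC 𝔣.N.factorial w) +
    lg 𝔸 (fun w => D w ^ 𝔣.N * 𝔸.archC 𝔣.N.factorial w), fun a ha ha0 W hW => ?_⟩
  have hfW : Module.Finite K W := Submodule.finiteDimensional_of_le hW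
  have hWV : W ≤ 𝔣.V := hW.trans hB
  have hinj : Function.Injective (LinearMap.mulLeft K a) := fun x y hxy => mul_left_cancel₀ ha0 hxy
  have hfaW : Module.Finite K (mulS a W) := Module.Finite.map W _
  have haWV : mulS a W ≤ 𝔣.V := by
    rintro _ ⟨f, hf, rfl⟩
    exact hAB a ha f (hW hf)
  have hr : finrank K (mulS a W) = finrank K W := by
    exact (Submodule.equivMapOfInjective _ hinj W).finrank_eq.symm
  set w := bs W with hw
  have hwli := bs_li W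
  have hwV : ∀ i, w i ∈ 𝔣.V := fun i => hWV (bs_mem W i)
  set w' : Fin (finrank K W) → F := fun i => a * w i with hw'
  have hw'li : LinearIndependent K w' := hwli.map' (LinearMap.mulLeft K a) (LinearMap.ker_eq_bot.mpr hinj)
  have hw'V : ∀ i, w' i ∈ 𝔣.V := fun i => hAB a ha _ (hW (bs_mem W i))
  have hHS : 𝔣.HS 𝔸 (mulS a W) = 𝔣.hF 𝔸 w' :=
    HS_eq haWV hr hw'li fun i => ⟨w i, bs_mem W i, rfl⟩
  have hHS' : 𝔣.HS 𝔸 W = 𝔣.hF 𝔸 w := HS_def 𝔣 𝔸 W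
  have hrN : finrank K W ≤ 𝔣.N := finrank_le_N hWV
  have hsum : ∀ α : Fin (finrank K W) → K, ∑ j, α j • w' j = a * ∑ j, α j • w j := by
    intro α
    rw [Finset.mul_sum]
    exact Finset.sum_congr rfl fun j _ => (mul_smul_comm _ _ _).symm
  have hsW : ∀ α : Fin (finrank K W) → K, ∑ j, α j • w j ∈ W := fun α =>
    Submodule.sum_mem _ fun j _ => Submodule.smul_mem _ _ (bs_mem W j)
  have haV := hA ha
  have la : Lg 𝔸 (fun v => 𝔣.nm (𝔸.abv v) a) := Lg.nrm fun h => ha0 (𝔣.eq_zero_of_co haV h)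
  have lw : Lg 𝔸 (fun v => 𝔣.pl (𝔸.abv v) w) := Lg.nrm (mnr_mat_ne_zero hwli hwV)
  have lw' : Lg 𝔸 (fun v => 𝔣.pl (𝔸.abv v) w') := Lg.nrm (mnr_mat_ne_zero hw'li hw'V)
  have hup : ∀ v, 𝔣.pl (𝔸.abv v) w' ≤ C v ^ 𝔣.N * 𝔸.archC 𝔣.N.factorial v *
      (𝔣.nm (𝔸.abv v) a ^ finrank K W * 𝔣.pl (𝔸.abv v) w) := by
    intro v
    have h1 := mnr_le_of_le (𝔸.abv v) (𝔣.mat_li hwli hwV) (z := 𝔣.mat w')
      (B := C v * 𝔣.nm (𝔸.abv v) a) (mul_nonneg (hC.pos v).le (𝔣.nm_nonneg _ _)) (fun α => by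
        rw [𝔣.vecMul_mat, 𝔣.vecMul_mat, hsum, mul_assoc]
        exact hCb v a haV _ (hWV (hsW α)))
    have h2 := fac_le_archC' (𝔸 := 𝔸) (Nat.factorial_le hrN) v
    have h3 : C v ^ finrank K W ≤ C v ^ 𝔣.N := pow_le_pow_right₀ (hC.one_le v) hrN
    have h4 := (lw.1 v).le
    have h5 := (la.1 v).le
    have h6 := (hC.pos v).le
    have h7 := (AdelicStr.adm_archC (𝔸 := 𝔸) 𝔣.N.factorial).pos v |>.le
    calc 𝔣.pl (𝔸.abv v) w' ≤ fac (𝔸.abv v) (finrank K W).factorial *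
          (C v * 𝔣.nm (𝔸.abv v) a) ^ finrank K W * 𝔣.pl (𝔸.abv v) w := h1
      _ = fac (𝔸.abv v) (finrank K W).factorial * (C v ^ finrank K W) *
          (𝔣.nm (𝔸.abv v) a ^ finrank K W * 𝔣.pl (𝔸.abv v) w) := by rw [mul_pow]; ring
      _ ≤ 𝔸.archC 𝔣.N.factorial v * (C v ^ 𝔣.N) *
          (𝔣.nm (𝔸.abv v) a ^ finrank K W * 𝔣.pl (𝔸.abv v) w) := by gcongr
      _ = _ := by ring
  have hlow : ∀ v, (𝔣.nm (𝔸.abv v) a ^ finrank K W * 𝔣.pl (𝔸.abv v) w) ≤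
      D v ^ 𝔣.N * 𝔸.archC 𝔣.N.factorial v * 𝔣.pl (𝔸.abv v) w' := by
    intro v
    have h5 := la.1 v
    have h1 := mnr_le_of_le (𝔸.abv v) (𝔣.mat_li hw'li hw'V) (z := 𝔣.mat w)
      (B := D v / 𝔣.nm (𝔸.abv v) a) (div_nonneg (hD.pos v).le (𝔣.nm_nonneg _ _)) (fun α => by
        rw [𝔣.vecMul_mat, 𝔣.vecMul_mat, hsum, div_mul_eq_mul_div, le_div_iff₀ h5, mul_comm]
        exact hDb v a ha _ (hW (hsW α)))
    have h2 := fac_le_archC' (𝔸 := 𝔸) (Nat.factorial_le hrN) v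
    have h3 : D v ^ finrank K W ≤ D v ^ 𝔣.N := pow_le_pow_right₀ (hD.one_le v) hrN
    have h4 := (lw'.1 v).le
    have h6 := (hD.pos v).le
    have h7 := (AdelicStr.adm_archC (𝔸 := 𝔸) 𝔣.N.factorial).pos v |>.le
    calc 𝔣.nm (𝔸.abv v) a ^ finrank K W * 𝔣.pl (𝔸.abv v) w ≤
          𝔣.nm (𝔸.abv v) a ^ finrank K W * (fac (𝔸.abv v) (finrank K W).factorial *
          (D v / 𝔣.nm (𝔸.abv v) a) ^ finrank K W * 𝔣.pl (𝔸.abv v) w') := by
            gcongr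
            exact h1
      _ = fac (𝔸.abv v) (finrank K W).factorial * (D v ^ finrank K W) *
          𝔣.pl (𝔸.abv v) w' := by rw [div_pow]; field_simp
      _ ≤ 𝔸.archC 𝔣.N.factorial v * (D v ^ 𝔣.N) * 𝔣.pl (𝔸.abv v) w' := by gcongr
      _ = _ := by ring
  have e1 := lg_le lw' (hCN.lg.mul ((la.pow _).mul lw)) hup
  have e2 := lg_le ((la.pow _).mul lw) (hDN.lg.mul lw') hlow
  rw [lg_mul hCN.lg ((la.pow _).mul lw), lg_mul (la.pow _) lw, lg_pow la] at e1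
  rw [lg_mul hDN.lg lw', lg_mul (la.pow _) lw, lg_pow la] at e2
  have f1 : lg 𝔸 (fun v => 𝔣.pl (𝔸.abv v) w') = 𝔣.hF 𝔸 w' := rfl
  have f2 : lg 𝔸 (fun v => 𝔣.pl (𝔸.abv v) w) = 𝔣.hF 𝔸 w := rfl
  have f3 : lg 𝔸 (fun v => 𝔣.nm (𝔸.abv v) a) = 𝔸.ht (𝔣.co a) := rfl
  rw [f1, f2, f3] at e1 e2
  have g1 := hCN.lg_nonneg
  have g2 := hDN.lg_nonneg
  rw [hHS, hHS', abs_le]
  constructor <;> linarith

/-- The reciprocal of the norm of a functional is the quotient of the Plücker norms. -/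
theorem exists_rho {W : Submodule K F} [Module.Finite K W] (hWV : W ≤ 𝔣.V) (φ : F →ₗ[K] K)
    {w₀ : F} (hw₀ : w₀ ∈ W) (hφ : φ w₀ = 1) :
    ∃ ρ : 𝔸.W → ℝ, Lg 𝔸 ρ ∧ lg 𝔸 ρ = 𝔣.HS 𝔸 (W ⊓ LinearMap.ker φ) - 𝔣.HS 𝔸 W ∧
      (∀ v, ∀ u ∈ W, 𝔸.abv v (φ u) ≤ 𝔸.archC (𝔣.N + 1) v * (ρ v * 𝔣.nm (𝔸.abv v) u)) ∧
      ∀ v, ∃ u ∈ W, φ u = 1 ∧ ρ v * 𝔣.nm (𝔸.abv v) u ≤ 1 := by
  classical
  set W' := W ⊓ LinearMap.ker φ with hW'
  have hW'W : W' ≤ W := inf_le_left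
  have hfW' : Module.Finite K W' := Submodule.finiteDimensional_of_le hW'W
  obtain ⟨r, w, hr, hwli, hwW', hwsp⟩ := exists_family W'
  have hHS' : 𝔣.HS 𝔸 W' = 𝔣.hF 𝔸 w := HS_eq (hW'W.trans hWV) hr hwli hwW'
  have hwV : ∀ i, w i ∈ 𝔣.V := fun i => hWV (hW'W (hwW' i))
  have hφw : ∀ i, φ (w i) = 0 := fun i => (hwW' i).2
  let u : Fin (r + 1) → F := fun i => Fin.cases w₀ (fun i => w i) i
  have hu0 : u 0 = w₀ := rfl
  have hus : ∀ i : Fin r, u i.succ = w i := fun _ => rfl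
  have huW : ∀ i, u i ∈ W := by
    intro i
    refine Fin.cases hw₀ (fun i => ?_) i
    rw [hus]
    exact hW'W (hwW' i)
  have huli : LinearIndependent K u := by
    rw [Fintype.linearIndependent_iff]
    intro c hc
    rw [Fin.sum_univ_succ] at hc
    simp only [hu0, hus] at hc
    have h0 : c 0 = 0 := by
      have := congrArg φ hc
      rw [map_add, map_smul, map_sum, hφ, map_zero] at this
      simp only [map_smul, hφw, smul_eq_mul, mul_zero, Finset.sum_const_zero, add_zero,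
        mul_one] at this
      exact this
    rw [h0, zero_smul, zero_add] at hc
    have h1 := (Fintype.linearIndependent_iff.mp hwli) (fun i => c i.succ) hc
    intro i
    refine Fin.cases h0 h1 i
  have hdecomp : ∀ f ∈ W, ∃ α : Fin r → K, f = φ f • w₀ + ∑ j, α j • w j := by
    intro f hf
    have h1 : f - φ f • w₀ ∈ W' := by
      refine ⟨W.sub_mem hf (W.smul_mem _ hw₀), ?_⟩
      rw [SetLike.mem_coe, LinearMap.mem_ker, map_sub, map_smul, hφ, smul_eq_mul, mul_one, sub_self]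
    obtain ⟨α, hα⟩ := hwsp _ h1
    exact ⟨α, by rw [← hα]; abel⟩
  have hrank : finrank K W = r + 1 := by
    have h1 : Submodule.span K (Set.range u) = W := by
      apply le_antisymm
      · rw [Submodule.span_le]
        rintro _ ⟨i, rfl⟩
        exact huW i
      · intro f hf
        obtain ⟨α, hα⟩ := hdecomp f hf
        rw [hα]
        refine Submodule.add_mem _ (Submodule.smul_mem _ _ (Submodule.subset_span ⟨0, rfl⟩)) ?_
        exact Submodule.sum_mem _ fun j _ => Submodule.smul_mem _ _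
          (Submodule.subset_span ⟨j.succ, rfl⟩)
    have h2 := finrank_span_eq_card huli
    rw [h1, Fintype.card_fin] at h2
    exact h2
  have hHS : 𝔣.HS 𝔸 W = 𝔣.hF 𝔸 u := HS_eq hWV hrank huli huW
  have hmat : 𝔣.mat u = consRow (𝔣.co w₀) (𝔣.mat w) := by
    ext i j
    refine Fin.cases ?_ (fun i => ?_) i
    · rfl
    · rfl
  have lw : Lg 𝔸 (fun v => 𝔣.pl (𝔸.abv v) w) := Lg.nrm (mnr_mat_ne_zero hwli hwV)
  have lu : Lg 𝔸 (fun v => 𝔣.pl (𝔸.abv v) u) :=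
    Lg.nrm (mnr_mat_ne_zero huli fun i => hWV (huW i))
  have hrN : r + 1 ≤ 𝔣.N + 1 := by
    rw [← hrank]
    exact (finrank_le_N hWV).trans (Nat.le_succ _)
  refine ⟨fun v => 𝔣.pl (𝔸.abv v) w / 𝔣.pl (𝔸.abv v) u, lw.div lu, ?_, fun v f hf => ?_,
    fun v => ?_⟩
  · rw [lg_div lw lu, hHS, hHS']
    rfl
  · obtain ⟨α, hα⟩ := hdecomp f hf
    have h1 := coeff_mul_le (𝔸.abv v) (𝔣.mat w) (𝔣.co w₀) (𝔣.co f) (φ f) α (by
      rw [𝔣.vecMul_mat, ← map_smul, ← map_add, ← hα])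
    rw [← hmat] at h1
    have hupos := lu.1 v
    have hwpos := lw.1 v
    have hfac := fac_le_archC' (𝔸 := 𝔸) hrN v
    have hn := 𝔣.nm_nonneg (𝔸.abv v) f
    have h2 : 𝔸.abv v (φ f) * 𝔣.pl (𝔸.abv v) u ≤
        fac (𝔸.abv v) (r + 1) * (𝔣.nm (𝔸.abv v) f * 𝔣.pl (𝔸.abv v) w) := h1
    have h3 : 𝔸.abv v (φ f) * 𝔣.pl (𝔸.abv v) u ≤
        𝔸.archC (𝔣.N + 1) v * (𝔣.nm (𝔸.abv v) f * 𝔣.pl (𝔸.abv v) w) :=
      h2.trans (mul_le_mul_of_nonneg_right hfac (mul_nonneg hn hwpos.le))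
    rw [← le_div_iff₀ hupos] at h3
    refine h3.trans (le_of_eq ?_)
    field_simp
  · obtain ⟨α, hα⟩ := exists_reduce (𝔸.abv v) (𝔣.mat_li hwli hwV) (𝔣.co w₀)
    rw [𝔣.vecMul_mat, ← map_add, ← hmat] at hα
    refine ⟨w₀ + ∑ j, α j • w j, W.add_mem hw₀ (W.sum_mem fun j _ =>
      W.smul_mem _ (hW'W (hwW' j))), ?_, ?_⟩
    · rw [map_add, hφ, map_sum]
      simp only [map_smul, hφw, smul_zero, Finset.sum_const_zero, add_zero]
    · have hupos := lu.1 v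
      rw [div_mul_eq_mul_div, div_le_one₀ hupos]
      exact hα

end Frame

end Fermat.Agent.MW
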