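import Fermat.Agent.MW.HeightMain

set_option autoImplicit false
set_option linter.unusedSectionVars false

/-! # Construction of the height data -/

open WithZero AlgebraicCurve Fermat.Agent.RR Module
open Fermat.Agent.FF (IsFnField)

namespace Fermat.Agent.MW

variable {K F : Type*} [Field K] [Field F] [Algebra K F] [IsAlgClosed K] [IsFnField K F]

theorem nrm_mnr_one (𝔣 : Frame K F) (v : AbsoluteValue K ℝ) (a : F) :
    nrm v (mnr (𝔣.mat (fun _ : Fin 1 => a))) = nrm v (𝔣.co a) := by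
  have h : ∀ I : Fin 1 → Fin 𝔣.N, mnr (𝔣.mat (fun _ : Fin 1 => a)) I = 𝔣.co a (I 0) := by
    intro I
    rw [mnr_apply, Matrix.det_fin_one]
    rfl
  apply le_antisymm
  · apply nrm_le v (nrm_nonneg v _)
    intro I
    rw [h]
    exact le_nrm v _ _
  · apply nrm_le v (nrm_nonneg v _)
    intro l
    have := le_nrm v (mnr (𝔣.mat (fun _ : Fin 1 => a))) (fun _ => l)
    rwa [h] at this

theorem HH_one {𝔣 : Frame K F} {𝔸 : AdelicStr K} {A : Divisor K F}
    (hA : riemannRochSpace A ≤ 𝔣.V) (hell : ell A = 1) {a : F} (ha : a ∈ riemannRochSpace A)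
    (ha0 : a ≠ 0) : HH 𝔣 𝔸 A = 𝔸.ht (𝔣.co a) := by
  rw [HH, Frame.HS_eq hA (r := 1) hell (w := fun _ : Fin 1 => a)
    (LinearIndependent.of_subsingleton (R := K) (0 : Fin 1) ha0) (fun _ => ha)]
  unfold Frame.hF AdelicStr.ht
  simp only [nrm_mnr_one]

theorem exists_hTheory (𝔸 : AdelicStr K) (o : Place K F) (N : ℕ) :
    ∃ (𝔣 : Frame K F) (T : HTheory o (N : ℤ)), T.H = HH 𝔣 𝔸 ∧
      riemannRochSpace (Finsupp.single o (N : ℤ)) ≤ 𝔣.V := by
  classical
  set g := genusFF K F with hg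
  obtain ⟨𝔣, h𝔣⟩ := Frame.exists_frame (K := K) (riemannRochSpace
    (Finsupp.single o ((2 * N + 2 * g : ℕ) : ℤ) : Divisor K F))
  have hV : ∀ A : Divisor K F, A ≤ Finsupp.single o ((2 * N + 2 * g : ℕ) : ℤ) →
      riemannRochSpace A ≤ 𝔣.V := by
    intro A hA
    rw [h𝔣]
    exact riemannRochSpace_mono hA
  have hV1 : ∀ A : Divisor K F, A ≤ Finsupp.single o (N : ℤ) → riemannRochSpace A ≤ 𝔣.V :=
    fun A hA => hV A (hA.trans (single_mono' o (by push_cast; omega)))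
  have hV2 : ∀ A B : Divisor K F, A ≤ Finsupp.single o (N : ℤ) → B ≤ Finsupp.single o (N : ℤ) →
      riemannRochSpace (A + B) ≤ 𝔣.V := by
    intro A B hA hB
    apply hV
    calc A + B ≤ Finsupp.single o (N : ℤ) + Finsupp.single o (N : ℤ) := add_le_add hA hB
      _ = Finsupp.single o ((N : ℤ) + N) := by rw [Finsupp.single_add]
      _ ≤ _ := single_mono' o (by push_cast; omega)
  obtain ⟨ctd, hctd, htd⟩ := exists_td 𝔣 𝔸
  -- the nontrivial direction
  have hntd : ∀ d e : Fin (N + 1), ∃ c : ℝ, (d : ℕ) + 3 * g ≤ N → (e : ℕ) + 3 * g ≤ N →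
      N + (e : ℕ) + 2 * g ≤ N + d → ∀ (D E : Divisor K F) (P : Place K F), 0 ≤ D → 0 ≤ E →
      Divisor.degree D = (d : ℕ) → Divisor.degree E = (e : ℕ) →
      GG 𝔣 𝔸 ((Finsupp.single o (N : ℤ) - D) + (Finsupp.single o (N : ℤ) - E)) P ≤
        GG 𝔣 𝔸 (Finsupp.single o (N : ℤ) - D) P + GG 𝔣 𝔸 (Finsupp.single o (N : ℤ) - E) P + c := by
    intro d e
    by_cases h : (d : ℕ) + 3 * g ≤ N ∧ (e : ℕ) + 3 * g ≤ N ∧ N + (e : ℕ) + 2 * g ≤ N + d
    · obtain ⟨c, hc⟩ := exists_ntd 𝔣 𝔸 o N N d e (fun i hi => hV _ (single_mono' o (by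
        rw [max_self] at hi
        exact_mod_cast hi))) h.1 h.2.1 h.2.2
      exact ⟨c, fun _ _ _ => hc⟩
    · exact ⟨0, fun h1 h2 h3 => absurd ⟨h1, h2, h3⟩ h⟩
  choose c hc using hntd
  have hstar : IsStar o (HH 𝔣 𝔸) (N : ℤ) (ctd + ∑ d, ∑ e, |c d e|) := by
    intro A B P hA hB hdA hdB
    have hsum0 : 0 ≤ ∑ d, ∑ e, |c d e| :=
      Finset.sum_nonneg fun _ _ => Finset.sum_nonneg fun _ _ => abs_nonneg _
    have hAN := degree_mono hA
    have hBN := degree_mono hB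
    rw [degree_single'] at hAN hBN
    have t1 := htd A B P (hV1 A hA) (hV1 B hB) (hV2 A B hA hB)
      (not_le_of_degree (by omega) P) (not_le_of_degree (by omega) P)
    obtain ⟨d, hd⟩ := Int.eq_ofNat_of_zero_le (show 0 ≤ (N : ℤ) - Divisor.degree A by omega)
    obtain ⟨e, he⟩ := Int.eq_ofNat_of_zero_le (show 0 ≤ (N : ℤ) - Divisor.degree B by omega)
    have t2 := hc ⟨d, by omega⟩ ⟨e, by omega⟩ (by simp only; omega) (by simp only; omega)
      (by simp only; omega) (Finsupp.single o (N : ℤ) - A) (Finsupp.single o (N : ℤ) - B) P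
      (sub_nonneg.mpr hA) (sub_nonneg.mpr hB) (by rw [map_sub, degree_single', hd])
      (by rw [map_sub, degree_single', he])
    rw [sub_sub_cancel, sub_sub_cancel] at t2
    have t3 : c ⟨d, by omega⟩ ⟨e, by omega⟩ ≤ ∑ d, ∑ e, |c d e| := by
      refine (le_abs_self _).trans ?_
      refine (Finset.single_le_sum (f := fun e => |c ⟨d, by omega⟩ e|)
        (fun _ _ => abs_nonneg _) (Finset.mem_univ (⟨e, by omega⟩ : Fin (N + 1)))).trans ?_
      exact Finset.single_le_sum (f := fun d => ∑ e, |c d e|)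
        (fun _ _ => Finset.sum_nonneg fun _ _ => abs_nonneg _)
        (Finset.mem_univ (⟨d, by omega⟩ : Fin (N + 1)))
    have g1 : Gd (HH 𝔣 𝔸) (A + B) P = GG 𝔣 𝔸 (A + B) P := rfl
    have g2 : Gd (HH 𝔣 𝔸) A P = GG 𝔣 𝔸 A P := rfl
    have g3 : Gd (HH 𝔣 𝔸) B P = GG 𝔣 𝔸 B P := rfl
    rw [g1, g2, g3, abs_le]
    constructor <;> linarith
  obtain ⟨c₅, h5⟩ := Frame.exists_HS_mulS 𝔣 𝔸
    (riemannRochSpace (Finsupp.single o (N : ℤ) : Divisor K F))
    (riemannRochSpace (Finsupp.single o (N : ℤ) : Divisor K F)) (hV1 _ le_rfl) (hV1 _ le_rfl)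
    (fun f hf g hg => hV2 _ _ le_rfl le_rfl (mul_mem_riemannRochSpace hf hg))
  refine ⟨𝔣, ⟨HH 𝔣 𝔸, fun a => 𝔸.ht (𝔣.co a), _, hstar, c₅, ?_, ctd, hctd, ?_, ?_, ?_⟩, rfl,
    hV1 _ le_rfl⟩
  · intro a ha ha0 B hB
    have h := h5 a ha ha0 (riemannRochSpace B) (riemannRochSpace_mono hB)
    have e : Frame.mulS a (riemannRochSpace B) = riemannRochSpace (B - divOf a) := map_mulL ha0 B
    rw [e] at h
    exact h
  · intro A B P hA hB hAP hBP
    exact htd A B P (hV1 A hA) (hV1 B hB) (hV2 A B hA hB) hAP hBP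
  · intro A hA hell a ha ha0
    exact HH_one (hV1 A hA) hell ha ha0
  · intro A hA
    exact HH_nonneg (hV1 A hA)

/-- a non-constant function with a pole at `o` only -/
theorem exists_transcendental_mem (o : Place K F) :
    ∃ f ∈ riemannRochSpace (Finsupp.single o (3 * (genusFF K F : ℤ) + 1)), Transcendental K f := by
  have h1 := riemann_ineq (Finsupp.single o (3 * (genusFF K F : ℤ) + 1) : Divisor K F)
  rw [degree_single'] at h1
  have h0 : (0 : Divisor K F) ≤ Finsupp.single o (3 * (genusFF K F : ℤ) + 1) := by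
    have := single_mono' o (show (0 : ℤ) ≤ 3 * (genusFF K F : ℤ) + 1 by omega)
    rwa [Finsupp.single_zero] at this
  have hlt : riemannRochSpace (0 : Divisor K F) <
      riemannRochSpace (Finsupp.single o (3 * (genusFF K F : ℤ) + 1)) := by
    refine lt_of_le_of_ne (riemannRochSpace_mono h0) fun h => ?_
    have h2 : ell (0 : Divisor K F) = ell (Finsupp.single o (3 * (genusFF K F : ℤ) + 1)) := by
      unfold ell
      rw [h]
    rw [ell_zero] at h2
    omega
  obtain ⟨f, hf, hf'⟩ := SetLike.exists_of_lt hlt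
  refine ⟨f, hf, fun halg => hf' ?_⟩
  obtain ⟨c, rfl⟩ := mem_range_of_isAlgebraic halg
  rw [riemannRochSpace_zero, Submodule.mem_span_singleton]
  exact ⟨c, (Algebra.algebraMap_eq_smul_one c).symm⟩

/-- the height of the value of a function at a point -/
theorem exists_height_value {𝔣 : Frame K F} {𝔸 : AdelicStr K} (o : Place K F) (n : ℤ)
    (hn : 2 * (genusFF K F : ℤ) ≤ n) (hV : riemannRochSpace (Finsupp.single o n) ≤ 𝔣.V) {f : F}
    (hf : f ∈ riemannRochSpace (Finsupp.single o n : Divisor K F)) :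
    ∃ C, 0 ≤ C ∧ ∀ P : Place K F, P ≠ o → ∀ c : K, 0 < P.ord (f - algebraMap K F c) →
      𝔸.L (fun w => Real.log (max 1 (𝔸.abv w c))) ≤ GG 𝔣 𝔸 (Finsupp.single o n) P + C := by
  classical
  obtain ⟨B, hB, hBb⟩ := 𝔣.exists_adm_nm (𝔸 := 𝔸) (fun i : Fin 2 => if i = 0 then (1 : F) else f)
  have hC := (AdelicStr.adm_archC (𝔸 := 𝔸) (𝔣.N + 1)).mul hB
  refine ⟨lg 𝔸 _, hC.lg_nonneg, fun P hP c hc => ?_⟩
  have hAP : (Finsupp.single o n : Divisor K F) P = 0 := by
    rw [Finsupp.single_apply, if_neg (Ne.symm hP)]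
  obtain ⟨ρ, hρ, hρG, hρu, -⟩ := exists_rhoD (𝔸 := 𝔸) (P := P) hV
    (not_le_of_degree (by rw [degree_single']; exact hn) P)
  rw [hAP] at hρu
  have h1mem : (1 : F) ∈ riemannRochSpace (Finsupp.single o n : Divisor K F) := by
    have h0 : (0 : Divisor K F) ≤ Finsupp.single o n := by
      have := single_mono' o (show (0 : ℤ) ≤ n by omega)
      rwa [Finsupp.single_zero] at this
    refine riemannRochSpace_mono h0 ?_
    rw [riemannRochSpace_zero]
    exact Submodule.mem_span_singleton_self _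
  have hld : ld P 0 f = c := by
    have hmem : f - algebraMap K F c ∈ RRC.localL P (0 - 1) := by
      rw [RRC.mem_localL_iff_ord]
      right
      omega
    have hmem' : f - algebraMap K F c ∈ RRC.localL P 0 := RRC.localL_mono P (by norm_num) hmem
    have h2 := (ld_eq_zero_iff P hmem').mpr hmem
    rw [map_sub, Algebra.algebraMap_eq_smul_one, map_smul, ld_one, smul_eq_mul, mul_one,
      sub_eq_zero] at h2
    exact h2
  have key : ∀ w, max 1 (𝔸.abv w c) ≤ (𝔸.archC (𝔣.N + 1) w * B w) * ρ w := by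
    intro w
    have e1 := hρ.1 w
    have e2 := (AdelicStr.adm_archC (𝔸 := 𝔸) (𝔣.N + 1)).pos w
    have e3 := hB.pos w
    have h1 := hρu w 1 h1mem
    have h2 := hρu w f hf
    rw [ld_one, map_one] at h1
    rw [hld] at h2
    have b1 : 𝔣.nm (𝔸.abv w) 1 ≤ B w := by simpa using hBb w 0
    have b2 : 𝔣.nm (𝔸.abv w) f ≤ B w := by simpa using hBb w 1
    apply max_le
    · calc (1 : ℝ) ≤ 𝔸.archC (𝔣.N + 1) w * (ρ w * 𝔣.nm (𝔸.abv w) 1) := h1
        _ ≤ 𝔸.archC (𝔣.N + 1) w * (ρ w * B w) := by gcongr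
        _ = _ := by ring
    · calc 𝔸.abv w c ≤ 𝔸.archC (𝔣.N + 1) w * (ρ w * 𝔣.nm (𝔸.abv w) f) := h2
        _ ≤ 𝔸.archC (𝔣.N + 1) w * (ρ w * B w) := by gcongr
        _ = _ := by ring
  have h3 := lg_le (AdelicStr.adm_max_abv (𝔸 := 𝔸) c).lg (hC.lg.mul hρ) key
  rw [lg_mul hC.lg hρ, hρG] at h3
  have h4 : lg 𝔸 (fun w => max 1 (𝔸.abv w c)) = 𝔸.L (fun w => Real.log (max 1 (𝔸.abv w c))) := rfl
  rw [h4] at h3
  linarith

/-- **Existence of the height data** -/
theorem nonempty_heightData (𝔸 : AdelicStr K) (o : Place K F) : Nonempty (HeightData 𝔸 o) := by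
  classical
  set g := genusFF K F with hg
  obtain ⟨𝔣, T, hT, hV⟩ := exists_hTheory 𝔸 o (27 * g + 12)
  obtain ⟨c₁, hc₁, h1⟩ := T.exists_bil_le (N₁ := 25 * g + 10) (by push_cast; omega)
    (by push_cast; omega)
  obtain ⟨c₂, hc₂, h2⟩ := T.exists_low (N₁ := 25 * g + 10) (by push_cast; omega)
    (by push_cast; omega)
  obtain ⟨c₃, hc₃, h3, h3'⟩ := T.exists_hP_ge (N₁ := 25 * g + 10) (by push_cast; omega)
    (by push_cast; omega)
  obtain ⟨f, hf, htr⟩ := exists_transcendental_mem (K := K) o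
  obtain ⟨c₄, hc₄, h4⟩ := exists_height_value (𝔣 := 𝔣) (𝔸 := 𝔸) o (3 * (g : ℤ) + 1) (by omega)
    ((riemannRochSpace_mono (single_mono' o (by push_cast; omega))).trans hV) hf
  refine ⟨⟨T.Q, c₁ + c₂ + c₃ + c₄, fun x x' y => (h1 x x' y).trans (by linarith), T.hP,
    fun P => by linarith [h3 P], f, htr, fun P hP => ?_, 3 * g + 1, by positivity,
    fun P hP c hc => ?_, fun x E hE => ?_⟩⟩
  · rcases mem_riemannRochSpace_iff.mp hf P with h | h
    · rw [h]; simp
    · rwa [Finsupp.single_apply, if_neg (Ne.symm hP), neg_zero] at h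
  · have a1 := h4 P hP c hc
    have a2 := h3' P
    rw [hT] at a2
    have a3 : Gd (HH 𝔣 𝔸) (Finsupp.single o (3 * (g : ℤ) + 1)) P =
      GG 𝔣 𝔸 (Finsupp.single o (3 * (g : ℤ) + 1)) P := rfl
    rw [← hg, a3] at a2
    linarith
  · have := h2 x E hE
    have e : (E.sum fun P n => (n : ℝ) * T.hP P) = hdv T.hP E := rfl
    rw [e]
    linarith

/-- **The height data** -/
noncomputable def heightData (𝔸 : AdelicStr K) (o : Place K F) : HeightData 𝔸 o :=
  (nonempty_heightData 𝔸 o).some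

end Fermat.Agent.MW
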