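import Fermat.Agent.MW.Pairing

set_option autoImplicit false
set_option linter.unusedSectionVars false

/-! # Assembly of the geometric theory of heights -/

open WithZero AlgebraicCurve Fermat.Agent.RR Module
open Fermat.Agent.FF (IsFnField)

namespace Fermat.Agent.MW

variable {K F : Type*} [Field K] [Field F] [Algebra K F] [IsAlgClosed K] [IsFnField K F]

namespace HTheory

variable {o : Place K F} {N : ℤ} (T : HTheory o N)

theorem bil_rep {N₁ : ℕ} (hN : N₁ + 2 * genusFF K F + 2 ≤ N) (hN₁ : 25 * (genusFF K F : ℤ) ≤ N₁) :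
    ∃ c₁₁, 0 ≤ c₁₁ ∧ ∀ (D E : Divisor K F) (x y : Pic0 K F), Rep o D x → Rep o E y →
      (genusFF K F : ℤ) ≤ Divisor.degree D → Divisor.degree D ≤ 2 * genusFF K F →
      Divisor.degree E = genusFF K F →
      |bil T.Q x y - (hdv (T.Gam D) E + genusFF K F * hdv T.hP D +
        Divisor.degree D * hdv T.hP E)| ≤ c₁₁ := by
  obtain ⟨c₈, hc₈, h8⟩ := T.exists_Q N₁ hN (by omega)
  set g := genusFF K F with hg
  have hc0 : 0 ≤ T.c := T.star.nonneg hN (by omega)
  refine ⟨3 * c₈ + 2 * T.c * g + |T.H (Finsupp.single o (25 * (g : ℤ)))|, by positivity,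
    fun D E x y hD hE hgD hDg hEg => ?_⟩
  have q1 := h8 (25 * g) (D + E) (x + y) (hD.add hE) (by rw [map_add]; omega)
    (by rw [map_add]; omega) (by rw [map_add]; push_cast; omega) (by omega)
  have q2 := h8 (25 * g) D x hD (by omega) (by omega) (by push_cast; omega) (by omega)
  have q3 := h8 (25 * g) E y hE (by omega) (by omega) (by push_cast; omega) (by omega)
  have p1 := T.gam_pair (by omega) hD.1 hE.1 (by omega) (by omega)
  rw [← hg] at p1
  have a1 := le_abs_self (T.H (Finsupp.single o (25 * (g : ℤ))))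
  have a2 := neg_abs_le (T.H (Finsupp.single o (25 * (g : ℤ))))
  unfold bil
  unfold Qn at q1 q2 q3
  rw [← hg] at q1 q2 q3
  have e25 : ((25 * g : ℕ) : ℤ) = 25 * (g : ℤ) := by push_cast; ring
  rw [e25] at q1 q2 q3
  rw [map_add, hdv_add, hEg] at q1
  rw [hEg] at q3 p1
  have r1 : ((25 * (g : ℤ) - (Divisor.degree D + (g : ℤ)) + 1 - g : ℤ) : ℝ) =
      23 * g - Divisor.degree D + 1 := by push_cast; ring
  have r2 : ((25 * (g : ℤ) - Divisor.degree D + 1 - g : ℤ) : ℝ) =
      24 * g - Divisor.degree D + 1 := by push_cast; ring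
  have r3 : ((25 * (g : ℤ) - (g : ℤ) + 1 - g : ℤ) : ℝ) = 23 * g + 1 := by push_cast; ring
  rw [r1] at q1
  rw [r2] at q2
  rw [r3] at q3
  have r4 : (((g : ℤ)) : ℝ) = (g : ℝ) := by push_cast; rfl
  rw [r4] at p1
  show |T.Q (x + y) - T.Q x - T.Q y - (hdv (T.Gam D) E + (g : ℝ) * hdv (hpt o T.H) D +
        Divisor.degree D * hdv (hpt o T.H) E)| ≤ _
  set hD' := hdv (hpt o T.H) D
  set hE' := hdv (hpt o T.H) E
  set d : ℝ := (Divisor.degree D : ℝ)
  rw [abs_le] at *
  constructor <;> nlinarith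

theorem exists_bil_le {N₁ : ℕ} (hN : N₁ + 2 * genusFF K F + 2 ≤ N)
    (hN₁ : 25 * (genusFF K F : ℤ) ≤ N₁) :
    ∃ C, 0 ≤ C ∧ ∀ x x' y, |bil T.Q (x + x') y - bil T.Q x y - bil T.Q x' y| ≤ C := by
  obtain ⟨c₁₁, hc₁₁, h11⟩ := T.bil_rep hN hN₁
  have hc0 : 0 ≤ T.c := T.star.nonneg hN (by omega)
  set g := genusFF K F with hg
  refine ⟨3 * c₁₁ + g * ((2 + 88 * g) * T.c), by positivity, fun x x' y => ?_⟩
  have d1 := rep_degree o x
  have d2 := rep_degree o x'
  have d3 := rep_degree o y
  have b1 := h11 (rep o x + rep o x') (rep o y) (x + x') y ((rep_spec o x).add (rep_spec o x'))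
    (rep_spec o y) (by rw [map_add]; omega) (by rw [map_add]; omega) d3
  have b2 := h11 (rep o x) (rep o y) x y (rep_spec o x) (rep_spec o y) (by omega) (by omega) d3
  have b3 := h11 (rep o x') (rep o y) x' y (rep_spec o x') (rep_spec o y) (by omega) (by omega) d3
  have p := abs_hdv_sub_le (h := T.Gam (rep o x + rep o x'))
    (h' := fun P => T.Gam (rep o x) P + T.Gam (rep o x') P)
    (fun P => T.gam_add (N₁ := N₁) hN (by omega) (rep_nonneg o x) (rep_nonneg o x') (by omega)
      (by omega) P) (rep_nonneg o y)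
  rw [hdv_fun_add, d3, ← hg] at p
  rw [map_add, hdv_add, d1, d2] at b1
  rw [d1] at b2
  rw [d2] at b3
  push_cast at b1 b2 b3 p
  rw [abs_le] at *
  constructor <;> nlinarith

/-- trivial direction along a divisor imposing independent conditions -/
theorem td_sum (m : ℤ) (hm : 2 * (genusFF K F : ℤ) ≤ m) (hmN : m ≤ N) (hN : 2 * (genusFF K F : ℤ) ≤ N)
    {D : Divisor K F} (hD : 0 ≤ D)
    (hind : (ell (Finsupp.single o (2 * (genusFF K F : ℤ)) - D) : ℤ) + Divisor.degree D =
      ell (Finsupp.single o (2 * (genusFF K F : ℤ)) : Divisor K F)) :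
    T.H (Finsupp.single o (2 * (genusFF K F : ℤ)) - D) - T.H (Finsupp.single o (2 * (genusFF K F : ℤ))) +
      hdv (Gd T.H (Finsupp.single o m)) D ≤
      T.H (Finsupp.single o (2 * (genusFF K F : ℤ) + m) - D) -
        T.H (Finsupp.single o (2 * (genusFF K F : ℤ) + m)) + T.ctd * Divisor.degree D := by
  set g := genusFF K F with hg
  set A : Divisor K F := Finsupp.single o (2 * (g : ℤ)) with hA
  revert hind
  refine divisor_le_induction (D := 0) (P := fun D =>
    (ell (A - D) : ℤ) + Divisor.degree D = ell A →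
    T.H (A - D) - T.H A + hdv (Gd T.H (Finsupp.single o m)) D ≤
      T.H (Finsupp.single o (2 * (g : ℤ) + m) - D) -
        T.H (Finsupp.single o (2 * (g : ℤ) + m)) + T.ctd * Divisor.degree D) ?_ ?_ hD
  · intro _
    simp [hdv_zero]
  · intro E v hE ih hind
    rw [map_add, degree_single'] at hind
    have l1 : ell (A - E) ≤ ell (A - (E + Finsupp.single v 1)) + 1 := by
      have := ell_add_single_le (A - (E + Finsupp.single v 1)) v
      have e : A - (E + Finsupp.single v 1) + Finsupp.single v 1 = A - E := by abel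
      rwa [e] at this
    have l2 : (ell A : ℤ) ≤ ell (A - E) + Divisor.degree E := by
      have := ell_sub_le (D := A - E) (E := A) (sub_le_self _ hE)
      rw [map_sub] at this
      omega
    have h1 := ih (by omega)
    have hne : ¬ riemannRochSpace (A - E) ≤ riemannRochSpace (A - E - Finsupp.single v 1) := by
      intro hle
      have := Submodule.finrank_mono hle
      have e : A - (E + Finsupp.single v 1) = A - E - Finsupp.single v 1 := by abel
      rw [e] at hind
      unfold ell at *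
      omega
    have hne' := not_le_of_degree (A := (Finsupp.single o m : Divisor K F))
      (by rw [degree_single']; omega) v
    have h2 := T.td (A - E) (Finsupp.single o m) v
      ((sub_le_self _ hE).trans (single_mono' o hN)) (single_mono' o hmN) hne hne'
    have e1 : A - E + Finsupp.single o m = Finsupp.single o (2 * (g : ℤ) + m) - E := by
      rw [hA, Finsupp.single_add]; abel
    rw [e1] at h2
    simp only [Gd] at h2
    have e2 : A - E - Finsupp.single v 1 = A - (E + Finsupp.single v 1) := by abel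
    have e3 : Finsupp.single o (2 * (g : ℤ) + m) - E - Finsupp.single v 1 =
      Finsupp.single o (2 * (g : ℤ) + m) - (E + Finsupp.single v 1) := by abel
    rw [e2, e3] at h2
    rw [map_add, degree_single', hdv_add, hdv_single]
    simp only [Gd] at h1 ⊢
    push_cast
    linarith

/-- (POS) -/
theorem exists_low {N₁ : ℕ} (hN : N₁ + 2 * genusFF K F + 2 ≤ N)
    (hN₁ : 8 * (genusFF K F : ℤ) ≤ N₁) :
    ∃ C, 0 ≤ C ∧ ∀ x E, Good o x E → hdv T.hP E ≤ T.Q x + C := by
  obtain ⟨c₈, hc₈, h8⟩ := T.exists_Q N₁ hN (by omega)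
  obtain ⟨c₄, hc₄, h4⟩ := T.mul.exists_zero T.star hN (by omega)
  have hc0 : 0 ≤ T.c := T.star.nonneg hN (by omega)
  set g := genusFF K F with hg
  refine ⟨c₈ + c₄ + T.ctd * g + g * ((4 * (3 * g : ℕ) + 1) * T.c) +
    |T.H (Finsupp.single o (2 * (g : ℤ)))|, ?_, fun x E hE => ?_⟩
  · have := T.ctd_nonneg
    positivity
  have hEd := hE.degree_eq
  obtain ⟨hE0, hell, hEz, hEx⟩ := hE
  obtain ⟨hD0, hDz, hDx⟩ := rep_spec o x
  have hDd := rep_degree o x
  set D := rep o x with hDdef
  -- the function with zeros `D + E`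
  have hsum : Pic0.mk (0 : Divisor.degZero (K := K) (F := F)) =
      Pic0.mk ((⟨_, hDz⟩ : Divisor.degZero (K := K) (F := F)) + ⟨_, hEz⟩) := by
    rw [Pic0.mk_add, hDx, hEx, add_neg_cancel]
    rfl
  rw [mk_eq_mk_iff] at hsum
  obtain ⟨f, hf0, hf⟩ := hsum
  have hf' : D + E = divOf f + Finsupp.single o (2 * (g : ℤ)) := by
    rw [← hf]
    show D + E = (D - Finsupp.single o (Divisor.degree D) + (E - Finsupp.single o (g : ℤ))) - 0 +
      Finsupp.single o (2 * (g : ℤ))
    rw [hDd, show 2 * (g : ℤ) = g + g by ring, Finsupp.single_add]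
    abel
  have hf1 : Finsupp.single o (2 * (g : ℤ)) - D + divOf f = E := by
    have : E = divOf f + Finsupp.single o (2 * (g : ℤ)) - D := by rw [← hf']; abel
    rw [this]; abel
  have hfm : f ∈ riemannRochSpace (Finsupp.single o (2 * (g : ℤ)) - D) := by
    rw [mem_riemannRochSpace_iff_divOf hf0, hf1]
    exact hE0
  have hell1 : ell (Finsupp.single o (2 * (g : ℤ)) - D) = 1 := by
    rw [← ell_add_divOf _ hf0, hf1]
    exact hell
  have hell2 : (ell (Finsupp.single o (2 * (g : ℤ)) : Divisor K F) : ℤ) = g + 1 := by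
    have := ell_eq_of_lt_degree (D := (Finsupp.single o (2 * (g : ℤ)) : Divisor K F))
      (by rw [degree_single']; omega)
    rw [degree_single'] at this
    omega
  have htd := T.td_sum (3 * (g : ℤ)) (by omega) (by omega) (by omega) hD0 (by
    rw [← hg, hell1, hell2, hDd]; push_cast; ring)
  rw [← hg, hDd] at htd
  have hone := T.one (Finsupp.single o (2 * (g : ℤ)) - D)
    ((sub_le_self _ hD0).trans (single_mono' o (by omega))) hell1 f hfm hf0
  have hz := h4 (2 * g) f hf0 (by push_cast; omega) (by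
    push_cast
    exact riemannRochSpace_mono (sub_le_self _ hD0) hfm)
  push_cast at hz
  rw [← hf', hdv_add] at hz
  -- `Gd (3g o) ~ 3g h`
  have hs := abs_hdv_sub_le (h := Gd T.H (Finsupp.single o (3 * (g : ℤ))))
    (h' := fun P => (3 * g : ℕ) * hpt o T.H P) (c := (4 * (3 * g : ℕ) + 1) * T.c) (fun P => by
      have := T.star.single hN P (3 * g) (by push_cast; omega) (by push_cast; omega)
      have e : ((3 * g : ℕ) : ℤ) = 3 * (g : ℤ) := by push_cast; ring
      rw [e] at this
      exact this) hD0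
  rw [hdv_fun_mul, hDd] at hs
  have hq := h8 (5 * g) D x (rep_spec o x) (by omega) (by omega) (by push_cast; omega) (by omega)
  unfold Qn at hq
  rw [← hg, hDd] at hq
  have e5 : ((5 * g : ℕ) : ℤ) = 2 * (g : ℤ) + 3 * (g : ℤ) := by push_cast; ring
  rw [e5] at hq
  have r1 : ((2 * (g : ℤ) + 3 * (g : ℤ) - (g : ℤ) + 1 - g : ℤ) : ℝ) = 3 * g + 1 := by
    push_cast; ring
  rw [r1] at hq
  have hnn := T.nonneg (Finsupp.single o (2 * (g : ℤ) + 3 * (g : ℤ))) (single_mono' o (by omega))
  have a1 := le_abs_self (T.H (Finsupp.single o (2 * (g : ℤ))))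
  show hdv (hpt o T.H) E ≤ _
  push_cast at hs htd ⊢
  rw [abs_le] at hs hq hz
  set X := hdv (hpt o T.H) D
  set Y := hdv (hpt o T.H) E
  linarith [hs.1, hs.2, hq.1, hq.2, hz.1, hz.2, htd]

theorem exists_hP_ge {N₁ : ℕ} (hN : N₁ + 2 * genusFF K F + 2 ≤ N)
    (hN₁ : 8 * (genusFF K F : ℤ) + 2 ≤ N₁) :
    ∃ C, 0 ≤ C ∧ (∀ P, -C ≤ T.hP P) ∧ ∀ P,
      Gd T.H (Finsupp.single o (3 * (genusFF K F : ℤ) + 1)) P ≤
        (3 * genusFF K F + 1) * T.hP P + C := by
  set g := genusFF K F with hg
  have hc0 : 0 ≤ T.c := T.star.nonneg hN (by omega)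
  have hH0 := T.nonneg (Finsupp.single o (3 * (g : ℤ) + 1)) (single_mono' o (by omega))
  refine ⟨T.H (Finsupp.single o (3 * (g : ℤ) + 1)) + (4 * (3 * g + 1) + 1) * T.c, by positivity,
    fun P => ?_, fun P => ?_⟩
  · have h1 := T.star.single hN P (3 * g + 1) (by push_cast; omega) (by push_cast; omega)
    have e : ((3 * g + 1 : ℕ) : ℤ) = 3 * (g : ℤ) + 1 := by push_cast; ring
    rw [e] at h1
    push_cast at h1
    have h2 := T.nonneg (Finsupp.single o (3 * (g : ℤ) + 1) - Finsupp.single P 1) (by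
      refine le_trans (sub_le_self _ ?_) (single_mono' o (by omega))
      have := single_mono' P (show (0 : ℤ) ≤ 1 by norm_num)
      rwa [Finsupp.single_zero] at this)
    rw [Gd] at h1
    show _ ≤ hpt o T.H P
    have hg0 : (0 : ℝ) ≤ g := by positivity
    set h := hpt o T.H P
    rw [abs_le] at h1
    by_contra hcon
    push Not at hcon
    have h3 : (3 * (g : ℝ) + 1) * h ≤ (3 * (g : ℝ) + 1) *
        -(T.H (Finsupp.single o (3 * (g : ℤ) + 1)) + (4 * (3 * (g : ℝ) + 1) + 1) * T.c) :=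
      mul_le_mul_of_nonneg_left hcon.le (by positivity)
    have h4 : h * 1 < -(T.H (Finsupp.single o (3 * (g : ℤ) + 1)) + (4 * (3 * (g : ℝ) + 1) + 1) * T.c) := by
      rw [mul_one]; exact hcon
    have h5 : 0 ≤ (4 * (3 * (g : ℝ) + 1) + 1) * T.c := by positivity
    have h6 : h < 0 := by linarith
    have h7 : 3 * (g : ℝ) * h ≤ 0 := by nlinarith
    nlinarith [h1.1, h1.2]
  · have h1 := T.star.single hN P (3 * g + 1) (by push_cast; omega) (by push_cast; omega)
    have e : ((3 * g + 1 : ℕ) : ℤ) = 3 * (g : ℤ) + 1 := by push_cast; ring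
    rw [e] at h1
    push_cast at h1
    show _ ≤ (3 * (g : ℝ) + 1) * hpt o T.H P + _
    rw [abs_le] at h1
    linarith [h1.1, h1.2]

end HTheory

end Fermat.Agent.MW
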