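import Mathlib
import Fermat.Agent.RR.Duality

/-!
# Special divisor classes: finitely many translations make every class non-special
-/

set_option autoImplicit false
set_option linter.unusedSectionVars false
set_option linter.style.haveILetI false

open WithZero AlgebraicCurve Fermat.Agent.RR Module
open Fermat.Agent.FF (IsFnField)

namespace Fermat.Agent.MW

variable {K F : Type*} [Field K] [Field F] [Algebra K F] [IsAlgClosed K] [IsFnField K F]

variable (K F) in
theorem infinite_place : Infinite (Place K F) := by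
  obtain ⟨x, hx⟩ := (exists_transcendental : ∃ x : F, Transcendental K x)
  have h : ∀ a : K, ∃ v : Place K F, 0 < v.ord (x - algebraMap K F a) := by
    intro a
    have h1 : Transcendental K (x - algebraMap K F a) := by
      intro h
      apply hx
      have := h.add (isAlgebraic_algebraMap (R := K) (A := F) a)
      rwa [sub_add_cancel] at this
    obtain ⟨v, hv⟩ := exists_ord_neg_of_transcendental (transcendental_inv' h1)
    refine ⟨v, ?_⟩
    rw [Place.ord_inv] at hv
    omega
  choose v hv using h
  refine Infinite.of_injective v fun a b hab => ?_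
  by_contra hne
  have h1 := hv a
  have h2 := hv b
  rw [← hab] at h2
  have hsub : (x - algebraMap K F b) - (x - algebraMap K F a) = algebraMap K F (a - b) := by
    rw [map_sub]; ring
  have hne' : algebraMap K F (a - b) ≠ 0 := by
    rw [Ne, map_eq_zero]; exact sub_ne_zero.mpr hne
  have h3 := Fermat.Agent.FF.ord_algebraMap (v a) (a - b)
  have ha0 : x - algebraMap K F a ≠ 0 := by
    intro h; rw [h] at h1; simp at h1
  have hb0 : x - algebraMap K F b ≠ 0 := by
    intro h; rw [h] at h2; simp at h2
  have h4 := Fermat.Agent.FF.min_le_ord_add (v a) (f := x - algebraMap K F b)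
    (g := -(x - algebraMap K F a)) (by rw [← sub_eq_add_neg, hsub]; exact hne')
  rw [← sub_eq_add_neg, hsub, h3, Fermat.Agent.FF.ord_neg (v a)] at h4
  omega

/-- a divisor with sections has few base points -/
theorem exists_drop {D : Divisor K F} (h : 0 < ell D) (s : Finset (Place K F))
    (hs : Divisor.degree D < s.card) :
    ∃ A ∈ s, ell (D - Finsupp.single A 1) + 1 = ell D := by
  classical
  obtain ⟨f, hf, hf0⟩ := exists_mem_ne_zero_of_ell_pos h
  rw [mem_riemannRochSpace_iff_divOf hf0] at hf
  set E : Divisor K F := D + divOf f with hE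
  have hE0 : 0 ≤ E := hf
  have hdeg : Divisor.degree E = Divisor.degree D := by
    rw [hE, map_add, degree_divOf, add_zero]
  have hcard : (E.support.card : ℤ) ≤ Divisor.degree E := by
    rw [degree_eq_sum, Finsupp.sum]
    have : (E.support.card : ℤ) = ∑ a ∈ E.support, (1 : ℤ) := by simp
    rw [this]
    refine Finset.sum_le_sum fun a ha => ?_
    have h1 := hE0 a
    rw [Finsupp.mem_support_iff] at ha
    simp only [Finsupp.coe_zero, Pi.zero_apply] at h1
    omega
  obtain ⟨A, hA, hAE⟩ : ∃ A ∈ s, A ∉ E.support := by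
    by_contra hcon
    push Not at hcon
    have h1 : s.card ≤ E.support.card := Finset.card_le_card fun a ha => hcon a ha
    omega
  refine ⟨A, hA, ?_⟩
  have hle : D - Finsupp.single A 1 ≤ D := by
    intro v
    simp only [Finsupp.sub_apply, Finsupp.single_apply]
    split_ifs <;> omega
  have h1 : ell D ≤ ell (D - Finsupp.single A 1) + 1 := by
    have := ell_add_single_le (D - Finsupp.single A 1) A
    rwa [sub_add_cancel] at this
  have h2 : ell (D - Finsupp.single A 1) < ell D := by
    apply Submodule.finrank_lt_finrank_of_lt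
    refine lt_of_le_of_ne (riemannRochSpace_mono hle) fun heq => ?_
    have hfD : f ∈ riemannRochSpace D := by rw [mem_riemannRochSpace_iff_divOf hf0]; exact hf
    rw [← heq, mem_riemannRochSpace_iff_divOf hf0] at hfD
    have h3 := hfD A
    have h4 : E A = 0 := by simpa using hAE
    rw [hE] at h4
    simp only [Finsupp.coe_zero, Pi.zero_apply, Finsupp.add_apply, Finsupp.sub_apply,
      Finsupp.single_apply, if_true] at h3 h4
    omega
  omega

/-- one step -/
theorem exists_step {D : Divisor K F} (hdeg : Divisor.degree D = genusFF K F) (h : 2 ≤ ell D)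
    (s : Finset (Place K F)) (hs : genusFF K F < s.card) :
    ∃ A ∈ s, ∃ B ∈ s, ell (D - Finsupp.single A 1 + Finsupp.single B 1) + 1 = ell D := by
  obtain ⟨W, hW⟩ := exists_isCanonical K F
  obtain ⟨A, hA, e1⟩ := exists_drop (D := D) (by omega) s (by rw [hdeg]; exact_mod_cast hs)
  set D' := D - Finsupp.single A 1 with hD'
  have hdeg' : Divisor.degree D' = genusFF K F - 1 := by
    rw [hD', map_sub, hdeg, degree_single']
  have e2 := hW.riemann_roch D'
  have hWd : Divisor.degree (W - D') = genusFF K F - 1 := by
    rw [map_sub, hW.degree_eq, hdeg']; ring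
  obtain ⟨B, hB, e3⟩ := exists_drop (D := W - D') (by omega) s (by rw [hWd]; omega)
  refine ⟨A, hA, B, hB, ?_⟩
  have e4 := hW.riemann_roch (D' + Finsupp.single B 1)
  rw [← sub_sub, map_add, hdeg', degree_single'] at e4
  show ell (D' + Finsupp.single B 1) + 1 = ell D
  omega

open Pointwise in
/-- the finite sets of translations -/
def trSet (s : Finset (Place K F)) : ℕ → Set (Divisor K F)
  | 0 => {0}
  | n + 1 => Set.image2 (fun c (ab : Place K F × Place K F) =>
      Finsupp.single ab.2 1 - Finsupp.single ab.1 1 + c) (trSet s n) ((s ×ˢ s : Finset _) : Set _)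

theorem trSet_finite (s : Finset (Place K F)) (n : ℕ) : (trSet (K := K) s n).Finite := by
  induction n with
  | zero => exact Set.finite_singleton _
  | succ n ih => exact ih.image2 _ (Finset.finite_toSet _)

theorem degree_of_mem_trSet (s : Finset (Place K F)) (n : ℕ) {c : Divisor K F}
    (hc : c ∈ trSet s n) : Divisor.degree c = 0 := by
  induction n generalizing c with
  | zero => rw [Set.mem_singleton_iff.mp hc, map_zero]
  | succ n ih =>
    obtain ⟨c', hc', ab, -, rfl⟩ := hc
    simp only [map_add, map_sub, degree_single', ih hc']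
    ring

theorem zero_mem_trSet (s : Finset (Place K F)) (hs : s.Nonempty) (n : ℕ) :
    (0 : Divisor K F) ∈ trSet s n := by
  induction n with
  | zero => rfl
  | succ n ih =>
    obtain ⟨a, ha⟩ := hs
    exact ⟨0, ih, (a, a), by simpa using ha, by simp⟩

theorem exists_trSet (s : Finset (Place K F)) (hs : genusFF K F < s.card) (n : ℕ)
    {D : Divisor K F} (hdeg : Divisor.degree D = genusFF K F) (h1 : 1 ≤ ell D)
    (h2 : ell D ≤ n + 1) : ∃ c ∈ trSet s n, ell (D + c) = 1 := by
  have hne : s.Nonempty := Finset.card_pos.mp (by omega)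
  induction n generalizing D with
  | zero => exact ⟨0, rfl, by rw [add_zero]; omega⟩
  | succ n ih =>
    rcases Nat.lt_or_ge (ell D) 2 with h | h
    · exact ⟨0, zero_mem_trSet s hne _, by rw [add_zero]; omega⟩
    · obtain ⟨A, hA, B, hB, e⟩ := exists_step hdeg h s hs
      obtain ⟨c, hc, hc'⟩ := ih (D := D - Finsupp.single A 1 + Finsupp.single B 1)
        (by simp only [map_add, map_sub, degree_single', hdeg]; ring) (by omega) (by omega)
      refine ⟨Finsupp.single B 1 - Finsupp.single A 1 + c, ⟨c, hc, (A, B), ?_, rfl⟩, ?_⟩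
      · simp [hA, hB]
      · rw [← hc']
        congr 1
        abel

/-- a divisor class is non-special if it is represented by a unique effective divisor of
degree `g` (after the shift by `g·o` and the change of sign) -/
def Good (o : Place K F) (x : Pic0 K F) (E : Divisor K F) : Prop :=
  0 ≤ E ∧ ell E = 1 ∧ ∃ h : E - Finsupp.single o (genusFF K F : ℤ) ∈ Divisor.degZero (K := K) (F := F),
    Pic0.mk ⟨_, h⟩ = -x

theorem Good.degree_eq {o : Place K F} {x : Pic0 K F} {E : Divisor K F} (h : Good o x E) :
    Divisor.degree E = genusFF K F := by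
  obtain ⟨-, -, h, -⟩ := h
  rw [Divisor.mem_degZero, map_sub, degree_single', sub_eq_zero] at h
  exact h

theorem mk_eq_mk_iff {D D' : Divisor.degZero (K := K) (F := F)} :
    Pic0.mk D = Pic0.mk D' ↔ ∃ f : F, f ≠ 0 ∧ (D' : Divisor K F) - (D : Divisor K F) = divOf f := by
  have h1 : Pic0.mk D = Pic0.mk D' ↔ -D + D' ∈
      (Divisor.principal (K := K) (F := F)).addSubgroupOf (Divisor.degZero (K := K) (F := F)) :=
    QuotientAddGroup.eq
  rw [h1, AddSubgroup.mem_addSubgroupOf, Divisor.mem_principal]
  have h2 : ((-D + D' : Divisor.degZero (K := K) (F := F)) : Divisor K F) =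
      (D' : Divisor K F) - (D : Divisor K F) := by
    rw [AddSubgroup.coe_add, AddSubgroup.coe_neg]; abel
  rw [h2]
  constructor
  · rintro ⟨f, hf, h⟩
    exact ⟨f, hf, Finsupp.ext h⟩
  · rintro ⟨f, hf, h⟩
    exact ⟨f, hf, fun v => by rw [h]; rfl⟩

/-- uniqueness of the effective divisor -/
theorem Good.unique {o : Place K F} {x : Pic0 K F} {E E' : Divisor K F} (h : Good o x E)
    (h0 : 0 ≤ E') (h' : ∃ h : E' - Finsupp.single o (genusFF K F : ℤ) ∈
      Divisor.degZero (K := K) (F := F), Pic0.mk ⟨_, h⟩ = -x) : E' = E := by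
  obtain ⟨hE0, hell, hd, hx⟩ := h
  obtain ⟨hd', hx'⟩ := h'
  rw [← hx, eq_comm, mk_eq_mk_iff] at hx'
  obtain ⟨f, hf0, hf⟩ := hx'
  have hf' : E' = E + divOf f := by
    rw [← hf]; simp
  have h1 : f ∈ riemannRochSpace E := by
    rw [mem_riemannRochSpace_iff_divOf hf0, ← hf']
    exact h0
  have h2 : (1 : F) ∈ riemannRochSpace E := by
    rw [mem_riemannRochSpace_iff_divOf one_ne_zero]
    intro v
    have := hE0 v
    simpa using this
  -- dimension one
  have h3 : finrank K (riemannRochSpace E) = 1 := hell
  obtain ⟨c, hc⟩ := (finrank_eq_one_iff_of_nonzero' (⟨1, h2⟩ : riemannRochSpace E) (by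
    intro h; exact one_ne_zero (congrArg Subtype.val h))).mp h3 ⟨f, h1⟩
  have h4 : f = algebraMap K F c := by
    have h5 : c • (1 : F) = f := congrArg Subtype.val hc
    rw [← h5, Algebra.smul_def, mul_one]
  rw [hf']
  ext v
  rw [Finsupp.add_apply, divOf_apply, h4, Fermat.Agent.FF.ord_algebraMap v, add_zero]

/-- **Special classes**: after translation by an element of a finite set every class is good -/
theorem exists_good_translates (o : Place K F) :
    ∃ S : Finset (Pic0 K F), ∀ x : Pic0 K F, ∃ c ∈ S, ∃ E, Good o (x + c) E := by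
  classical
  have := infinite_place K F
  obtain ⟨s, hs⟩ := Infinite.exists_subset_card_eq (Place K F) (genusFF K F + 1)
  have hs' : genusFF K F < s.card := by omega
  set g := genusFF K F with hg
  have hfin := (trSet_finite (K := K) s g)
  -- the class of an element of the translation set
  have hcl : ∀ c : Divisor K F, c ∈ trSet s g → c ∈ Divisor.degZero (K := K) (F := F) := fun c hc =>
    degree_of_mem_trSet s g hc
  refine ⟨(hfin.toFinset.attach).image fun c =>
    -Pic0.mk ⟨c.1, hcl c.1 (hfin.mem_toFinset.mp c.2)⟩, fun x => ?_⟩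
  obtain ⟨⟨D0, hD0⟩, hx⟩ := Pic0.mk_surjective (-x)
  set D : Divisor K F := D0 + Finsupp.single o (g : ℤ) with hD
  have hdeg : Divisor.degree D = g := by
    rw [hD, map_add, Divisor.mem_degZero.mp hD0, degree_single', zero_add]
  have h1 : 1 ≤ ell D := by
    have := riemann_ineq D
    omega
  have h2 : ell D ≤ g + 1 := by
    have := ell_le_degree_add_one (D := D) (by omega)
    omega
  obtain ⟨c, hc, hce⟩ := exists_trSet s hs' g hdeg h1 h2
  obtain ⟨f, hf, hf0⟩ := exists_mem_ne_zero_of_ell_pos (D := D + c) (by omega)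
  have hf' := (mem_riemannRochSpace_iff_divOf hf0).mp hf
  refine ⟨_, Finset.mem_image.mpr ⟨⟨c, hfin.mem_toFinset.mpr hc⟩, Finset.mem_attach _ _, rfl⟩,
    D + c + divOf f, hf', ?_, ?_, ?_⟩
  · rw [ell_add_divOf _ hf0, hce]
  · rw [Divisor.mem_degZero, map_sub, map_add, map_add, degree_divOf, hdeg,
      degree_of_mem_trSet s g hc, degree_single']
    ring
  · rw [neg_add, neg_neg, ← hx, ← Pic0.mk_add, eq_comm, mk_eq_mk_iff]
    refine ⟨f, hf0, ?_⟩
    have e : (((⟨D0, hD0⟩ : Divisor.degZero (K := K) (F := F)) +
        ⟨c, hcl c hc⟩ : Divisor.degZero (K := K) (F := F)) : Divisor K F) = D0 + c := rfl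
    show (D + c + divOf f - Finsupp.single o (g : ℤ)) - (D0 + c) = divOf f
    rw [hD]
    abel

end Fermat.Agent.MW
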