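import Fermat.Agent.MW.Adelic
import Fermat.Agent.MW.Descent
import Fermat.Agent.MW.Special

/-!
# Interface between the geometric theory of heights and the descent
-/

set_option autoImplicit false

open AlgebraicCurve Fermat.Agent.RR
open Fermat.Agent.FF (IsFnField)

namespace Fermat.Agent.MW

/-- The output of the geometric theory of heights on `Pic⁰`. -/
structure HeightData {K F : Type*} [Field K] [Field F] [Algebra K F] [IsAlgClosed K]
    [IsFnField K F] (𝔸 : AdelicStr K) (o : Place K F) where
  /-- the approximately quadratic function -/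
  Q : Pic0 K F → ℝ
  C : ℝ
  bil_le : ∀ x x' y, |bil Q (x + x') y - bil Q x y - bil Q x' y| ≤ C
  /-- heights of points -/
  hP : Place K F → ℝ
  hP_ge : ∀ P, -C ≤ hP P
  /-- a non-constant function with poles at `o` only -/
  f : F
  transcendental : Transcendental K f
  ord_nonneg : ∀ P, P ≠ o → 0 ≤ P.ord f
  a : ℝ
  a_nonneg : 0 ≤ a
  h_f : ∀ P, P ≠ o → ∀ c : K, 0 < P.ord (f - algebraMap K F c) →
    𝔸.L (fun w => Real.log (max 1 (𝔸.abv w c))) ≤ a * hP P + C
  low : ∀ x E, Good o x E → (E.sum fun P n => (n : ℝ) * hP P) ≤ Q x + C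

end Fermat.Agent.MW
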