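import Fermat.Agent.MW.Adelic

set_option autoImplicit false

/-! # Maximal minors, graph form, norms of functionals -/

namespace Fermat.Agent.MW

open Matrix Finset

variable {k : Type*} [Field k]

section minors

variable {ι : Type*} {d : ℕ}

/-- add a row on top -/
def consRow (ψ : ι → k) (M : Matrix (Fin d) ι k) : Matrix (Fin (d + 1)) ι k :=
  fun i => Fin.cases ψ (fun i => M i) i

omit [Field k] in
@[simp] theorem consRow_zero (ψ : ι → k) (M : Matrix (Fin d) ι k) (j : ι) :
    consRow ψ M 0 j = ψ j := rfl

omit [Field k] in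
@[simp] theorem consRow_succ (ψ : ι → k) (M : Matrix (Fin d) ι k) (i : Fin d) (j : ι) :
    consRow ψ M i.succ j = M i j := rfl

/-- all maximal minors of a matrix (indexed by all functions, also the non injective ones) -/
def mnr (M : Matrix (Fin d) ι k) : (Fin d → ι) → k := fun I => (M.submatrix id I).det

theorem mnr_apply (M : Matrix (Fin d) ι k) (I : Fin d → ι) : mnr M I = (M.submatrix id I).det := rfl

theorem mnr_mul (T : Matrix (Fin d) (Fin d) k) (M : Matrix (Fin d) ι k) :
    mnr (T * M) = T.det • mnr M := by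
  ext I
  rw [mnr_apply, Pi.smul_apply, mnr_apply, smul_eq_mul, ← det_mul]
  congr 1

theorem injective_of_mnr_ne_zero {M : Matrix (Fin d) ι k} {I : Fin d → ι} (h : mnr M I ≠ 0) :
    Function.Injective I := by
  intro i j hij
  by_contra hne
  apply h
  rw [mnr_apply]
  exact det_zero_of_column_eq hne fun a => by simp [hij]

theorem exists_mnr_ne_zero [Finite ι] {M : Matrix (Fin d) ι k}
    (hM : LinearIndependent k (fun i => M i)) : ∃ I, mnr M I ≠ 0 := by
  have := Fintype.ofFinite ι
  have h1 : M.rank = d := by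
    have := LinearIndependent.rank_matrix hM
    simpa using this
  rw [rank_eq_finrank_span_cols] at h1
  obtain ⟨f, hf, hli⟩ : ∃ f : Fin d → (Fin d → k), (∀ i, f i ∈ Set.range M.col) ∧
      LinearIndependent k f := by
    obtain ⟨f, hf, -, hli⟩ := Submodule.exists_fun_fin_finrank_span_eq k (Set.range M.col)
    generalize Module.finrank k ↥(Submodule.span k (Set.range M.col)) = n at h1 f hf hli
    subst h1
    exact ⟨f, hf, hli⟩
  choose I hI using hf
  refine ⟨I, ?_⟩
  rw [mnr_apply, ← isUnit_iff_ne_zero, ← isUnit_iff_isUnit_det, ← linearIndependent_cols_iff_isUnit]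
  have : (M.submatrix id I).col = f := by
    ext i j
    rw [← hI i]; rfl
  rw [this]
  exact hli

theorem mnr_ne_zero [Finite ι] {M : Matrix (Fin d) ι k}
    (hM : LinearIndependent k (fun i => M i)) : mnr M ≠ 0 := by
  obtain ⟨I, hI⟩ := exists_mnr_ne_zero hM
  intro h
  exact hI (by rw [h]; rfl)

end minors

section local_est

variable (v : AbsoluteValue k ℝ)

theorem abv_sign_smul {n : ℕ} (σ : Equiv.Perm (Fin n)) (x : k) :
    v (Equiv.Perm.sign σ • x) = v x := by
  rcases Int.units_eq_one_or (Equiv.Perm.sign σ) with h | h <;> simp [h]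

theorem det_le_of_row {n : ℕ} (A : Matrix (Fin (n + 1)) (Fin (n + 1)) k) {m : ℝ} (hm : 0 ≤ m)
    (h0 : ∀ j, v (A 0 j) ≤ m) (h1 : ∀ i j, i ≠ 0 → v (A i j) ≤ 1) :
    v A.det ≤ fac v (n + 1).factorial * m := by
  rw [← det_transpose, det_apply]
  have := sum_univ_le_fac v (fun σ : Equiv.Perm (Fin (n + 1)) =>
    Equiv.Perm.sign σ • ∏ i, Aᵀ (σ i) i) hm (fun σ => ?_)
  · simpa [Fintype.card_perm] using this
  · rw [abv_sign_smul, Fin.prod_univ_succ, map_mul, map_prod]
    calc v (Aᵀ (σ 0) 0) * ∏ i : Fin n, v (Aᵀ (σ i.succ) i.succ)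
        ≤ m * 1 := by
          gcongr
          · exact h0 _
          · apply Finset.prod_le_one
            · intro i _; exact v.nonneg _
            · intro i _; exact h1 _ _ (Fin.succ_ne_zero i)
      _ = m := mul_one m

/-- determinant of a matrix with entries of absolute value at most `1` -/
theorem det_le_one {n : ℕ} (A : Matrix (Fin n) (Fin n) k) (h1 : ∀ i j, v (A i j) ≤ 1) :
    v A.det ≤ fac v n.factorial := by
  rw [det_apply]
  have := sum_univ_le_fac v (fun σ : Equiv.Perm (Fin n) =>
    Equiv.Perm.sign σ • ∏ i, A (σ i) i) zero_le_one (fun σ => ?_)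
  · simpa [Fintype.card_perm] using this
  · rw [abv_sign_smul, map_prod]
    exact Finset.prod_le_one (fun i _ => v.nonneg _) fun i _ => h1 _ _

variable {ι : Type*} [Finite ι] {d : ℕ}

/-- **Graph form**: after a row transformation the matrix is the identity in the columns `I`
and has all entries of absolute value `≤ 1`. -/
theorem exists_graph_form {M : Matrix (Fin d) ι k} (hM : LinearIndependent k (fun i => M i)) :
    ∃ I : Fin d → ι, mnr M I ≠ 0 ∧ v (mnr M I) = nrm v (mnr M) ∧
      (∀ i j, ((M.submatrix id I)⁻¹ * M) i (I j) = if i = j then 1 else 0) ∧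
      ∀ i j, v (((M.submatrix id I)⁻¹ * M) i j) ≤ 1 := by
  classical
  obtain ⟨I, hI0, hI⟩ := exists_eq_nrm_of_ne v (mnr_ne_zero hM)
  refine ⟨I, hI0, hI, ?_, ?_⟩
  · intro i j
    have hu : IsUnit (M.submatrix id I).det := isUnit_iff_ne_zero.mpr hI0
    have h1 := congrFun (congrFun (nonsing_inv_mul (M.submatrix id I) hu) i) j
    rw [one_apply] at h1
    rw [← h1, mul_apply, mul_apply]
    rfl
  · intro i j
    have hu : IsUnit (M.submatrix id I).det := isUnit_iff_ne_zero.mpr hI0
    -- Cramer
    have h1 : ((M.submatrix id I)⁻¹ * M) i j =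
        (mnr M I)⁻¹ * mnr M (Function.update I i j) := by
      have h2 : ((M.submatrix id I)⁻¹ * M) i j = ((M.submatrix id I)⁻¹ *ᵥ fun a => M a j) i := rfl
      rw [h2, Matrix.inv_def, Ring.inverse_eq_inv', smul_mulVec, Pi.smul_apply, ← cramer_eq_adjugate_mulVec,
        cramer_apply, smul_eq_mul, mnr_apply, mnr_apply]
      congr 2
      ext a b
      rw [updateCol_apply, submatrix_apply, submatrix_apply, Function.update_apply]
      split_ifs <;> rfl
    rw [h1, map_mul, map_inv₀, hI]
    have h3 : 0 < nrm v (mnr M) := nrm_pos v (mnr_ne_zero hM)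
    rw [inv_mul_le_iff₀ h3, mul_one]
    exact le_nrm v (mnr M) _

/-- Adding a row: comparison of the maximal minors with the norm of the last functional on the
kernel of the first ones. -/
theorem inc {M : Matrix (Fin d) ι k} (hM : LinearIndependent k (fun i => M i)) (ψ : ι → k)
    [Fintype ι] :
    (∀ x : ι → k, M *ᵥ x = 0 → v (ψ ⬝ᵥ x) * nrm v (mnr M) ≤
      fac v (Fintype.card ι) * nrm v (mnr (consRow ψ M)) * nrm v x) ∧
    ∃ x : ι → k, M *ᵥ x = 0 ∧ nrm v x ≤ 1 ∧ nrm v (mnr (consRow ψ M)) ≤
      fac v (d + 1).factorial * v (ψ ⬝ᵥ x) * nrm v (mnr M) := by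
  classical
  obtain ⟨I, hI0, hI, hid, hle⟩ := exists_graph_form v hM
  have hIinj := injective_of_mnr_ne_zero hI0
  set T := (M.submatrix id I)⁻¹ with hT
  set M' := T * M with hM'
  have hu : IsUnit (M.submatrix id I).det := isUnit_iff_ne_zero.mpr hI0
  have hMM' : M.submatrix id I * M' = M := by
    rw [hM', ← Matrix.mul_assoc, mul_nonsing_inv _ hu, Matrix.one_mul]
  -- reduced functional
  set ψ' : ι → k := fun j => ψ j - ∑ i, ψ (I i) * M' i j with hψ'
  have hψ'I : ∀ j, ψ' (I j) = 0 := by
    intro j
    rw [hψ']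
    simp only [hid]
    simp
  have hker : ∀ x : ι → k, M *ᵥ x = 0 → ψ ⬝ᵥ x = ψ' ⬝ᵥ x := by
    intro x hx
    have h1 : M' *ᵥ x = 0 := by rw [hM', ← mulVec_mulVec, hx, mulVec_zero]
    have h2 : ψ' = ψ - (fun i => ψ (I i)) ᵥ* M' := by
      ext j
      simp only [hψ', Pi.sub_apply, vecMul, dotProduct]
    rw [h2, sub_dotProduct, ← dotProduct_mulVec, h1, dotProduct_zero, sub_zero]
  -- the minors
  set c := mnr M I with hc
  have hvc : 0 < v c := v.pos hI0
  have hN : mnr (consRow ψ M) = c • mnr (consRow ψ' M') := by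
    -- block transformation
    let S : Matrix (Fin (d + 1)) (Fin (d + 1)) k :=
      consRow (fun j => Fin.cases 1 (fun i => ψ (I i)) j)
        (fun i j => Fin.cases 0 (fun j => M i (I j)) j)
    have s00 : S 0 0 = 1 := rfl
    have s0s : ∀ i : Fin d, S 0 i.succ = ψ (I i) := fun _ => rfl
    have ss0 : ∀ i : Fin d, S i.succ 0 = 0 := fun _ => rfl
    have sss : ∀ i j : Fin d, S i.succ j.succ = M i (I j) := fun _ _ => rfl
    have hS : S * consRow ψ' M' = consRow ψ M := by
      ext i j
      rw [mul_apply, Fin.sum_univ_succ]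
      refine Fin.cases ?_ (fun i => ?_) i
      · simp only [s00, s0s, consRow_zero, consRow_succ]
        rw [hψ']
        ring
      · simp only [ss0, sss, consRow_zero, consRow_succ]
        rw [zero_mul, zero_add]
        have := congrFun (congrFun hMM' i) j
        rw [mul_apply] at this
        exact this
    have hdet : S.det = c := by
      rw [det_succ_column_zero, Fin.sum_univ_succ]
      simp only [ss0]
      simp only [mul_zero, zero_mul, Finset.sum_const_zero, add_zero]
      have h2 : S.submatrix (Fin.succAbove 0) Fin.succ = M.submatrix id I := by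
        ext i j
        rw [submatrix_apply, Fin.succAbove_zero, sss]
        rfl
      rw [s00, h2, hc, mnr_apply]
      simp
    rw [← hS, mnr_mul, hdet]
  have hnrmM : nrm v (mnr M) = v c := hI.symm
  have hnrm' : nrm v (mnr (consRow ψ M)) =
      v c * nrm v (mnr (consRow ψ' M')) := by
    rw [hN, nrm_smul]
  -- the first estimate
  have hcons : ∀ j, mnr (consRow ψ' M')
      (Fin.cons j I) = ψ' j := by
    intro j
    rw [mnr_apply, det_succ_row_zero, Fin.sum_univ_succ]
    have h0 : ∀ i : Fin d, ((consRow ψ' M').submatrix id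
        (Fin.cons j I : Fin (d+1) → ι)) 0 i.succ = 0 := by
      intro i
      simp only [submatrix_apply, id, consRow_zero, Fin.cons_succ]
      exact hψ'I i
    simp only [h0]
    simp only [mul_zero, zero_mul, Finset.sum_const_zero, add_zero]
    have h2 : (((consRow ψ' M').submatrix id
        (Fin.cons j I : Fin (d+1) → ι)).submatrix Fin.succ (Fin.succAbove 0)) = 1 := by
      ext a b
      simp only [submatrix_apply, id, consRow_succ, Fin.cons_succ, Fin.succAbove_zero, hid,
        one_apply]
    rw [h2, det_one]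
    simp
  have hlow : nrm v ψ' ≤ nrm v (mnr (consRow ψ' M')) := by
    apply nrm_le v (nrm_nonneg v _)
    intro j
    rw [← hcons j]
    exact le_nrm v _ _
  have hup : nrm v (mnr (consRow ψ' M')) ≤
      fac v (d + 1).factorial * nrm v ψ' := by
    apply nrm_le v (mul_nonneg (fac_pos v _).le (nrm_nonneg v _))
    intro J
    apply det_le_of_row v _ (nrm_nonneg v _)
    · intro j
      simp only [submatrix_apply, id, consRow_zero]
      exact le_nrm v ψ' _
    · intro i j hi
      obtain ⟨i, rfl⟩ := Fin.exists_succ_eq.mpr hi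
      simp only [submatrix_apply, id, consRow_succ]
      exact hle _ _
  refine ⟨fun x hx => ?_, ?_⟩
  · rw [hker x hx, hnrmM, hnrm']
    have h1 : v (ψ' ⬝ᵥ x) ≤ fac v (Fintype.card ι) * (nrm v ψ' * nrm v x) := by
      apply sum_univ_le_fac v _ (mul_nonneg (nrm_nonneg v _) (nrm_nonneg v _))
      intro i
      rw [map_mul]
      exact mul_le_mul (le_nrm v _ _) (le_nrm v _ _) (v.nonneg _) (nrm_nonneg v _)
    have h2 := fac_pos v (Fintype.card ι)
    have h3 := nrm_nonneg v x
    calc v (ψ' ⬝ᵥ x) * v c ≤ fac v (Fintype.card ι) * (nrm v ψ' * nrm v x) * v c := by gcongr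
      _ ≤ fac v (Fintype.card ι) * (nrm v (mnr (consRow ψ' M')) * nrm v x) * v c := by gcongr
      _ = _ := by ring
  · rcases eq_or_ne ψ' 0 with h0 | hne
    · refine ⟨0, mulVec_zero M, by rw [nrm_zero]; exact zero_le_one, ?_⟩
      rw [hnrm', dotProduct_zero, map_zero, mul_zero, zero_mul]
      have : nrm v (mnr (consRow ψ' M')) ≤ 0 := by
        rw [h0, nrm_zero, mul_zero] at hup
        rw [h0]; exact hup
      nlinarith
    · obtain ⟨j, hj0, hj⟩ := exists_eq_nrm_of_ne v hne
      have hjI : ∀ i, I i ≠ j := by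
        rintro i rfl
        exact hj0 (hψ'I i)
      let x : ι → k := fun l => (if l = j then 1 else 0) - ∑ i, (if I i = l then M' i j else 0)
      have hxj : x j = 1 := by
        simp only [x, if_true]
        rw [Finset.sum_eq_zero (fun i _ => by rw [if_neg (hjI i)]), sub_zero]
      have hxI : ∀ i, x (I i) = - M' i j := by
        intro i
        simp only [x, if_neg (hjI i), zero_sub, neg_inj]
        rw [Finset.sum_eq_single i]
        · rw [if_pos rfl]
        · intro b _ hb
          rw [if_neg (fun h => hb (hIinj h))]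
        · intro h; exact absurd (Finset.mem_univ i) h
      have hx0 : ∀ l, l ≠ j → (∀ i, I i ≠ l) → x l = 0 := by
        intro l hl hl'
        simp only [x, if_neg hl, zero_sub, neg_eq_zero]
        exact Finset.sum_eq_zero (fun i _ => by rw [if_neg (hl' i)])
      have hdot : ∀ φ : ι → k, φ ⬝ᵥ x = φ j - ∑ i, φ (I i) * M' i j := by
        intro φ
        simp only [dotProduct, x, mul_sub, Finset.sum_sub_distrib]
        congr 1
        · simp
        · simp only [Finset.mul_sum]
          rw [Finset.sum_comm]
          congr 1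
          ext i
          simp
      have hM'x : M' *ᵥ x = 0 := by
        ext i
        rw [mulVec, hdot]
        simp only [hid]
        simp
      have hMx : M *ᵥ x = 0 := by
        rw [← hMM', ← mulVec_mulVec, hM'x, mulVec_zero]
      refine ⟨x, hMx, ?_, ?_⟩
      · apply nrm_le v zero_le_one
        intro l
        by_cases hl : l = j
        · rw [hl, hxj, map_one]
        by_cases hl' : ∃ i, I i = l
        · obtain ⟨i, rfl⟩ := hl'
          rw [hxI, map_neg_eq_map]
          exact hle _ _
        · push Not at hl'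
          rw [hx0 l hl hl', map_zero]
          exact zero_le_one
      · rw [hker x hMx, hdot]
        simp only [hψ'I, zero_mul, Finset.sum_const_zero, sub_zero]
        rw [hj, hnrm', hnrmM]
        calc _ ≤ v c * (fac v (d + 1).factorial * nrm v ψ') := by gcongr
          _ = _ := by ring

end local_est

end Fermat.Agent.MW
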