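import Fermat.Agent.MW.LinAlg

set_option autoImplicit false

/-! # Comparison of maximal minors -/

namespace Fermat.Agent.MW

open Matrix Finset

variable {k : Type*} [Field k]

section

variable {ι : Type*} {d : ℕ}

/-- replacing the added row -/
theorem mnr_consRow_add (M : Matrix (Fin d) ι k) (ψ : ι → k) (c : k) (α : Fin d → k) :
    mnr (consRow (c • ψ + α ᵥ* M) M) = c • mnr (consRow ψ M) := by
  let S : Matrix (Fin (d + 1)) (Fin (d + 1)) k :=
    consRow (fun j => Fin.cases c (fun i => α i) j) (fun i j => Fin.cases 0 (fun j => if i = j then 1 else 0) j)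
  have s00 : S 0 0 = c := rfl
  have s0s : ∀ i : Fin d, S 0 i.succ = α i := fun _ => rfl
  have ss0 : ∀ i : Fin d, S i.succ 0 = 0 := fun _ => rfl
  have sss : ∀ i j : Fin d, S i.succ j.succ = if i = j then 1 else 0 := fun _ _ => rfl
  have hS : S * consRow ψ M = consRow (c • ψ + α ᵥ* M) M := by
    ext i j
    rw [mul_apply, Fin.sum_univ_succ]
    refine Fin.cases ?_ (fun i => ?_) i
    · simp only [s00, s0s, consRow_zero, consRow_succ, Pi.add_apply, Pi.smul_apply, smul_eq_mul,
        vecMul, dotProduct]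
    · simp only [ss0, sss, consRow_zero, consRow_succ]
      rw [zero_mul, zero_add]
      simp
  have hdet : S.det = c := by
    rw [det_succ_column_zero, Fin.sum_univ_succ]
    simp only [ss0]
    simp only [mul_zero, zero_mul, Finset.sum_const_zero, add_zero]
    have h2 : S.submatrix (Fin.succAbove 0) Fin.succ = 1 := by
      ext i j
      rw [submatrix_apply, Fin.succAbove_zero, sss, one_apply]
    rw [s00, h2]
    simp
  rw [← hS, mnr_mul, hdet]

variable (v : AbsoluteValue k ℝ)

/-- Laplace expansion along the first row -/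
theorem nrm_mnr_consRow_le [Finite ι] (M : Matrix (Fin d) ι k) (u : ι → k) :
    nrm v (mnr (consRow u M)) ≤ fac v (d + 1) * (nrm v u * nrm v (mnr M)) := by
  apply nrm_le v (mul_nonneg (fac_pos v _).le (mul_nonneg (nrm_nonneg v _) (nrm_nonneg v _)))
  intro J
  rw [mnr_apply, det_succ_row_zero]
  have := sum_univ_le_fac v (fun j : Fin (d + 1) =>
    (-1) ^ (j : ℕ) * (consRow u M).submatrix id J 0 j *
      (((consRow u M).submatrix id J).submatrix Fin.succ (Fin.succAbove j)).det)
    (mul_nonneg (nrm_nonneg v u) (nrm_nonneg v (mnr M))) (fun j => ?_)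
  · simpa using this
  · rw [map_mul, map_mul, map_pow, map_neg_eq_map, map_one, one_pow, one_mul]
    apply mul_le_mul (le_nrm v u _) _ (v.nonneg _) (nrm_nonneg v _)
    have : (((consRow u M).submatrix id J).submatrix Fin.succ (Fin.succAbove j)).det =
        mnr M (fun i => J (j.succAbove i)) := by
      rw [mnr_apply]
      rfl
    rw [this]
    exact le_nrm v _ _

/-- (L1a) -/
theorem coeff_mul_le [Finite ι] (M : Matrix (Fin d) ι k) (ψ u : ι → k) (c : k) (α : Fin d → k)
    (hu : u = c • ψ + α ᵥ* M) :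
    v c * nrm v (mnr (consRow ψ M)) ≤ fac v (d + 1) * (nrm v u * nrm v (mnr M)) := by
  rw [← nrm_smul, ← mnr_consRow_add M ψ c α, ← hu]
  exact nrm_mnr_consRow_le v M u

/-- (L1b) -/
theorem exists_reduce [Finite ι] {M : Matrix (Fin d) ι k}
    (hM : LinearIndependent k (fun i => M i)) (ψ : ι → k) :
    ∃ α : Fin d → k, nrm v (mnr M) * nrm v (ψ + α ᵥ* M) ≤ nrm v (mnr (consRow ψ M)) := by
  classical
  obtain ⟨I, hI0, hI, hid, hle⟩ := exists_graph_form v hM
  set T := (M.submatrix id I)⁻¹ with hT
  set β : Fin d → k := fun i => -ψ (I i) with hβ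
  refine ⟨β ᵥ* T, ?_⟩
  rw [vecMul_vecMul]
  set u := ψ + β ᵥ* (T * M) with hu
  have huI : ∀ j, u (I j) = 0 := by
    intro j
    rw [hu, Pi.add_apply, vecMul, dotProduct]
    simp only [hid]
    simp [hβ]
  have h1 : mnr (consRow ψ M) = mnr (consRow u M) := by
    have := mnr_consRow_add M ψ 1 (β ᵥ* T)
    rw [one_smul, one_smul, vecMul_vecMul] at this
    rw [← this]
  have h2 : ∀ j, mnr (consRow u M) (Fin.cons j I) = u j * mnr M I := by
    intro j
    rw [mnr_apply, det_succ_row_zero, Fin.sum_univ_succ]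
    have h0 : ∀ i : Fin d, ((consRow u M).submatrix id
        (Fin.cons j I : Fin (d+1) → ι)) 0 i.succ = 0 := by
      intro i
      simp only [submatrix_apply, id, consRow_zero, Fin.cons_succ]
      exact huI i
    simp only [h0]
    simp only [mul_zero, zero_mul, Finset.sum_const_zero, add_zero]
    have h3 : (((consRow u M).submatrix id
        (Fin.cons j I : Fin (d+1) → ι)).submatrix Fin.succ (Fin.succAbove 0)) =
        M.submatrix id I := by
      ext a b
      simp only [submatrix_apply, id, consRow_succ, Fin.cons_succ, Fin.succAbove_zero]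
    rw [h3, mnr_apply]
    simp
  rw [h1]
  have h3 : nrm v (mnr M) * nrm v u = nrm v (mnr M I • u) := by
    rw [nrm_smul, hI]
  rw [h3]
  apply nrm_le v (nrm_nonneg v _)
  intro j
  rw [Pi.smul_apply, smul_eq_mul, mul_comm, ← h2 j]
  exact le_nrm v _ _

theorem det_le_pow {n : ℕ} (A : Matrix (Fin n) (Fin n) k) {B : ℝ} (hB : 0 ≤ B)
    (h1 : ∀ i j, v (A i j) ≤ B) : v A.det ≤ fac v n.factorial * B ^ n := by
  rw [det_apply]
  have := sum_univ_le_fac v (fun σ : Equiv.Perm (Fin n) =>
    Equiv.Perm.sign σ • ∏ i, A (σ i) i) (pow_nonneg hB n) (fun σ => ?_)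
  · simpa [Fintype.card_perm] using this
  · rw [abv_sign_smul, map_prod]
    calc ∏ i, v (A (σ i) i) ≤ ∏ _i : Fin n, B :=
          Finset.prod_le_prod (fun i _ => v.nonneg _) fun i _ => h1 _ _
      _ = B ^ n := by simp

/-- (L2) comparison of minors of two families related by a bounded linear map -/
theorem mnr_le_of_le {ι' : Type*} [Finite ι] [Finite ι'] {y : Matrix (Fin d) ι k}
    (hy : LinearIndependent k (fun i => y i)) {z : Matrix (Fin d) ι' k} {B : ℝ} (hB : 0 ≤ B)
    (h : ∀ α : Fin d → k, nrm v (α ᵥ* z) ≤ B * nrm v (α ᵥ* y)) :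
    nrm v (mnr z) ≤ fac v d.factorial * B ^ d * nrm v (mnr y) := by
  classical
  obtain ⟨I, hI0, hI, hid, hle⟩ := exists_graph_form v hy
  set T := (y.submatrix id I)⁻¹ with hT
  have hdet : v T.det * nrm v (mnr y) = 1 := by
    rw [← hI, ← map_mul, mnr_apply, hT, ← det_mul,
      nonsing_inv_mul _ (isUnit_iff_ne_zero.mpr hI0), det_one, map_one]
  have hz : ∀ i j, v ((T * z) i j) ≤ B := by
    intro i j
    have h1 : (T * z) i = (T i) ᵥ* z := by ext j; rw [mul_apply]; rfl
    have h2 : (T * y) i = (T i) ᵥ* y := by ext j; rw [mul_apply]; rfl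
    calc v ((T * z) i j) ≤ nrm v ((T * z) i) := le_nrm v _ _
      _ ≤ B * nrm v ((T * y) i) := by rw [h1, h2]; exact h _
      _ ≤ B * 1 := by
        gcongr
        exact nrm_le v zero_le_one fun j => hle i j
      _ = B := mul_one B
  have h3 : nrm v (mnr (T * z)) ≤ fac v d.factorial * B ^ d := by
    apply nrm_le v (mul_nonneg (fac_pos v _).le (pow_nonneg hB d))
    intro J
    exact det_le_pow v _ hB fun i j => hz _ _
  rw [mnr_mul, nrm_smul] at h3
  calc nrm v (mnr z) = (v T.det * nrm v (mnr z)) * nrm v (mnr y) := by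
        rw [mul_right_comm, hdet, one_mul]
    _ ≤ _ := mul_le_mul_of_nonneg_right h3 (nrm_nonneg v _)

end

end Fermat.Agent.MW
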