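import Fermat.Agent.MW.Points
import Fermat.Agent.MW.Iface

set_option autoImplicit false
set_option linter.unusedSectionVars false

/-! # The quadratic function on the divisor class group -/

open WithZero AlgebraicCurve Fermat.Agent.RR Module
open Fermat.Agent.FF (IsFnField)

namespace Fermat.Agent.MW

variable {K F : Type*} [Field K] [Field F] [Algebra K F] [IsAlgClosed K] [IsFnField K F]

/-- `D` represents the class `x` -/
def Rep (o : Place K F) (D : Divisor K F) (x : Pic0 K F) : Prop :=
  0 ≤ D ∧ ∃ h : D - Finsupp.single o (Divisor.degree D) ∈ Divisor.degZero (K := K) (F := F),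
    Pic0.mk ⟨_, h⟩ = x

theorem mk_congr {D D' : Divisor K F} (h : D ∈ Divisor.degZero (K := K) (F := F))
    (h' : D' ∈ Divisor.degZero (K := K) (F := F)) (hD : D = D') :
    Pic0.mk ⟨D, h⟩ = Pic0.mk ⟨D', h'⟩ := by
  subst hD
  rfl

theorem Rep.add {o : Place K F} {D E : Divisor K F} {x y : Pic0 K F} (hD : Rep o D x)
    (hE : Rep o E y) : Rep o (D + E) (x + y) := by
  obtain ⟨hD0, hD1, rfl⟩ := hD
  obtain ⟨hE0, hE1, rfl⟩ := hE
  have e : D + E - Finsupp.single o (Divisor.degree (D + E)) =
      (D - Finsupp.single o (Divisor.degree D)) + (E - Finsupp.single o (Divisor.degree E)) := by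
    rw [map_add, Finsupp.single_add]; abel
  refine ⟨add_nonneg hD0 hE0, by rw [e]; exact AddSubgroup.add_mem _ hD1 hE1, ?_⟩
  rw [← Pic0.mk_add]
  exact mk_congr _ _ e

theorem Rep.add_single {o : Place K F} {D : Divisor K F} {x : Pic0 K F} (hD : Rep o D x) (j : ℕ) :
    Rep o (D + Finsupp.single o (j : ℤ)) x := by
  obtain ⟨hD0, hD1, rfl⟩ := hD
  have e : D + Finsupp.single o (j : ℤ) -
      Finsupp.single o (Divisor.degree (D + Finsupp.single o (j : ℤ))) =
      (D - Finsupp.single o (Divisor.degree D)) := by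
    rw [map_add, degree_single', Finsupp.single_add]; abel
  have h0 : (0 : Divisor K F) ≤ Finsupp.single o (j : ℤ) := by
    have := single_mono' o (show (0 : ℤ) ≤ (j : ℤ) by omega)
    rwa [Finsupp.single_zero] at this
  refine ⟨add_nonneg hD0 h0, by rw [e]; exact hD1, ?_⟩
  exact mk_congr _ _ e

theorem Rep.exists_fun {o : Place K F} {D D' : Divisor K F} {x : Pic0 K F} (hD : Rep o D x)
    (hD' : Rep o D' x) (hdeg : Divisor.degree D = Divisor.degree D') :
    ∃ f : F, f ≠ 0 ∧ D = D' + divOf f := by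
  obtain ⟨hD0, hD1, hx⟩ := hD
  obtain ⟨hD0', hD1', hx'⟩ := hD'
  obtain ⟨f, hf, h⟩ := mk_eq_mk_iff.mp (hx'.trans hx.symm)
  refine ⟨f, hf, ?_⟩
  have h' : D - Finsupp.single o (Divisor.degree D) - (D' - Finsupp.single o (Divisor.degree D')) =
    divOf f := h
  rw [← h', hdeg]
  abel

theorem exists_rep (o : Place K F) (x : Pic0 K F) :
    ∃ D, Rep o D x ∧ Divisor.degree D = genusFF K F := by
  obtain ⟨⟨D0, hD0⟩, rfl⟩ := Pic0.mk_surjective x
  set g := genusFF K F with hg
  set D : Divisor K F := D0 + Finsupp.single o (g : ℤ) with hD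
  have hdeg : Divisor.degree D = g := by
    rw [hD, map_add, Divisor.mem_degZero.mp hD0, degree_single', zero_add]
  have h1 : 0 < ell D := by
    have := riemann_ineq D
    omega
  obtain ⟨f, hf, hf0⟩ := exists_mem_ne_zero_of_ell_pos h1
  have hf' := (mem_riemannRochSpace_iff_divOf hf0).mp hf
  have hdeg' : Divisor.degree (D + divOf f) = g := by rw [map_add, degree_divOf, hdeg, add_zero]
  refine ⟨D + divOf f, ⟨hf', ?_, ?_⟩, hdeg'⟩
  · rw [Divisor.mem_degZero, map_sub, degree_single', sub_self]
  · rw [eq_comm, mk_eq_mk_iff]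
    refine ⟨f, hf0, ?_⟩
    show (D + divOf f - Finsupp.single o (Divisor.degree (D + divOf f))) - D0 = divOf f
    rw [hdeg', hD]
    abel

theorem hdv_fun_add (h h' : Place K F → ℝ) (D : Divisor K F) :
    hdv (fun P => h P + h' P) D = hdv h D + hdv h' D := by
  unfold hdv
  rw [← Finsupp.sum_add]
  exact Finset.sum_congr rfl fun P _ => by ring

theorem hdv_fun_mul (c : ℝ) (h : Place K F → ℝ) (D : Divisor K F) :
    hdv (fun P => c * h P) D = c * hdv h D := by
  unfold hdv
  rw [Finsupp.mul_sum]
  exact Finset.sum_congr rfl fun P _ => by ring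

theorem degree_nonneg' {D : Divisor K F} (hD : 0 ≤ D) : 0 ≤ Divisor.degree D := by
  have := degree_mono hD
  rwa [map_zero] at this

/-- the collected properties of the heights of Riemann-Roch spaces -/
structure HTheory (o : Place K F) (N : ℤ) where
  /-- height of the Riemann-Roch spaces -/
  H : Divisor K F → ℝ
  /-- height of functions -/
  ht : F → ℝ
  c : ℝ
  star : IsStar o H N c
  c₅ : ℝ
  mul : IsMulH o H ht N c₅
  ctd : ℝ
  ctd_nonneg : 0 ≤ ctd
  td : ∀ (A B : Divisor K F) (P : Place K F), A ≤ Finsupp.single o N → B ≤ Finsupp.single o N →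
    ¬ riemannRochSpace A ≤ riemannRochSpace (A - Finsupp.single P 1) →
    ¬ riemannRochSpace B ≤ riemannRochSpace (B - Finsupp.single P 1) →
      Gd H A P + Gd H B P ≤ Gd H (A + B) P + ctd
  one : ∀ A : Divisor K F, A ≤ Finsupp.single o N → ell A = 1 → ∀ a ∈ riemannRochSpace A, a ≠ 0 →
    H A = ht a
  nonneg : ∀ A : Divisor K F, A ≤ Finsupp.single o N → 0 ≤ H A

namespace HTheory

variable {o : Place K F} {N : ℤ} (T : HTheory o N)

/-- height of points -/
noncomputable def hP (P : Place K F) : ℝ := hpt o T.H P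

/-- chosen representatives -/
noncomputable def rep (o : Place K F) (x : Pic0 K F) : Divisor K F := (exists_rep o x).choose

theorem rep_spec (o : Place K F) (x : Pic0 K F) : Rep o (rep o x) x := (exists_rep o x).choose_spec.1

theorem rep_degree (o : Place K F) (x : Pic0 K F) : Divisor.degree (rep o x) = genusFF K F :=
  (exists_rep o x).choose_spec.2

theorem rep_nonneg (o : Place K F) (x : Pic0 K F) : 0 ≤ rep o x := (rep_spec o x).1

/-- the quadratic function -/
noncomputable def Q (x : Pic0 K F) : ℝ := Qn o T.H (4 * genusFF K F) (rep o x)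

theorem exists_Q : ∀ N₁ : ℕ, N₁ + 2 * genusFF K F + 2 ≤ N → 7 * (genusFF K F : ℤ) ≤ N₁ →
    ∃ c₈, 0 ≤ c₈ ∧ ∀ (n : ℕ) (D : Divisor K F) (x : Pic0 K F), Rep o D x →
      (genusFF K F : ℤ) ≤ Divisor.degree D → Divisor.degree D ≤ 3 * genusFF K F →
      Divisor.degree D + 3 * genusFF K F ≤ n → n ≤ N₁ → |Qn o T.H n D - T.Q x| ≤ c₈ := by
  intro N₁ hN hN₁
  obtain ⟨c₆, hc₆, h6⟩ := T.mul.exists_class T.star hN (by omega)
  obtain ⟨c₃, hc₃, h3⟩ := T.star.exists_Qn_succ hN (by omega)
  obtain ⟨c₇, hc₇, h7⟩ := exists_Qn_add o T.H N₁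
  set g := genusFF K F with hg
  refine ⟨c₆ + N₁ * c₇ + N₁ * c₃, by positivity, fun n D x hD hgD hDg hDn hn => ?_⟩
  have hR := rep_spec o x
  have hRd := rep_degree o x
  have hR0 := rep_nonneg o x
  obtain ⟨j, hj⟩ := Int.eq_ofNat_of_zero_le (show 0 ≤ Divisor.degree D - g by omega)
  -- step 1
  obtain ⟨f, hf, hff⟩ := hD.exists_fun (hR.add_single j) (by
    rw [map_add, hRd, degree_single']; omega)
  have s1 := h6 n D (rep o x + Finsupp.single o (j : ℤ)) f hf hD.1 (hR.add_single j).1 hff
    (by omega) (by omega) hn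
  -- step 2
  have hit : ∀ i : ℕ, ∀ n' : ℕ, n' + i ≤ N₁ → 4 * g ≤ n' →
      |Qn o T.H (n' + i) (rep o x + Finsupp.single o (i : ℤ)) - Qn o T.H n' (rep o x)| ≤ i * c₇ := by
    intro i
    induction i with
    | zero => intro n' _ _; simp
    | succ i ih =>
      intro n' h1 h2
      have t1 := ih n' (by omega) h2
      have t2 := h7 (n' + i) (rep o x + Finsupp.single o (i : ℤ)) (by omega)
        (hR.add_single i).1 (by rw [map_add, hRd, degree_single']; push_cast; omega)
      have e : (rep o x + Finsupp.single o ((i + 1 : ℕ) : ℤ)) =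
          rep o x + Finsupp.single o (i : ℤ) + Finsupp.single o 1 := by
        rw [Nat.cast_add, Finsupp.single_add, add_assoc]; rfl
      rw [e, ← add_assoc]
      push_cast
      rw [abs_le] at *
      constructor <;> linarith
  have s2 := hit j (n - j) (by omega) (by omega)
  rw [show n - j + j = n by omega] at s2
  -- step 3
  have hit' : ∀ i : ℕ, 4 * g + i ≤ N₁ →
      |Qn o T.H (4 * g + i) (rep o x) - Qn o T.H (4 * g) (rep o x)| ≤ i * c₃ := by
    intro i
    induction i with
    | zero => intro _; simp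
    | succ i ih =>
      intro h1
      have t1 := ih (by omega)
      have t2 := h3 (4 * g + i) (rep o x) (by omega) hR0 (by rw [hRd]; push_cast; omega)
      rw [← add_assoc]
      push_cast
      rw [abs_le] at *
      constructor <;> linarith
  have s3 := hit' (n - j - 4 * g) (by omega)
  rw [show 4 * g + (n - j - 4 * g) = n - j by omega] at s3
  have b1 : (j : ℝ) * c₇ ≤ N₁ * c₇ := by
    have : (j : ℝ) ≤ N₁ := by exact_mod_cast (by omega : j ≤ N₁)
    gcongr
  have b2 : ((n - j - 4 * g : ℕ) : ℝ) * c₃ ≤ N₁ * c₃ := by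
    have : ((n - j - 4 * g : ℕ) : ℝ) ≤ N₁ := by exact_mod_cast (by omega : n - j - 4 * g ≤ N₁)
    gcongr
  rw [Q, ← hg]
  rw [abs_le] at *
  constructor <;> linarith

/-- the auxiliary function for the pairing -/
noncomputable def Gam (D : Divisor K F) (P : Place K F) : ℝ :=
  Gd T.H (Finsupp.single o (11 * (genusFF K F : ℤ)) - D) P -
    Gd T.H (Finsupp.single o (11 * (genusFF K F : ℤ))) P

theorem gam_pair (hN : 14 * (genusFF K F : ℤ) ≤ N) {D E : Divisor K F} (hD : 0 ≤ D) (hE : 0 ≤ E)
    (hDd : Divisor.degree D ≤ 8 * genusFF K F) (hEd : Divisor.degree E ≤ genusFF K F) :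
    |(T.H (Finsupp.single o (25 * (genusFF K F : ℤ)) - (D + E)) -
        T.H (Finsupp.single o (25 * (genusFF K F : ℤ)) - D)) -
      (T.H (Finsupp.single o (25 * (genusFF K F : ℤ)) - E) -
        T.H (Finsupp.single o (25 * (genusFF K F : ℤ)))) - hdv (T.Gam D) E| ≤
      2 * T.c * Divisor.degree E := by
  set g := genusFF K F with hg
  revert hEd
  refine divisor_le_induction (D := 0) (P := fun E => Divisor.degree E ≤ g →
    |(T.H (Finsupp.single o (25 * (g : ℤ)) - (D + E)) -
        T.H (Finsupp.single o (25 * (g : ℤ)) - D)) -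
      (T.H (Finsupp.single o (25 * (g : ℤ)) - E) -
        T.H (Finsupp.single o (25 * (g : ℤ)))) - hdv (T.Gam D) E| ≤
      2 * T.c * Divisor.degree E) ?_ ?_ hE
  · intro _
    simp [hdv_zero]
  · intro E v hE ih hd
    rw [map_add, degree_single'] at hd
    have h1 := ih (by omega)
    have hE0 := degree_nonneg' hE
    have hD0 := degree_nonneg' hD
    have h2 := T.star (Finsupp.single o (11 * (g : ℤ)) - D) (Finsupp.single o (14 * (g : ℤ)) - E) v
      ((sub_le_self _ hD).trans (single_mono' o (by omega)))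
      ((sub_le_self _ hE).trans (single_mono' o (by omega)))
      (by rw [map_sub, degree_single']; omega)
      (by rw [map_sub, map_sub, degree_single', degree_single']; omega)
    have h3 := T.star (Finsupp.single o (11 * (g : ℤ))) (Finsupp.single o (14 * (g : ℤ)) - E) v
      (single_mono' o (by omega))
      ((sub_le_self _ hE).trans (single_mono' o (by omega)))
      (by rw [degree_single']; omega)
      (by rw [map_sub, degree_single', degree_single']; omega)
    have e0 : (Finsupp.single o (25 * (g : ℤ)) : Divisor K F) =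
        Finsupp.single o (11 * (g : ℤ)) + Finsupp.single o (14 * (g : ℤ)) := by
      rw [← Finsupp.single_add]; congr 1; ring
    have e1 : (Finsupp.single o (11 * (g : ℤ)) - D) + (Finsupp.single o (14 * (g : ℤ)) - E) =
        Finsupp.single o (25 * (g : ℤ)) - (D + E) := by rw [e0]; abel
    have e2 : Finsupp.single o (11 * (g : ℤ)) + (Finsupp.single o (14 * (g : ℤ)) - E) =
        Finsupp.single o (25 * (g : ℤ)) - E := by rw [e0]; abel
    rw [e1] at h2
    rw [e2] at h3
    have h4 : |Gd T.H (Finsupp.single o (25 * (g : ℤ)) - (D + E)) v -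
        Gd T.H (Finsupp.single o (25 * (g : ℤ)) - E) v - T.Gam D v| ≤ 2 * T.c := by
      rw [Gam, ← hg]
      rw [abs_le] at *
      constructor <;> linarith
    rw [Gd, Gd] at h4
    have e3 : Finsupp.single o (25 * (g : ℤ)) - (D + E) - Finsupp.single v 1 =
      Finsupp.single o (25 * (g : ℤ)) - (D + (E + Finsupp.single v 1)) := by abel
    have e4 : Finsupp.single o (25 * (g : ℤ)) - E - Finsupp.single v 1 =
      Finsupp.single o (25 * (g : ℤ)) - (E + Finsupp.single v 1) := by abel
    rw [e3, e4] at h4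
    rw [map_add, degree_single', hdv_add, hdv_single]
    push_cast
    rw [abs_le] at *
    constructor <;> linarith

theorem gam_add {N₁ : ℤ} (hN : N₁ + 2 * genusFF K F + 2 ≤ N) (hN₁ : 11 * (genusFF K F : ℤ) ≤ N₁)
    {D D' : Divisor K F} (hD : 0 ≤ D) (hD' : 0 ≤ D')
    (hDd : Divisor.degree D ≤ genusFF K F) (hDd' : Divisor.degree D' ≤ genusFF K F) (P : Place K F) :
    |T.Gam (D + D') P - (T.Gam D P + T.Gam D' P)| ≤ (2 + 88 * genusFF K F) * T.c := by
  set g := genusFF K F with hg
  have hD0 := degree_nonneg' hD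
  have hD0' := degree_nonneg' hD'
  have e0 : (Finsupp.single o (11 * (g : ℤ)) : Divisor K F) =
      Finsupp.single o (4 * (g : ℤ)) + Finsupp.single o (7 * (g : ℤ)) := by
    rw [← Finsupp.single_add]; congr 1; ring
  have h1 := T.star (Finsupp.single o (4 * (g : ℤ)) - D) (Finsupp.single o (7 * (g : ℤ)) - D') P
    ((sub_le_self _ hD).trans (single_mono' o (by omega)))
    ((sub_le_self _ hD').trans (single_mono' o (by omega)))
    (by rw [map_sub, degree_single']; omega)
    (by rw [map_sub, map_sub, degree_single', degree_single']; omega)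
  have h2 := T.star (Finsupp.single o (4 * (g : ℤ))) (Finsupp.single o (7 * (g : ℤ))) P
    (single_mono' o (by omega)) (single_mono' o (by omega))
    (by rw [degree_single']; omega) (by rw [degree_single', degree_single']; omega)
  have e1 : (Finsupp.single o (4 * (g : ℤ)) - D) + (Finsupp.single o (7 * (g : ℤ)) - D') =
      Finsupp.single o (11 * (g : ℤ)) - (D + D') := by rw [e0]; abel
  rw [e1] at h1
  rw [← e0] at h2
  have s1 := T.star.steps hN (by omega) (A := Finsupp.single o (4 * (g : ℤ)) - D) (P := P)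
    (by rw [map_sub, degree_single']; omega) (7 * g) (by
      calc Finsupp.single o (4 * (g : ℤ)) - D + Finsupp.single o ((7 * g : ℕ) : ℤ)
          = Finsupp.single o (11 * (g : ℤ)) - D := by rw [e0]; push_cast; abel
        _ ≤ Finsupp.single o (11 * (g : ℤ)) := sub_le_self _ hD
        _ ≤ _ := single_mono' o (by omega))
  have s2 := T.star.steps hN (by omega) (A := Finsupp.single o (4 * (g : ℤ))) (P := P)
    (by rw [degree_single']; omega) (7 * g) (by
      calc Finsupp.single o (4 * (g : ℤ)) + Finsupp.single o ((7 * g : ℕ) : ℤ)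
          = Finsupp.single o (11 * (g : ℤ)) := by rw [e0]; push_cast; rfl
        _ ≤ _ := single_mono' o (by omega))
  have s3 := T.star.steps hN (by omega) (A := Finsupp.single o (7 * (g : ℤ)) - D') (P := P)
    (by rw [map_sub, degree_single']; omega) (4 * g) (by
      calc Finsupp.single o (7 * (g : ℤ)) - D' + Finsupp.single o ((4 * g : ℕ) : ℤ)
          = Finsupp.single o (11 * (g : ℤ)) - D' := by rw [e0]; push_cast; abel
        _ ≤ Finsupp.single o (11 * (g : ℤ)) := sub_le_self _ hD'
        _ ≤ _ := single_mono' o (by omega))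
  have s4 := T.star.steps hN (by omega) (A := Finsupp.single o (7 * (g : ℤ))) (P := P)
    (by rw [degree_single']; omega) (4 * g) (by
      calc Finsupp.single o (7 * (g : ℤ)) + Finsupp.single o ((4 * g : ℕ) : ℤ)
          = Finsupp.single o (11 * (g : ℤ)) := by rw [e0]; push_cast; rw [add_comm]
        _ ≤ _ := single_mono' o (by omega))
  have f1 : Finsupp.single o (4 * (g : ℤ)) - D + Finsupp.single o ((7 * g : ℕ) : ℤ)
          = Finsupp.single o (11 * (g : ℤ)) - D := by rw [e0]; push_cast; abel
  have f2 : Finsupp.single o (4 * (g : ℤ)) + Finsupp.single o ((7 * g : ℕ) : ℤ)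
          = Finsupp.single o (11 * (g : ℤ)) := by rw [e0]; push_cast; rfl
  have f3 : Finsupp.single o (7 * (g : ℤ)) - D' + Finsupp.single o ((4 * g : ℕ) : ℤ)
          = Finsupp.single o (11 * (g : ℤ)) - D' := by rw [e0]; push_cast; abel
  have f4 : Finsupp.single o (7 * (g : ℤ)) + Finsupp.single o ((4 * g : ℕ) : ℤ)
          = Finsupp.single o (11 * (g : ℤ)) := by rw [e0]; push_cast; rw [add_comm]
  rw [f1] at s1
  rw [f2] at s2
  rw [f3] at s3
  rw [f4] at s4
  rw [Gam, Gam, Gam, ← hg]
  push_cast at s1 s2 s3 s4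
  rw [abs_le] at *
  constructor <;> nlinarith

end HTheory

end Fermat.Agent.MW
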