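import Fermat.Agent.MW.Star

set_option autoImplicit false
set_option linter.unusedSectionVars false

/-! # Heights of points and divisors from the star relation -/

open WithZero AlgebraicCurve Fermat.Agent.RR Module
open Fermat.Agent.FF (IsFnField)

namespace Fermat.Agent.MW

variable {K F : Type*} [Field K] [Field F] [Algebra K F] [IsAlgClosed K] [IsFnField K F]

theorem single_mono' (o : Place K F) {a b : ℤ} (h : a ≤ b) :
    (Finsupp.single o a : Divisor K F) ≤ Finsupp.single o b := by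
  classical
  intro v
  rw [Finsupp.single_apply, Finsupp.single_apply]
  split_ifs <;> omega

section abstract_part

variable (o : Place K F) (H : Divisor K F → ℝ)

/-- difference -/
noncomputable def Gd (A : Divisor K F) (P : Place K F) : ℝ := H (A - Finsupp.single P 1) - H A

/-- the star relation -/
def IsStar (N : ℤ) (c : ℝ) : Prop := ∀ (A B : Divisor K F) (P : Place K F),
  A ≤ Finsupp.single o N → B ≤ Finsupp.single o N → 3 * (genusFF K F : ℤ) ≤ Divisor.degree A →
  Divisor.degree A + 2 * genusFF K F ≤ Divisor.degree B →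
    |Gd H (A + B) P - Gd H A P - Gd H B P| ≤ c

/-- height of points -/
noncomputable def hpt (P : Place K F) : ℝ :=
  Gd H (Finsupp.single o (3 * (genusFF K F : ℤ) + 1)) P - Gd H (Finsupp.single o (3 * (genusFF K F : ℤ))) P

/-- height of divisors -/
noncomputable def hdv (h : Place K F → ℝ) (D : Divisor K F) : ℝ := D.sum fun P n => (n : ℝ) * h P

theorem hdv_add (h : Place K F → ℝ) (D E : Divisor K F) : hdv h (D + E) = hdv h D + hdv h E := by
  unfold hdv
  exact Finsupp.sum_add_index' (by simp) (by intro a m n; push_cast; ring)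

theorem hdv_single (h : Place K F → ℝ) (P : Place K F) (n : ℤ) :
    hdv h (Finsupp.single P n) = n * h P := by
  unfold hdv
  exact Finsupp.sum_single_index (by simp)

theorem hdv_zero (h : Place K F → ℝ) : hdv h 0 = 0 := by
  unfold hdv
  exact Finsupp.sum_zero_index

theorem hdv_neg (h : Place K F → ℝ) (D : Divisor K F) : hdv h (-D) = -hdv h D := by
  have := hdv_add h D (-D)
  rw [add_neg_cancel, hdv_zero] at this
  linarith

theorem hdv_sub (h : Place K F → ℝ) (D E : Divisor K F) : hdv h (D - E) = hdv h D - hdv h E := by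
  rw [sub_eq_add_neg, hdv_add, hdv_neg, sub_eq_add_neg]

/-- estimating sums over effective divisors -/
theorem abs_hdv_sub_le {h h' : Place K F → ℝ} {c : ℝ} (hc : ∀ P, |h P - h' P| ≤ c)
    {D : Divisor K F} (hD : 0 ≤ D) : |hdv h D - hdv h' D| ≤ Divisor.degree D * c := by
  refine divisor_le_induction (D := 0)
    (P := fun D => |hdv h D - hdv h' D| ≤ Divisor.degree D * c) (by simp [hdv_zero]) ?_ hD
  intro E v _ hE
  rw [hdv_add, hdv_add, hdv_single, hdv_single, map_add, degree_single']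
  push_cast
  have h1 := hc v
  rw [abs_le] at hE h1 ⊢
  constructor <;> nlinarith

variable {o H}

theorem IsStar.nonneg {N : ℤ} {c : ℝ} (h : IsStar o H N c) {N₁ : ℤ}
    (hN : N₁ + 2 * genusFF K F + 2 ≤ N) (hN₁ : 3 * (genusFF K F : ℤ) ≤ N₁) : 0 ≤ c := by
  refine (abs_nonneg _).trans (h (Finsupp.single o (3 * (genusFF K F : ℤ))) (Finsupp.single o N) o
    (single_mono' o (by omega)) le_rfl ?_ ?_)
  · rw [degree_single']
  · rw [degree_single', degree_single']; omega

theorem IsStar.step {N : ℤ} {c : ℝ} (h : IsStar o H N c) {N₁ : ℤ}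
    (hN : N₁ + 2 * genusFF K F + 2 ≤ N) (hN₁ : 3 * (genusFF K F : ℤ) ≤ N₁) {A : Divisor K F}
    {P : Place K F} (hA : A ≤ Finsupp.single o N₁) (hd : 3 * (genusFF K F : ℤ) ≤ Divisor.degree A) :
    |Gd H (A + Finsupp.single o 1) P - Gd H A P - hpt o H P| ≤ 4 * c := by
  set g := genusFF K F with hg
  have hdA : Divisor.degree A ≤ N₁ := by
    have := degree_mono hA
    rwa [degree_single'] at this
  have hA' : A + Finsupp.single o 1 ≤ Finsupp.single o N := by
    calc A + Finsupp.single o 1 ≤ Finsupp.single o N₁ + Finsupp.single o 1 := by gcongr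
      _ = Finsupp.single o (N₁ + 1) := by rw [Finsupp.single_add]
      _ ≤ _ := single_mono' o (by omega)
  have e1 : (A + Finsupp.single o 1) + Finsupp.single o (N₁ + 2 * g + 1) =
      A + Finsupp.single o (N₁ + 2 * g + 2) := by
    rw [add_assoc, ← Finsupp.single_add]; congr 2; ring
  have e2 : Finsupp.single o (3 * (g : ℤ) + 1) + Finsupp.single o (N₁ + 2 * g + 1) =
      Finsupp.single o (3 * (g : ℤ)) + Finsupp.single o (N₁ + 2 * g + 2) := by
    rw [← Finsupp.single_add, ← Finsupp.single_add]; congr 1; ring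
  have s1 := h (A + Finsupp.single o 1) (Finsupp.single o (N₁ + 2 * g + 1)) P hA'
    (single_mono' o (by omega)) (by rw [map_add, degree_single']; omega)
    (by rw [map_add, degree_single', degree_single']; omega)
  have s2 := h A (Finsupp.single o (N₁ + 2 * g + 2)) P (hA.trans (single_mono' o (by omega)))
    (single_mono' o (by omega)) hd (by rw [degree_single']; omega)
  have s3 := h (Finsupp.single o (3 * (g : ℤ) + 1)) (Finsupp.single o (N₁ + 2 * g + 1)) P
    (single_mono' o (by omega)) (single_mono' o (by omega)) (by rw [degree_single']; omega)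
    (by rw [degree_single', degree_single']; omega)
  have s4 := h (Finsupp.single o (3 * (g : ℤ))) (Finsupp.single o (N₁ + 2 * g + 2)) P
    (single_mono' o (by omega)) (single_mono' o (by omega)) (by rw [degree_single'])
    (by rw [degree_single', degree_single']; omega)
  rw [e1] at s1
  rw [e2] at s3
  rw [hpt, ← hg]
  rw [abs_le] at *
  constructor <;> linarith

theorem IsStar.steps {N : ℤ} {c : ℝ} (h : IsStar o H N c) {N₁ : ℤ}
    (hN : N₁ + 2 * genusFF K F + 2 ≤ N) (hN₁ : 3 * (genusFF K F : ℤ) ≤ N₁) {A : Divisor K F}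
    {P : Place K F} (hd : 3 * (genusFF K F : ℤ) ≤ Divisor.degree A) (j : ℕ)
    (hA : A + Finsupp.single o (j : ℤ) ≤ Finsupp.single o N₁) :
    |Gd H (A + Finsupp.single o (j : ℤ)) P - Gd H A P - j * hpt o H P| ≤ 4 * c * j := by
  induction j with
  | zero => simp
  | succ j ih =>
    have e1 : A + Finsupp.single o ((j + 1 : ℕ) : ℤ) =
        (A + Finsupp.single o (j : ℤ)) + Finsupp.single o 1 := by
      rw [Nat.cast_add, Finsupp.single_add, add_assoc]; rfl
    have h1 : A + Finsupp.single o (j : ℤ) ≤ Finsupp.single o N₁ := by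
      refine le_trans ?_ hA
      rw [e1]
      exact single_one_le o le_rfl
    have h2 := ih h1
    have h3 := h.step hN hN₁ (P := P) h1 (by rw [map_add, degree_single']; omega)
    rw [e1]
    push_cast
    rw [abs_le] at *
    constructor <;> linarith

theorem IsStar.single {N : ℤ} {c : ℝ} (h : IsStar o H N c) {N₁ : ℤ}
    (hN : N₁ + 2 * genusFF K F + 2 ≤ N) (P : Place K F) (a : ℕ)
    (ha : 3 * (genusFF K F : ℤ) ≤ a) (ha' : 2 * (a : ℤ) + 2 * genusFF K F ≤ N₁) :
    |Gd H (Finsupp.single o (a : ℤ)) P - a * hpt o H P| ≤ (4 * a + 1) * c := by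
  set g := genusFF K F with hg
  have h1 := h (Finsupp.single o (a : ℤ)) (Finsupp.single o ((a : ℤ) + 2 * g)) P
    (single_mono' o (by omega)) (single_mono' o (by omega)) (by rw [degree_single']; omega)
    (by rw [degree_single', degree_single'])
  have h2 := h.steps hN (by omega) (A := Finsupp.single o ((a : ℤ) + 2 * g)) (P := P)
    (by rw [degree_single']; omega) a (by
      rw [← Finsupp.single_add]; exact single_mono' o (by omega))
  rw [add_comm (Finsupp.single o ((a : ℤ) + 2 * g))] at h2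
  rw [abs_le] at *
  constructor <;> linarith

/-- telescoping -/
theorem IsStar.telescope {N : ℤ} {c : ℝ} (h : IsStar o H N c) {N₁ : ℤ}
    (hN : N₁ + 2 * genusFF K F + 2 ≤ N) (hN₁ : 3 * (genusFF K F : ℤ) ≤ N₁) {A : Divisor K F}
    (hA : A ≤ Finsupp.single o N₁) {D : Divisor K F} (hD : 0 ≤ D)
    (hd : 3 * (genusFF K F : ℤ) + Divisor.degree D ≤ Divisor.degree A + 1) :
    |(H (A + Finsupp.single o 1 - D) - H (A - D)) - (H (A + Finsupp.single o 1) - H A) -
      hdv (hpt o H) D| ≤ 4 * c * Divisor.degree D := by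
  revert hd
  refine divisor_le_induction (D := 0) (P := fun D =>
    (3 * (genusFF K F : ℤ) + Divisor.degree D ≤ Divisor.degree A + 1) →
    |(H (A + Finsupp.single o 1 - D) - H (A - D)) - (H (A + Finsupp.single o 1) - H A) -
      hdv (hpt o H) D| ≤ 4 * c * Divisor.degree D) ?_ ?_ hD
  · intro _
    simp [hdv_zero]
  · intro E v hE ih hd
    rw [map_add, degree_single'] at hd
    have h1 := ih (by omega)
    have h2 := h.step hN hN₁ (A := A - E) (P := v)
      ((sub_le_self _ hE).trans hA) (by rw [map_sub]; omega)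
    rw [map_add, degree_single', hdv_add, hdv_single]
    have e1 : A - E + Finsupp.single o 1 = A + Finsupp.single o 1 - E := by abel
    rw [e1, Gd, Gd] at h2
    have e2 : A + Finsupp.single o 1 - E - Finsupp.single v 1 =
      A + Finsupp.single o 1 - (E + Finsupp.single v 1) := by abel
    have e3 : A - E - Finsupp.single v 1 = A - (E + Finsupp.single v 1) := by abel
    rw [e2, e3] at h2
    push_cast
    rw [abs_le] at *
    constructor <;> linarith

theorem exists_bound_nat (f : ℕ → ℝ) (n : ℕ) : ∃ c, 0 ≤ c ∧ ∀ i ≤ n, |f i| ≤ c := by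
  refine ⟨∑ i ∈ Finset.range (n + 1), |f i|, Finset.sum_nonneg fun _ _ => abs_nonneg _,
    fun i hi => ?_⟩
  exact Finset.single_le_sum (f := fun i => |f i|) (fun _ _ => abs_nonneg _)
    (Finset.mem_range.mpr (by omega))

/-- first differences in `n` -/
theorem IsStar.exists_diff {N : ℤ} {c : ℝ} (h : IsStar o H N c) {N₁ : ℕ}
    (hN : N₁ + 2 * genusFF K F + 2 ≤ N) (hN₁ : 3 * (genusFF K F : ℤ) ≤ N₁) :
    ∃ c₃, 0 ≤ c₃ ∧ ∀ (n : ℕ) (D : Divisor K F), n ≤ N₁ → 0 ≤ D →
      3 * (genusFF K F : ℤ) + Divisor.degree D ≤ n →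
      |H (Finsupp.single o ((n : ℤ) + 1) - D) - H (Finsupp.single o (n : ℤ) - D) -
        hdv (hpt o H) D| ≤ c₃ := by
  obtain ⟨c', hc', hb⟩ := exists_bound_nat
    (fun n => H (Finsupp.single o ((n : ℤ) + 1)) - H (Finsupp.single o (n : ℤ))) N₁
  have hc := h.nonneg hN hN₁
  refine ⟨4 * c * N₁ + c', by positivity, fun n D hn hD hd => ?_⟩
  have h0 : 0 ≤ Divisor.degree D := by
    have := degree_mono hD
    rwa [map_zero] at this
  have h1 := h.telescope hN hN₁ (A := Finsupp.single o (n : ℤ)) (single_mono' o (by omega)) hD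
    (by rw [degree_single']; omega)
  rw [← Finsupp.single_add] at h1
  have h2 := hb n hn
  have h3 : 4 * c * (Divisor.degree D : ℝ) ≤ 4 * c * N₁ := by
    have : (Divisor.degree D : ℝ) ≤ N₁ := by exact_mod_cast (by omega : Divisor.degree D ≤ N₁)
    gcongr
  rw [abs_le] at *
  constructor <;> linarith

/-- compatibility with multiplication by functions -/
def IsMulH (o : Place K F) (H : Divisor K F → ℝ) (ht : F → ℝ) (N : ℤ) (c : ℝ) : Prop :=
  ∀ a ∈ riemannRochSpace (Finsupp.single o N), a ≠ 0 → ∀ B : Divisor K F,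
    B ≤ Finsupp.single o N → |H (B - divOf a) - H B - ell B * ht a| ≤ c

variable {ht : F → ℝ}

theorem zeros_nonneg {a : F} (ha0 : a ≠ 0) {E : Divisor K F} (ha : a ∈ riemannRochSpace E) :
    0 ≤ divOf a + E := by
  have := (mem_riemannRochSpace_iff_divOf ha0).mp ha
  rwa [add_comm] at this

/-- (ZERO) -/
theorem IsMulH.exists_zero {N : ℤ} {c c₅ : ℝ} (h : IsStar o H N c) (hm : IsMulH o H ht N c₅)
    {N₁ : ℕ} (hN : N₁ + 2 * genusFF K F + 2 ≤ N) (hN₁ : 3 * (genusFF K F : ℤ) ≤ N₁) :
    ∃ c₄, 0 ≤ c₄ ∧ ∀ (n : ℕ) (a : F), a ≠ 0 → (n : ℤ) + 3 * (genusFF K F : ℤ) ≤ N₁ →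
      a ∈ riemannRochSpace (Finsupp.single o (n : ℤ)) →
      |ht a - hdv (hpt o H) (divOf a + Finsupp.single o (n : ℤ))| ≤ c₄ := by
  obtain ⟨c₃, hc₃, h3⟩ := h.exists_diff hN hN₁
  set g := genusFF K F with hg
  refine ⟨2 * |c₅| + c₃ +
    |H (Finsupp.single o (3 * (g : ℤ) + 1)) - H (Finsupp.single o (3 * (g : ℤ)))|,
    by positivity, fun n a ha0 hn ha => ?_⟩
  have hZ := zeros_nonneg ha0 ha
  have hdZ : Divisor.degree (divOf a + Finsupp.single o (n : ℤ) : Divisor K F) = n := by
    rw [map_add, degree_divOf, degree_single', zero_add]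
  have haN : a ∈ riemannRochSpace (Finsupp.single o N : Divisor K F) :=
    riemannRochSpace_mono (single_mono' o (by omega)) ha
  have m1 := hm a haN ha0 (Finsupp.single o (3 * (g : ℤ) + 1)) (single_mono' o (by omega))
  have m2 := hm a haN ha0 (Finsupp.single o (3 * (g : ℤ))) (single_mono' o (by omega))
  have l1 := ell_eq_of_lt_degree (D := (Finsupp.single o (3 * (g : ℤ) + 1) : Divisor K F))
    (by rw [degree_single']; omega)
  have l2 := ell_eq_of_lt_degree (D := (Finsupp.single o (3 * (g : ℤ)) : Divisor K F))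
    (by rw [degree_single']; omega)
  rw [degree_single'] at l1 l2
  have l3 : (ell (Finsupp.single o (3 * (g : ℤ) + 1) : Divisor K F) : ℝ) =
      ell (Finsupp.single o (3 * (g : ℤ)) : Divisor K F) + 1 := by
    exact_mod_cast (by omega : ell (Finsupp.single o (3 * (g : ℤ) + 1) : Divisor K F) =
      ell (Finsupp.single o (3 * (g : ℤ)) : Divisor K F) + 1)
  rw [l3] at m1
  have d1 := h3 (n + 3 * g) _ (by omega) hZ (by rw [hdZ]; push_cast; omega)
  have e1 : (Finsupp.single o (((n + 3 * g : ℕ) : ℤ) + 1) : Divisor K F) -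
      (divOf a + Finsupp.single o (n : ℤ)) = Finsupp.single o (3 * (g : ℤ) + 1) - divOf a := by
    have : (((n + 3 * g : ℕ) : ℤ) + 1) = (3 * (g : ℤ) + 1) + n := by push_cast; ring
    rw [this, Finsupp.single_add]
    abel
  have e2 : (Finsupp.single o ((n + 3 * g : ℕ) : ℤ) : Divisor K F) -
      (divOf a + Finsupp.single o (n : ℤ)) = Finsupp.single o (3 * (g : ℤ)) - divOf a := by
    have : ((n + 3 * g : ℕ) : ℤ) = 3 * (g : ℤ) + n := by push_cast; ring
    rw [this, Finsupp.single_add]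
    abel
  rw [e1, e2] at d1
  have hc5 := le_abs_self c₅
  have ha1 := le_abs_self (H (Finsupp.single o (3 * (g : ℤ) + 1)) - H (Finsupp.single o (3 * (g : ℤ))))
  have ha2 := neg_abs_le (H (Finsupp.single o (3 * (g : ℤ) + 1)) - H (Finsupp.single o (3 * (g : ℤ))))
  set L := (ell (Finsupp.single o (3 * (g : ℤ)) : Divisor K F) : ℝ)
  rw [abs_le] at m1 m2 d1
  rw [abs_le]
  constructor <;> linarith

/-- the class function -/
noncomputable def Qn (o : Place K F) (H : Divisor K F → ℝ) (n : ℕ) (D : Divisor K F) : ℝ :=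
  H (Finsupp.single o (n : ℤ) - D) -
    ((n : ℤ) - Divisor.degree D + 1 - genusFF K F : ℤ) * hdv (hpt o H) D

/-- (CLASS) -/
theorem IsMulH.exists_class {N : ℤ} {c c₅ : ℝ} (h : IsStar o H N c) (hm : IsMulH o H ht N c₅)
    {N₁ : ℕ} (hN : N₁ + 2 * genusFF K F + 2 ≤ N) (hN₁ : 3 * (genusFF K F : ℤ) ≤ N₁) :
    ∃ c₆, 0 ≤ c₆ ∧ ∀ (n : ℕ) (D D' : Divisor K F) (f : F), f ≠ 0 → 0 ≤ D → 0 ≤ D' →
      D = D' + divOf f → Divisor.degree D + 3 * (genusFF K F : ℤ) ≤ n →
      Divisor.degree D + 4 * (genusFF K F : ℤ) ≤ N₁ → n ≤ N₁ →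
      |Qn o H n D - Qn o H n D'| ≤ c₆ := by
  obtain ⟨c₄, hc₄, h4⟩ := hm.exists_zero h hN hN₁
  set g := genusFF K F with hg
  refine ⟨2 * |c₅| + (N₁ + 1) * (2 * c₄), by positivity, fun n D D' f hf hD hD' hDD hdn hdN hn => ?_⟩
  have hdD : Divisor.degree D = Divisor.degree D' := by
    rw [hDD, map_add, degree_divOf, add_zero]
  have hd0 : 0 ≤ Divisor.degree D' := by
    have := degree_mono hD'
    rwa [map_zero] at this
  obtain ⟨d, hd⟩ := Int.eq_ofNat_of_zero_le hd0
  -- the auxiliary function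
  have hex : 0 < ell (Finsupp.single o ((d : ℤ) + g) - D') := by
    have := riemann_ineq (Finsupp.single o ((d : ℤ) + g) - D')
    rw [map_sub, degree_single', hd] at this
    omega
  obtain ⟨a, ha, ha0⟩ := exists_mem_ne_zero_of_ell_pos hex
  have hfa0 : f * a ≠ 0 := mul_ne_zero hf ha0
  have ha' : a ∈ riemannRochSpace (Finsupp.single o ((d + g : ℕ) : ℤ) : Divisor K F) := by
    refine riemannRochSpace_mono ?_ ha
    push_cast
    exact sub_le_self _ hD'
  have hfa : f * a ∈ riemannRochSpace (Finsupp.single o ((d : ℤ) + g) - D) := by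
    rw [mem_riemannRochSpace_iff_divOf hfa0, divOf_mul hf ha0, hDD]
    have := (mem_riemannRochSpace_iff_divOf ha0).mp ha
    have e : Finsupp.single o ((d : ℤ) + g) - (D' + divOf f) + (divOf f + divOf a) =
      Finsupp.single o ((d : ℤ) + g) - D' + divOf a := by abel
    rw [e]
    exact this
  have hfa' : f * a ∈ riemannRochSpace (Finsupp.single o ((d + g : ℕ) : ℤ) : Divisor K F) := by
    refine riemannRochSpace_mono ?_ hfa
    push_cast
    exact sub_le_self _ hD
  have z1 := h4 (d + g) a ha0 (by push_cast; omega) ha'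
  have z2 := h4 (d + g) (f * a) hfa0 (by push_cast; omega) hfa'
  have m1 := hm a (riemannRochSpace_mono (single_mono' o (by push_cast; omega)) ha') ha0
    (Finsupp.single o (n : ℤ) - D) ((sub_le_self _ hD).trans (single_mono' o (by omega)))
  have m2 := hm (f * a) (riemannRochSpace_mono (single_mono' o (by push_cast; omega)) hfa') hfa0
    (Finsupp.single o (n : ℤ) - D') ((sub_le_self _ hD').trans (single_mono' o (by omega)))
  have e1 : Finsupp.single o (n : ℤ) - D' - divOf (f * a) =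
      Finsupp.single o (n : ℤ) - D - divOf a := by
    rw [divOf_mul hf ha0, hDD]; abel
  rw [e1] at m2
  have l1 := ell_eq_of_lt_degree (D := (Finsupp.single o (n : ℤ) - D : Divisor K F))
    (by rw [map_sub, degree_single']; omega)
  have l2 := ell_eq_of_lt_degree (D := (Finsupp.single o (n : ℤ) - D' : Divisor K F))
    (by rw [map_sub, degree_single', ← hdD]; omega)
  rw [map_sub, degree_single'] at l1 l2
  rw [← hdD] at l2
  have r1 : (ell (Finsupp.single o (n : ℤ) - D) : ℝ) = (((n : ℤ) - Divisor.degree D + 1 - g : ℤ) : ℝ) := by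
    rw [← l1]; push_cast; rfl
  have r2 : (ell (Finsupp.single o (n : ℤ) - D') : ℝ) = (((n : ℤ) - Divisor.degree D + 1 - g : ℤ) : ℝ) := by
    rw [← l2]; push_cast; rfl
  rw [r1] at m1
  rw [r2] at m2
  rw [Qn, Qn, ← hg, ← hdD]
  set r : ℤ := (n : ℤ) - Divisor.degree D + 1 - g with hr
  have hr0 : (0 : ℝ) ≤ r := by exact_mod_cast (by omega : 0 ≤ r)
  have hrN : (r : ℝ) ≤ N₁ + 1 := by exact_mod_cast (by omega : r ≤ N₁ + 1)
  have e2 : divOf (f * a) + Finsupp.single o ((d + g : ℕ) : ℤ) =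
      (divOf a + Finsupp.single o ((d + g : ℕ) : ℤ)) + (D - D') := by
    rw [divOf_mul hf ha0, hDD]; abel
  rw [e2, hdv_add, hdv_sub] at z2
  set X := hdv (hpt o H) (divOf a + Finsupp.single o ((d + g : ℕ) : ℤ))
  set x := hdv (hpt o H) D
  set x' := hdv (hpt o H) D'
  have hc5 := le_abs_self c₅
  have z3 : |(ht (f * a) - ht a) - (x - x')| ≤ 2 * c₄ := by
    rw [abs_le] at z1 z2 ⊢
    constructor <;> linarith
  have z4 : |(r : ℝ) * ((ht (f * a) - ht a) - (x - x'))| ≤ (N₁ + 1) * (2 * c₄) := by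
    rw [abs_mul, abs_of_nonneg hr0]
    gcongr
  rw [abs_le] at m1 m2 z4 ⊢
  constructor <;> nlinarith

/-- dependence of `Qn` on `n` -/
theorem IsStar.exists_Qn_succ {N : ℤ} {c : ℝ} (h : IsStar o H N c) {N₁ : ℕ}
    (hN : N₁ + 2 * genusFF K F + 2 ≤ N) (hN₁ : 3 * (genusFF K F : ℤ) ≤ N₁) :
    ∃ c₃, 0 ≤ c₃ ∧ ∀ (n : ℕ) (D : Divisor K F), n ≤ N₁ → 0 ≤ D →
      3 * (genusFF K F : ℤ) + Divisor.degree D ≤ n → |Qn o H (n + 1) D - Qn o H n D| ≤ c₃ := by
  obtain ⟨c₃, hc₃, h3⟩ := h.exists_diff hN hN₁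
  refine ⟨c₃, hc₃, fun n D hn hD hd => ?_⟩
  have := h3 n D hn hD hd
  unfold Qn
  refine le_trans (le_of_eq ?_) this
  congr 1
  push_cast
  ring

/-- adding the base point -/
theorem exists_Qn_add (o : Place K F) (H : Divisor K F → ℝ) (N₁ : ℕ) :
    ∃ c₇, 0 ≤ c₇ ∧ ∀ (n : ℕ) (D : Divisor K F), n ≤ N₁ → 0 ≤ D →
      3 * (genusFF K F : ℤ) + Divisor.degree D ≤ n →
        |Qn o H (n + 1) (D + Finsupp.single o 1) - Qn o H n D| ≤ c₇ := by
  refine ⟨(N₁ + 1) * |hpt o H o|, by positivity, fun n D hn hD hd => ?_⟩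
  have hd0 : 0 ≤ Divisor.degree D := by
    have := degree_mono hD
    rwa [map_zero] at this
  have e1 : (Finsupp.single o ((n + 1 : ℕ) : ℤ) : Divisor K F) - (D + Finsupp.single o 1) =
      Finsupp.single o (n : ℤ) - D := by
    rw [Nat.cast_add, Finsupp.single_add]
    simp only [Nat.cast_one]
    abel
  unfold Qn
  rw [e1, map_add, degree_single', hdv_add, hdv_single]
  have e2 : (((n + 1 : ℕ) : ℤ) - (Divisor.degree D + 1) + 1 - genusFF K F : ℤ) =
      (n : ℤ) - Divisor.degree D + 1 - genusFF K F := by push_cast; ring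
  rw [e2]
  set r : ℤ := (n : ℤ) - Divisor.degree D + 1 - genusFF K F with hr
  have hr0 : (0 : ℝ) ≤ r := by exact_mod_cast (by omega : 0 ≤ r)
  have hrN : (r : ℝ) ≤ N₁ + 1 := by exact_mod_cast (by omega : r ≤ N₁ + 1)
  have : H (Finsupp.single o (n : ℤ) - D) - (r : ℝ) * (hdv (hpt o H) D + ((1 : ℤ) : ℝ) * hpt o H o) -
      (H (Finsupp.single o (n : ℤ) - D) - (r : ℝ) * hdv (hpt o H) D) = -(r * hpt o H o) := by
    push_cast; ring
  rw [this, abs_neg, abs_mul, abs_of_nonneg hr0]
  gcongr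

end abstract_part

end Fermat.Agent.MW
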