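import Mathlib
import Fermat.Prelude.Def_GaloisRep_CompletionBridge
import Fermat.Agent.MW.Adelic

set_option autoImplicit false

/-! # The adelic structure on the algebraic closure of ℚ -/

namespace Fermat.Agent.MW

open MeasureTheory

noncomputable section

namespace QbarAd

/-- the algebraic closure of the rationals -/
abbrev Qb := AlgebraicClosure ℚ

/-- the absolute Galois group of the rationals -/
abbrev GQ := AlgebraicClosure ℚ ≃ₐ[ℚ] AlgebraicClosure ℚ

instance isAlgebraicQb : Algebra.IsAlgebraic ℚ (AlgebraicClosure ℚ) :=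
  AlgebraicClosure.isAlgebraic ℚ

instance isGaloisQb : IsGalois ℚ (AlgebraicClosure ℚ) := by
  have : IsAlgClosure ℚ (AlgebraicClosure ℚ) := ⟨inferInstance, inferInstance⟩
  have : Normal ℚ (AlgebraicClosure ℚ) := IsAlgClosure.normal ℚ (AlgebraicClosure ℚ)
  exact ⟨⟩

/-- the complex embedding -/
def cEmb : Qb →ₐ[ℚ] ℂ := IsAlgClosed.lift

/-- the standard absolute values on `Qb` -/
def absP : Option Nat.Primes → AbsoluteValue Qb ℝ
  | none => (NormedField.toAbsoluteValue ℂ).comp (f := (cEmb : Qb →+* ℂ)) cEmb.injective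
  | some p =>
    haveI : Fact (p : ℕ).Prime := ⟨p.2⟩
    (NormedField.toAbsoluteValue (PadicAlgCl (p : ℕ))).comp
      (f := ((padicEmbedding (p : ℕ) : Qb →ₐ[ℚ] PadicAlgCl (p : ℕ)) : Qb →+* PadicAlgCl (p : ℕ)))
      (padicEmbedding (p : ℕ)).injective

theorem absP_none (x : Qb) : absP none x = ‖cEmb x‖ := rfl

theorem absP_some (p : Nat.Primes) (x : Qb) : absP (some p) x =
    (haveI : Fact (p : ℕ).Prime := ⟨p.2⟩; ‖padicEmbedding (p : ℕ) x‖) := rfl

theorem absP_none_rat (r : ℚ) : absP none (algebraMap ℚ Qb r) = |(r : ℝ)| := by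
  rw [absP_none, AlgHom.commutes]
  simp

theorem absP_some_rat (p : Nat.Primes) (r : ℚ) :
    absP (some p) (algebraMap ℚ Qb r) = ((padicNorm (p : ℕ) r : ℚ) : ℝ) := by
  have : Fact (p : ℕ).Prime := ⟨p.2⟩
  rw [absP_some, AlgHom.commutes]
  have : algebraMap ℚ (PadicAlgCl (p : ℕ)) r = ((r : ℚ_[p]) : PadicAlgCl (p : ℕ)) := by
    rw [eq_ratCast]
    exact (map_ratCast (algebraMap ℚ_[p] (PadicAlgCl (p : ℕ))) r).symm
  rw [this, PadicAlgCl.norm_extends]
  exact Padic.eq_padicNorm r

theorem isNonarchimedean_absP (p : Nat.Primes) : IsNonarchimedean (absP (some p)) := by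
  have : Fact (p : ℕ).Prime := ⟨p.2⟩
  intro x y
  rw [absP_some, absP_some, absP_some, map_add]
  exact PadicAlgCl.isNonarchimedean (p : ℕ) _ _

/-- the index set -/
abbrev Wt := Option Nat.Primes × GQ

/-- the absolute value attached to a pair `(p, s)` -/
def abvW (w : Wt) : AbsoluteValue Qb ℝ :=
  (absP w.1).comp (f := ((w.2⁻¹ : GQ) : Qb →+* Qb)) (w.2⁻¹ : GQ).injective

theorem abvW_apply (w : Wt) (x : Qb) : abvW w x = absP w.1 (w.2⁻¹ x) := rfl

instance : MeasurableSpace GQ := borel GQ

instance : BorelSpace GQ := ⟨rfl⟩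

/-- the whole group as a compact set -/
def topC : TopologicalSpace.PositiveCompacts GQ where
  carrier := Set.univ
  isCompact' := isCompact_univ
  interior_nonempty' := by rw [interior_univ]; exact Set.univ_nonempty

/-- the Haar probability measure -/
def mu : Measure GQ := Measure.haarMeasure topC

instance : Measure.IsHaarMeasure mu := by unfold mu; infer_instance

instance : IsProbabilityMeasure mu := by
  constructor
  exact Measure.haarMeasure_self (K₀ := topC)

theorem integrable_of_continuous {f : GQ → ℝ} (hf : Continuous f) : Integrable f mu :=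
  hf.integrable_of_hasCompactSupport (HasCompactSupport.of_compactSpace f)

/-- the space of admissible functions -/
def Asub : Submodule ℝ (Wt → ℝ) where
  carrier := {f | (∀ p, Continuous fun s => f (p, s)) ∧ {p | ∃ s, f (p, s) ≠ 0}.Finite}
  add_mem' := by
    rintro f g ⟨hf, hf'⟩ ⟨hg, hg'⟩
    refine ⟨fun p => (hf p).add (hg p), (hf'.union hg').subset ?_⟩
    rintro p ⟨s, hs⟩
    by_contra h
    rw [Set.mem_union, not_or] at h
    simp only [Set.mem_ofPred_eq, not_exists, not_not] at h
    apply hs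
    rw [Pi.add_apply, h.1 s, h.2 s, add_zero]
  zero_mem' := by
    refine ⟨fun p => continuous_const, ?_⟩
    simp
  smul_mem' := by
    rintro c f ⟨hf, hf'⟩
    refine ⟨fun p => (hf p).const_smul c, hf'.subset ?_⟩
    rintro p ⟨s, hs⟩
    refine ⟨s, fun h => hs ?_⟩
    rw [Pi.smul_apply, h, smul_zero]

theorem mem_Asub {f : Wt → ℝ} : f ∈ Asub ↔
    (∀ p, Continuous fun s => f (p, s)) ∧ {p | ∃ s, f (p, s) ≠ 0}.Finite := Iff.rfl

/-- the integral -/
def Lint (f : Wt → ℝ) : ℝ := ∑ᶠ p, ∫ s, f (p, s) ∂mu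

theorem support_subset {f : Wt → ℝ} :
    Function.support (fun p => ∫ s, f (p, s) ∂mu) ⊆ {p | ∃ s, f (p, s) ≠ 0} := by
  intro p hp
  by_contra h
  simp only [Set.mem_ofPred_eq, not_exists, not_not] at h
  apply hp
  simp [h]

theorem finite_support {f : Wt → ℝ} (hf : f ∈ Asub) :
    (Function.support (fun p => ∫ s, f (p, s) ∂mu)).Finite :=
  hf.2.subset support_subset

theorem Lint_add {f g : Wt → ℝ} (hf : f ∈ Asub) (hg : g ∈ Asub) :
    Lint (f + g) = Lint f + Lint g := by
  unfold Lint
  rw [← finsum_add_distrib (finite_support hf) (finite_support hg)]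
  refine finsum_congr fun p => ?_
  exact integral_add (integrable_of_continuous (hf.1 p)) (integrable_of_continuous (hg.1 p))

theorem Lint_smul (c : ℝ) {f : Wt → ℝ} (hf : f ∈ Asub) : Lint (c • f) = c * Lint f := by
  unfold Lint
  rw [← smul_eq_mul c, smul_finsum' c (finite_support hf)]
  refine finsum_congr fun p => ?_
  exact integral_smul c _

theorem Lint_mono {f g : Wt → ℝ} (hf : f ∈ Asub) (hg : g ∈ Asub) (h : ∀ w, f w ≤ g w) :
    Lint f ≤ Lint g := by
  unfold Lint
  have hfin := (finite_support hf).union (finite_support hg)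
  rw [finsum_eq_sum_of_support_subset (s := hfin.toFinset) _ (by
      rw [Set.Finite.coe_toFinset]; exact Set.subset_union_left),
    finsum_eq_sum_of_support_subset (s := hfin.toFinset) _ (by
      rw [Set.Finite.coe_toFinset]; exact Set.subset_union_right)]
  refine Finset.sum_le_sum fun p _ => ?_
  exact integral_mono (integrable_of_continuous (hf.1 p)) (integrable_of_continuous (hg.1 p))
    fun s => h (p, s)

theorem sup_mem {f g : Wt → ℝ} (hf : f ∈ Asub) (hg : g ∈ Asub) :
    (fun w => max (f w) (g w)) ∈ Asub := by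
  refine ⟨fun p => (hf.1 p).max (hg.1 p), (hf.2.union hg.2).subset ?_⟩
  rintro p ⟨s, hs⟩
  by_contra h
  rw [Set.mem_union, not_or] at h
  simp only [Set.mem_ofPred_eq, not_exists, not_not] at h
  apply hs
  simp only [h.1 s, h.2 s, max_self]

/-- the archimedean indices -/
def archW : Set Wt := {w | w.1 = none}

theorem arch_mem : (archW.indicator fun _ => (1 : ℝ)) ∈ Asub := by
  refine ⟨fun p => ?_, ?_⟩
  · by_cases h : p = none
    · have : (fun s : GQ => archW.indicator (fun _ => (1 : ℝ)) (p, s)) = fun _ => 1 := by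
        ext s
        exact Set.indicator_of_mem (by exact h) _
      rw [this]; exact continuous_const
    · have : (fun s : GQ => archW.indicator (fun _ => (1 : ℝ)) (p, s)) = fun _ => 0 := by
        ext s
        exact Set.indicator_of_notMem (by exact h) _
      rw [this]; exact continuous_const
  · refine (Set.finite_singleton (none : Option Nat.Primes)).subset ?_
    rintro p ⟨s, hs⟩
    by_contra h
    exact hs (Set.indicator_of_notMem (by exact h) _)

theorem nonarch {w : Wt} (hw : w ∉ archW) : IsNonarchimedean (abvW w) := by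
  obtain ⟨p, s⟩ := w
  cases p with
  | none => exact absurd rfl hw
  | some p =>
    intro x y
    rw [abvW_apply, abvW_apply, abvW_apply, map_add]
    exact isNonarchimedean_absP p _ _

/-- orbits are locally constant -/
theorem continuous_inv_apply {β : Type*} [TopologicalSpace β] (F : Qb → β) (x : Qb) :
    Continuous fun s : GQ => F (s⁻¹ x) := by
  apply IsLocallyConstant.continuous
  rw [IsLocallyConstant.iff_exists_open]
  intro s
  have hfd : FiniteDimensional ℚ (IntermediateField.adjoin ℚ {x}) :=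
    IntermediateField.adjoin.finiteDimensional (Algebra.IsIntegral.isIntegral x)
  refine ⟨(fun t : GQ => t * s⁻¹) ⁻¹'
      ((IntermediateField.adjoin ℚ {x}).fixingSubgroup : Set GQ),
    (IntermediateField.fixingSubgroup_isOpen _).preimage (continuous_mul_const _), ?_, ?_⟩
  · simp
  · intro t ht
    have h1 : (t * s⁻¹ : GQ) x = x := by
      have := (IntermediateField.mem_fixingSubgroup_iff _ _).mp ht x
        (IntermediateField.mem_adjoin_simple_self ℚ x)
      exact this
    have h2 : t⁻¹ x = s⁻¹ x := by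
      have h3 : t (s⁻¹ x) = x := h1
      calc t⁻¹ x = t⁻¹ (t (s⁻¹ x)) := by rw [h3]
        _ = (t⁻¹ * t) (s⁻¹ x) := rfl
        _ = s⁻¹ x := by rw [inv_mul_cancel]; rfl
    show F (t⁻¹ x) = F (s⁻¹ x)
    rw [h2]

theorem absP_le_one_of_isIntegral (p : Nat.Primes) {z : Qb} (hz : IsIntegral ℤ z) :
    absP (some p) z ≤ 1 := by
  have : Fact (p : ℕ).Prime := ⟨p.2⟩
  have h1 : z ∈ padicPlace (p : ℕ) := by
    have h2 : IsIntegral (padicPlace (p : ℕ)) z := hz.tower_top
    obtain ⟨y, hy⟩ := (IsIntegrallyClosed.isIntegral_iff (K := Qb)).mp h2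
    rw [← hy]
    exact y.2
  rw [mem_padicPlace_iff] at h1
  rw [absP_some]
  exact_mod_cast h1

theorem exists_int_mul_isIntegral (x : Qb) : ∃ m : ℤ, m ≠ 0 ∧ IsIntegral ℤ (m * x) := by
  have hx : IsAlgebraic ℤ x :=
    (IsFractionRing.isAlgebraic_iff ℤ ℚ Qb).mpr (Algebra.IsAlgebraic.isAlgebraic x)
  obtain ⟨m, hm, h⟩ := hx.exists_integral_multiple
  exact ⟨m, hm, by simpa [zsmul_eq_mul] using h⟩

theorem absP_intCast_eq_one (p : Nat.Primes) {m : ℤ} (hm : ¬ ((p : ℕ) : ℤ) ∣ m) :
    absP (some p) (m : Qb) = 1 := by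
  have : Fact (p : ℕ).Prime := ⟨p.2⟩
  have h1 : (m : Qb) = algebraMap ℚ Qb (m : ℚ) := by simp
  rw [h1, absP_some_rat]
  have : padicNorm (p : ℕ) (m : ℚ) = 1 := by
    rw [padicNorm.int_eq_one_iff]
    exact hm
  rw [this]; simp

theorem finite_primes_dvd {m : ℤ} (hm : m ≠ 0) : {p : Nat.Primes | ((p : ℕ) : ℤ) ∣ m}.Finite := by
  have h1 : {q : ℕ | (q : ℤ) ∣ m}.Finite := by
    refine (Set.finite_le_nat m.natAbs).subset fun q hq => ?_
    have : (q : ℕ) ∣ m.natAbs := Int.natCast_dvd.mp hq
    exact Nat.le_of_dvd (Int.natAbs_pos.mpr hm) this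
  exact h1.preimage (f := fun p : Nat.Primes => (p : ℕ)) (Nat.Primes.coe_nat_injective.injOn)

theorem finite_places {x : Qb} (hx : x ≠ 0) :
    {p : Option Nat.Primes | ∃ s : GQ, absP p (s⁻¹ x) ≠ 1}.Finite := by
  obtain ⟨m, hm, h⟩ := exists_int_mul_isIntegral x
  obtain ⟨m', hm', h'⟩ := exists_int_mul_isIntegral x⁻¹
  refine (((finite_primes_dvd (mul_ne_zero hm hm')).image some).union
    (Set.finite_singleton (none : Option Nat.Primes))).subset ?_
  rintro p ⟨s, hs⟩
  cases p with
  | none => exact Or.inr rfl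
  | some p =>
    left
    refine ⟨p, ?_, rfl⟩
    by_contra hp
    apply hs
    have hp' : ¬ ((p : ℕ) : ℤ) ∣ m * m' := hp
    have hpm : ¬ ((p : ℕ) : ℤ) ∣ m := fun h => hp' (h.mul_right _)
    have hpm' : ¬ ((p : ℕ) : ℤ) ∣ m' := fun h => hp' (h.mul_left _)
    have key : ∀ (y : Qb) (n : ℤ), ¬ ((p : ℕ) : ℤ) ∣ n → IsIntegral ℤ (n * y) →
        absP (some p) (s⁻¹ y) ≤ 1 := by
      intro y n hn hy
      have h1 : IsIntegral ℤ ((s⁻¹ : GQ) (n * y)) :=
        hy.map ((s⁻¹ : GQ).restrictScalars ℤ)
      have h2 := absP_le_one_of_isIntegral p h1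
      rw [map_mul, map_intCast, map_mul, absP_intCast_eq_one p hn, one_mul] at h2
      exact h2
    have h1 := key x m hpm h
    have h2 := key x⁻¹ m' hpm' h'
    rw [map_inv₀, map_inv₀] at h2
    have h3 : 0 < absP (some p) (s⁻¹ x) := by
      apply (absP (some p)).pos
      simpa using hx
    have h4 : 1 ≤ absP (some p) (s⁻¹ x) := by
      by_contra hlt
      push Not at hlt
      have := one_lt_inv_iff₀.mpr ⟨h3, hlt⟩
      linarith
    exact le_antisymm h1 h4

theorem log_mem {x : Qb} (hx : x ≠ 0) : (fun w => Real.log (abvW w x)) ∈ Asub := by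
  refine ⟨fun p => ?_, ?_⟩
  · exact continuous_inv_apply (fun y => Real.log (absP p y)) x
  · refine (finite_places hx).subset ?_
    rintro p ⟨s, hs⟩
    refine ⟨s, fun h => hs ?_⟩
    show Real.log (absP p (s⁻¹ x)) = 0
    rw [h, Real.log_one]

/-- invariance -/
theorem Lint_comp (τ : GQ) (f : Wt → ℝ) : Lint (fun w => f (w.1, τ * w.2)) = Lint f := by
  unfold Lint
  refine finsum_congr fun p => ?_
  exact integral_mul_left_eq_self (μ := mu) (fun s => f (p, s)) τ

theorem abvW_smul (τ : GQ) (w : Wt) (x : Qb) : abvW w (τ x) = abvW (w.1, τ⁻¹ * w.2) x := by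
  rw [abvW_apply, abvW_apply, mul_inv_rev, inv_inv]
  rfl

theorem rat_support {r : ℚ} (hr : r ≠ 0) :
    (Function.support fun p => Real.log (absP p (algebraMap ℚ Qb r))).Finite := by
  have hr' : algebraMap ℚ Qb r ≠ 0 := by simpa using hr
  refine (finite_places hr').subset fun p hp => ?_
  refine ⟨1, fun h => hp ?_⟩
  have : absP p (algebraMap ℚ Qb r) = 1 := by simpa using h
  show Real.log _ = 0
  rw [this, Real.log_one]

/-- the sum of the logarithms of all absolute values -/
def Phi (r : ℚ) : ℝ := ∑ᶠ p, Real.log (absP p (algebraMap ℚ Qb r))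

theorem Phi_mul {r r' : ℚ} (hr : r ≠ 0) (hr' : r' ≠ 0) : Phi (r * r') = Phi r + Phi r' := by
  unfold Phi
  rw [← finsum_add_distrib (rat_support hr) (rat_support hr')]
  refine finsum_congr fun p => ?_
  rw [map_mul, map_mul, Real.log_mul]
  · exact ((absP p).pos (by simpa using hr)).ne'
  · exact ((absP p).pos (by simpa using hr')).ne'

theorem Phi_one : Phi 1 = 0 := by
  unfold Phi
  simp

theorem Phi_neg (r : ℚ) : Phi (-r) = Phi r := by
  unfold Phi
  refine finsum_congr fun p => ?_
  rw [map_neg, AbsoluteValue.map_neg]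

theorem Phi_prime {q : ℕ} (hq : q.Prime) : Phi q = 0 := by
  classical
  obtain ⟨P, hP⟩ : ∃ P : Nat.Primes, (P : ℕ) = q := ⟨⟨q, hq⟩, rfl⟩
  unfold Phi
  rw [finsum_eq_sum_of_support_subset (s := {none, some P})]
  · rw [Finset.sum_pair (by simp), absP_none_rat, absP_some_rat]
    have : padicNorm (P : ℕ) (q : ℚ) = (q : ℚ)⁻¹ := by
      have := Fact.mk hq
      rw [hP]
      exact padicNorm.padicNorm_p_of_prime
    rw [this]
    simp
  · intro p hp
    by_contra hcon
    apply hp
    cases p with
    | none => simp at hcon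
    | some p =>
      have hne : (p : ℕ) ≠ q := by
        intro h
        apply hcon
        have : p = P := Subtype.ext (h.trans hP.symm)
        simp [this]
      have hnd : ¬ ((p : ℕ) : ℤ) ∣ (q : ℤ) := by
        intro h
        have := Int.natCast_dvd_natCast.mp h
        exact hne ((Nat.prime_dvd_prime_iff_eq p.2 hq).mp this)
      have := absP_intCast_eq_one p hnd
      show Real.log _ = 0
      have h2 : algebraMap ℚ Qb (q : ℚ) = (((q : ℕ) : ℤ) : Qb) := by simp
      rw [h2, this, Real.log_one]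

theorem Phi_nat {n : ℕ} (hn : n ≠ 0) : Phi n = 0 := by
  induction n using Nat.recOnMul with
  | zero => exact absurd rfl hn
  | one => simpa using Phi_one
  | prime p hp => exact Phi_prime hp
  | mul a b ha hb =>
    have ha' : a ≠ 0 := fun h => hn (by simp [h])
    have hb' : b ≠ 0 := fun h => hn (by simp [h])
    rw [Nat.cast_mul, Phi_mul (by exact_mod_cast ha') (by exact_mod_cast hb'), ha ha', hb hb',
      add_zero]

/-- **Product formula** for the rationals -/
theorem Phi_eq_zero {r : ℚ} (hr : r ≠ 0) : Phi r = 0 := by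
  have hint : ∀ m : ℤ, m ≠ 0 → Phi m = 0 := by
    intro m hm
    rcases Int.natAbs_eq m with h | h
    · rw [h]; simpa using Phi_nat (n := m.natAbs) (by simpa using hm)
    · rw [h, Int.cast_neg, Phi_neg]; simpa using Phi_nat (n := m.natAbs) (by simpa using hm)
  have h1 : r * (r.den : ℚ) = r.num := Rat.mul_den_eq_num r
  have hd : (r.den : ℚ) ≠ 0 := by exact_mod_cast r.den_nz
  have h2 := Phi_mul hr hd
  rw [h1, hint _ (Rat.num_ne_zero.mpr hr), Phi_nat r.den_nz, add_zero] at h2
  exact h2.symm

theorem Lint_log_rat {r : ℚ} (hr : r ≠ 0) :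
    Lint (fun w => Real.log (abvW w (algebraMap ℚ Qb r))) = 0 := by
  rw [← Phi_eq_zero hr]
  unfold Lint Phi
  refine finsum_congr fun p => ?_
  have : (fun s : GQ => Real.log (abvW (p, s) (algebraMap ℚ Qb r))) =
      fun _ => Real.log (absP p (algebraMap ℚ Qb r)) := by
    ext s
    rw [abvW_apply, AlgEquiv.commutes]
  rw [this, integral_const]
  simp

theorem exists_galois_of_mem_roots {x y : Qb} (hy : y ∈ (minpoly ℚ x).aroots Qb) :
    ∃ g : GQ, y = g x := by
  have h1 : IsConjRoot ℚ x y := by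
    rw [isConjRoot_iff_mem_minpoly_aroots (Algebra.IsIntegral.isIntegral x)]
    exact hy
  obtain ⟨g, hg⟩ := isConjRoot_iff_exists_algEquiv.mp h1
  exact ⟨g⁻¹, by rw [← hg]; show y = (g⁻¹ * g) y; rw [inv_mul_cancel]; rfl⟩

theorem Lint_log_galois (g : GQ) (F : ℝ → ℝ) (x : Qb) :
    Lint (fun w => F (abvW w (g x))) = Lint (fun w => F (abvW w x)) := by
  have := Lint_comp g⁻¹ (fun w => F (abvW w x))
  rw [← this]
  simp only [abvW_smul]

/-- **Product formula** -/
theorem product_formula {x : Qb} (hx : x ≠ 0) : Lint (fun w => Real.log (abvW w x)) = 0 := by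
  classical
  set F : Qb → ℝ := fun y => Lint (fun w => Real.log (abvW w y)) with hF
  have hmul : ∀ s : Multiset Qb, (∀ y ∈ s, y ≠ 0) → F s.prod = (s.map F).sum := by
    intro s
    induction s using Multiset.induction_on with
    | empty =>
      intro _
      have := Lint_log_rat (r := 1) one_ne_zero
      simpa [hF] using this
    | cons a s ih =>
      intro h
      have ha : a ≠ 0 := h a (Multiset.mem_cons_self a s)
      have hs : ∀ y ∈ s, y ≠ 0 := fun y hy => h y (Multiset.mem_cons_of_mem hy)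
      have hsp : s.prod ≠ 0 := Multiset.prod_ne_zero fun h0 => hs 0 h0 rfl
      rw [Multiset.prod_cons, Multiset.map_cons, Multiset.sum_cons, ← ih hs]
      show Lint _ = _
      rw [← Lint_add (log_mem ha) (log_mem hsp)]
      congr 1
      ext w
      rw [map_mul, Real.log_mul ((abvW w).pos ha).ne' ((abvW w).pos hsp).ne']
      rfl
  have hint : IsIntegral ℚ x := Algebra.IsIntegral.isIntegral x
  set s := (minpoly ℚ x).aroots Qb with hs
  have hs0 : ∀ y ∈ s, y ≠ 0 := by
    intro y hy
    obtain ⟨g, rfl⟩ := exists_galois_of_mem_roots hy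
    simpa using hx
  have hFx : ∀ y ∈ s, F y = F x := by
    intro y hy
    obtain ⟨g, rfl⟩ := exists_galois_of_mem_roots hy
    exact Lint_log_galois g Real.log x
  have hsplit : ((minpoly ℚ x).map (algebraMap ℚ Qb)).Splits := IsAlgClosed.splits _
  have hcoef : s.prod = algebraMap ℚ Qb ((-1) ^ (minpoly ℚ x).natDegree *
      (minpoly ℚ x).coeff 0) := by
    have h1 := hsplit.coeff_zero_eq_prod_roots_of_monic ((minpoly.monic hint).map _)
    rw [Polynomial.coeff_map, Polynomial.natDegree_map] at h1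
    rw [map_mul, h1, map_pow, map_neg, map_one, ← mul_assoc, ← mul_pow]
    simp [hs, Polynomial.aroots]
  have h1 := hmul s hs0
  rw [Multiset.map_congr rfl hFx, Multiset.map_const', Multiset.sum_replicate] at h1
  have hne : (-1) ^ (minpoly ℚ x).natDegree * (minpoly ℚ x).coeff 0 ≠ 0 := by
    apply mul_ne_zero
    · exact pow_ne_zero _ (by norm_num)
    · exact minpoly.coeff_zero_ne_zero hint hx
  have h2 : F s.prod = 0 := by
    rw [hcoef]
    exact Lint_log_rat hne
  rw [h2, nsmul_eq_mul] at h1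
  have hcard : (Multiset.card s : ℝ) ≠ 0 := by
    have h3 : Multiset.card s = (minpoly ℚ x).natDegree := by
      rw [hs, Polynomial.aroots, ← hsplit.natDegree_eq_card_roots, Polynomial.natDegree_map]
    rw [h3]
    exact_mod_cast (minpoly.natDegree_pos hint).ne'
  rcases mul_eq_zero.mp h1.symm with h | h
  · exact absurd h hcard
  · exact h

/-- the adelic structure on the algebraic numbers -/
def adelicQb : AdelicStr (AlgebraicClosure ℚ) where
  W := Wt
  abv := abvW
  arch := archW
  nonarch := fun _ hw => nonarch hw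
  A := Asub
  sup_mem := sup_mem
  log_mem := log_mem
  arch_mem := arch_mem
  L := Lint
  L_add := Lint_add
  L_smul := Lint_smul
  L_mono := Lint_mono
  product_formula := product_formula

end QbarAd

end

end Fermat.Agent.MW
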