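import Fermat.Agent.MW.UTwo
import Fermat.Agent.MW.Curve
import Fermat.Agent.RRC.Place

set_option autoImplicit false
set_option linter.unusedSectionVars false

/-! # The fundamental relation between heights of Riemann-Roch spaces -/

open WithZero AlgebraicCurve Fermat.Agent.RR Module
open Fermat.Agent.FF (IsFnField)

namespace Fermat.Agent.MW

variable {K F : Type*} [Field K] [Field F] [Algebra K F] [IsAlgClosed K] [IsFnField K F]

theorem ratPlaces : RRC.RatPlaces K F := ⟨RR.deg_eq_one⟩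

theorem exists_ld (P : Place K F) : ∃ ld : ℤ → F →ₗ[K] K,
    (∀ n f, f ∈ RRC.localL P n → (ld n f = 0 ↔ f ∈ RRC.localL P (n - 1))) ∧
    (∀ m n f g, f ∈ RRC.localL P m → g ∈ RRC.localL P n → ld (m + n) (f * g) = ld m f * ld n g) ∧
    ld 0 1 = 1 := by
  have : RRC.RatPlaces K F := ratPlaces
  have h1 : ∀ n : ℤ, ∃ φ : F →ₗ[K] K, φ.comp (RRC.localL P n).subtype = RRC.lead P n :=
    fun n => LinearMap.exists_extend _
  choose ld hld using h1
  have h2 : ∀ n f (hf : f ∈ RRC.localL P n), ld n f = RRC.lead P n ⟨f, hf⟩ := by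
    intro n f hf
    exact LinearMap.congr_fun (hld n) ⟨f, hf⟩
  refine ⟨ld, fun n f hf => ?_, fun m n f g hf hg => ?_, ?_⟩
  · rw [h2 n f hf, RRC.lead_eq_zero_iff]
  · rw [h2 _ _ (RRC.mul_mem_localL P hf hg), h2 _ _ hf, h2 _ _ hg]
    show RRC.resHom P _ = RRC.resHom P _ * RRC.resHom P _
    rw [← map_mul]
    congr 1
    apply Subtype.ext
    show f * g * RRC.unif P ^ (m + n) = (f * RRC.unif P ^ m) * (g * RRC.unif P ^ n)
    rw [zpow_add₀ (RRC.unif_ne_zero P)]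
    ring
  · have h3 : (1 : F) ∈ RRC.localL P 0 := by
      rw [RRC.mem_localL, map_one, exp_zero]
    rw [h2 _ _ h3]
    show RRC.resHom P _ = 1
    rw [← map_one (RRC.resHom P)]
    congr 1
    apply Subtype.ext
    show (1 : F) * RRC.unif P ^ (0 : ℤ) = 1
    rw [zpow_zero, mul_one]

/-- leading coefficients -/
noncomputable def ld (P : Place K F) : ℤ → F →ₗ[K] K := (exists_ld P).choose

theorem ld_eq_zero_iff (P : Place K F) {n : ℤ} {f : F} (hf : f ∈ RRC.localL P n) :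
    ld P n f = 0 ↔ f ∈ RRC.localL P (n - 1) := (exists_ld P).choose_spec.1 n f hf

theorem ld_mul (P : Place K F) {m n : ℤ} {f g : F} (hf : f ∈ RRC.localL P m)
    (hg : g ∈ RRC.localL P n) : ld P (m + n) (f * g) = ld P m f * ld P n g :=
  (exists_ld P).choose_spec.2.1 m n f g hf hg

theorem ld_one (P : Place K F) : ld P 0 (1 : F) = 1 := (exists_ld P).choose_spec.2.2

theorem mem_localL_of_mem {A : Divisor K F} {f : F} (hf : f ∈ riemannRochSpace A) (P : Place K F) :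
    f ∈ RRC.localL P (A P) := hf P

theorem inf_ker_ld (A : Divisor K F) (P : Place K F) :
    riemannRochSpace A ⊓ LinearMap.ker (ld P (A P)) =
      riemannRochSpace (A - Finsupp.single P 1) := by
  classical
  ext f
  rw [Submodule.mem_inf, LinearMap.mem_ker]
  constructor
  · rintro ⟨hf, h0⟩ v
    rw [ld_eq_zero_iff P (mem_localL_of_mem hf P)] at h0
    by_cases hv : v = P
    · subst hv
      rw [Finsupp.sub_apply, Finsupp.single_eq_same]
      exact h0
    · rw [Finsupp.sub_apply, Finsupp.single_apply, if_neg (Ne.symm hv), sub_zero]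
      exact hf v
  · intro hf
    have h1 : f ∈ riemannRochSpace A := by
      refine riemannRochSpace_mono ?_ hf
      intro v
      rw [Finsupp.sub_apply, Finsupp.single_apply]
      split_ifs <;> omega
    refine ⟨h1, ?_⟩
    rw [ld_eq_zero_iff P (mem_localL_of_mem h1 P)]
    have := hf P
    rwa [Finsupp.sub_apply, Finsupp.single_eq_same] at this

theorem exists_ld_eq_one {A : Divisor K F} {P : Place K F}
    (h : ¬ riemannRochSpace A ≤ riemannRochSpace (A - Finsupp.single P 1)) :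
    ∃ w ∈ riemannRochSpace A, ld P (A P) w = 1 := by
  obtain ⟨w, hw, hw'⟩ := Set.not_subset.mp h
  have h0 : ld P (A P) w ≠ 0 := by
    intro h0
    apply hw'
    rw [← inf_ker_ld]
    exact ⟨hw, h0⟩
  refine ⟨(ld P (A P) w)⁻¹ • w, Submodule.smul_mem _ _ hw, ?_⟩
  rw [map_smul, smul_eq_mul, inv_mul_cancel₀ h0]

theorem not_le_of_degree {A : Divisor K F} (h : 2 * (genusFF K F : ℤ) ≤ Divisor.degree A)
    (P : Place K F) : ¬ riemannRochSpace A ≤ riemannRochSpace (A - Finsupp.single P 1) := by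
  intro hle
  obtain ⟨w, hw, hw0, hord⟩ := exists_ord_eq h P
  have h1 := mem_riemannRochSpace_iff.mp (hle hw) P
  rcases h1 with h1 | h1
  · exact hw0 h1
  · rw [Finsupp.sub_apply, Finsupp.single_eq_same, hord] at h1
    omega

section heights

variable (𝔣 : Frame K F) (𝔸 : AdelicStr K)

/-- height of a Riemann-Roch space -/
noncomputable def HH (A : Divisor K F) : ℝ := 𝔣.HS 𝔸 (riemannRochSpace A)

/-- difference of heights -/
noncomputable def GG (A : Divisor K F) (P : Place K F) : ℝ :=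
  HH 𝔣 𝔸 (A - Finsupp.single P 1) - HH 𝔣 𝔸 A

variable {𝔣 𝔸}

theorem HH_nonneg {A : Divisor K F} (hA : riemannRochSpace A ≤ 𝔣.V) : 0 ≤ HH 𝔣 𝔸 A :=
  Frame.HS_nonneg hA

theorem exists_rhoD {A : Divisor K F} {P : Place K F} (hAV : riemannRochSpace A ≤ 𝔣.V)
    (h : ¬ riemannRochSpace A ≤ riemannRochSpace (A - Finsupp.single P 1)) :
    ∃ ρ : 𝔸.W → ℝ, Lg 𝔸 ρ ∧ lg 𝔸 ρ = GG 𝔣 𝔸 A P ∧
      (∀ v, ∀ u ∈ riemannRochSpace A, 𝔸.abv v (ld P (A P) u) ≤
        𝔸.archC (𝔣.N + 1) v * (ρ v * 𝔣.nm (𝔸.abv v) u)) ∧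
      ∀ v, ∃ u ∈ riemannRochSpace A, ld P (A P) u = 1 ∧ ρ v * 𝔣.nm (𝔸.abv v) u ≤ 1 := by
  obtain ⟨w₀, hw₀, hw₀'⟩ := exists_ld_eq_one h
  have := Frame.exists_rho (𝔸 := 𝔸) hAV (ld P (A P)) hw₀ hw₀'
  rw [inf_ker_ld] at this
  exact this

variable (𝔣 𝔸) in
/-- the trivial direction -/
theorem exists_td : ∃ c : ℝ, 0 ≤ c ∧ ∀ (A B : Divisor K F) (P : Place K F),
    riemannRochSpace A ≤ 𝔣.V → riemannRochSpace B ≤ 𝔣.V → riemannRochSpace (A + B) ≤ 𝔣.V →
    ¬ riemannRochSpace A ≤ riemannRochSpace (A - Finsupp.single P 1) →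
    ¬ riemannRochSpace B ≤ riemannRochSpace (B - Finsupp.single P 1) →
      GG 𝔣 𝔸 A P + GG 𝔣 𝔸 B P ≤ GG 𝔣 𝔸 (A + B) P + c := by
  obtain ⟨D, hD, hDb⟩ := 𝔣.exists_mul_upper 𝔸
  have hC := hD.mul (AdelicStr.adm_archC (𝔸 := 𝔸) (𝔣.N + 1))
  refine ⟨lg 𝔸 _, hC.lg_nonneg, fun A B P hA hB hAB hAP hBP => ?_⟩
  obtain ⟨ρ, hρ, hρG, -, hρl⟩ := exists_rhoD (𝔸 := 𝔸) hA hAP
  obtain ⟨ρ', hρ', hρG', -, hρl'⟩ := exists_rhoD (𝔸 := 𝔸) hB hBP
  have hmul : ∀ u ∈ riemannRochSpace A, ∀ u' ∈ riemannRochSpace B,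
      u * u' ∈ riemannRochSpace (A + B) := fun u hu u' hu' => mul_mem_riemannRochSpace hu hu'
  have hld : ∀ u ∈ riemannRochSpace A, ∀ u' ∈ riemannRochSpace B,
      ld P ((A + B) P) (u * u') = ld P (A P) u * ld P (B P) u' := fun u hu u' hu' => by
    rw [Finsupp.add_apply]
    exact ld_mul P (mem_localL_of_mem hu P) (mem_localL_of_mem hu' P)
  have hABP : ¬ riemannRochSpace (A + B) ≤ riemannRochSpace (A + B - Finsupp.single P 1) := by
    intro hle
    obtain ⟨u, hu, hu1⟩ := exists_ld_eq_one hAP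
    obtain ⟨u', hu', hu1'⟩ := exists_ld_eq_one hBP
    have h1 := hle (hmul u hu u' hu')
    rw [← inf_ker_ld] at h1
    have h2 : ld P ((A + B) P) (u * u') = 0 := h1.2
    rw [hld u hu u' hu', hu1, hu1'] at h2
    simp at h2
  obtain ⟨ρ'', hρ'', hρG'', hρu'', -⟩ := exists_rhoD (𝔸 := 𝔸) hAB hABP
  have key : ∀ v, ρ v * ρ' v ≤ (D v * 𝔸.archC (𝔣.N + 1) v) * ρ'' v := by
    intro v
    obtain ⟨u, hu, hu1, hun⟩ := hρl v
    obtain ⟨u', hu', hu1', hun'⟩ := hρl' v
    have h1 := hρu'' v _ (hmul u hu u' hu')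
    rw [hld u hu u' hu', hu1, hu1', mul_one, map_one] at h1
    have h2 := hDb v u (hA hu) u' (hB hu')
    have e1 := hρ.1 v
    have e2 := hρ'.1 v
    have e3 := hρ''.1 v
    have e4 := hD.pos v
    have e5 := (AdelicStr.adm_archC (𝔸 := 𝔸) (𝔣.N + 1)).pos v
    have e6 := 𝔣.nm_nonneg (𝔸.abv v) u
    have e7 := 𝔣.nm_nonneg (𝔸.abv v) u'
    calc ρ v * ρ' v = ρ v * ρ' v * 1 := (mul_one _).symm
      _ ≤ ρ v * ρ' v * (𝔸.archC (𝔣.N + 1) v * (ρ'' v * 𝔣.nm (𝔸.abv v) (u * u'))) := by gcongr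
      _ ≤ ρ v * ρ' v * (𝔸.archC (𝔣.N + 1) v * (ρ'' v *
          (D v * (𝔣.nm (𝔸.abv v) u * 𝔣.nm (𝔸.abv v) u')))) := by gcongr
      _ = (D v * 𝔸.archC (𝔣.N + 1) v) * ρ'' v * ((ρ v * 𝔣.nm (𝔸.abv v) u) *
          (ρ' v * 𝔣.nm (𝔸.abv v) u')) := by ring
      _ ≤ (D v * 𝔸.archC (𝔣.N + 1) v) * ρ'' v * (1 * 1) := by gcongr
      _ = _ := by ring
  have h3 := lg_le (hρ.mul hρ') (hC.lg.mul hρ'') key
  rw [lg_mul hρ hρ', lg_mul hC.lg hρ'', hρG, hρG', hρG''] at h3
  linarith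

variable (𝔣 𝔸) in
/-- the non trivial direction -/
theorem exists_ntd (o : Place K F) (n m d e : ℕ)
    (hV : ∀ i : ℕ, i ≤ 2 * max n m + 2 * genusFF K F →
      riemannRochSpace (Finsupp.single o (i : ℤ)) ≤ 𝔣.V)
    (hnd : d + 3 * genusFF K F ≤ n) (hme : e + 3 * genusFF K F ≤ m)
    (hnm : n + e + 2 * genusFF K F ≤ m + d) :
    ∃ c : ℝ, ∀ (D E : Divisor K F) (P : Place K F), 0 ≤ D → 0 ≤ E →
      Divisor.degree D = d → Divisor.degree E = e →
      GG 𝔣 𝔸 ((Finsupp.single o (n : ℤ) - D) + (Finsupp.single o (m : ℤ) - E)) P ≤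
        GG 𝔣 𝔸 (Finsupp.single o (n : ℤ) - D) P + GG 𝔣 𝔸 (Finsupp.single o (m : ℤ) - E) P + c := by
  classical
  set g := genusFF K F with hg
  set k := max n m + 2 * g with hk
  have hnk : n + 2 * g ≤ k := by omega
  have hmk : m + 2 * g ≤ k := by omega
  have hmulV : ∀ i j : ℕ, i + j ≤ 2 * max n m + 2 * g →
      riemannRochSpace (Finsupp.single o (i : ℤ)) * riemannRochSpace (Finsupp.single o (j : ℤ)) ≤
        𝔣.V := by
    intro i j hij
    refine le_trans ?_ (hV (i + j) hij)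
    rw [Submodule.mul_le]
    intro a ha b hb
    have := mul_mem_riemannRochSpace ha hb
    rwa [← Finsupp.single_add, ← Nat.cast_add] at this
  have hadd : ∀ D E : Divisor K F, (Finsupp.single o (n : ℤ) - D) + (Finsupp.single o (m : ℤ) - E) =
      Finsupp.single o ((n + m : ℕ) : ℤ) - (D + E) := by
    intro D E
    rw [Nat.cast_add, Finsupp.single_add]
    abel
  have hc1 : ∀ (i d' : ℕ), d' + 3 * g ≤ i → i + 2 * g ≤ k →
      ∀ W ≤ riemannRochSpace (Finsupp.single o (i : ℤ)), finrank K W = i + 1 - g - d' →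
      finrank K (riemannRochSpace (Finsupp.single o (k : ℤ)) * W : Submodule K F) ≤
        i + k + 1 - g - d' →
      ∃ D : Divisor K F, 0 ≤ D ∧ Divisor.degree D = d' ∧
        W = riemannRochSpace (Finsupp.single o (i : ℤ) - D) := by
    intro i d' h1 h2 W hW hWr hWs
    exact c1 o W i d' k hW (by omega) h1 h2 (by omega)
  have hc1' : ∀ (i d' : ℕ) (D : Divisor K F), d' + 3 * g ≤ i → i + 2 * g ≤ k → 0 ≤ D →
      Divisor.degree D = d' →
      riemannRochSpace (Finsupp.single o (i : ℤ) - D) ≤ riemannRochSpace (Finsupp.single o (i : ℤ)) ∧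
      finrank K (riemannRochSpace (Finsupp.single o (i : ℤ) - D)) = i + 1 - g - d' ∧
      finrank K (riemannRochSpace (Finsupp.single o (k : ℤ)) *
        riemannRochSpace (Finsupp.single o (i : ℤ) - D) : Submodule K F) ≤ i + k + 1 - g - d' := by
    intro i d' D h1 h2 hD hDd
    have e1 : Divisor.degree (Finsupp.single o (i : ℤ) - D) = i - d' := by
      rw [map_sub, degree_single', hDd]
    refine ⟨riemannRochSpace_mono (by simpa using hD), ?_, ?_⟩
    · have := ell_eq_of_lt_degree (D := Finsupp.single o (i : ℤ) - D) (by rw [e1]; omega)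
      rw [e1, ell] at this
      omega
    · have e2 : Divisor.degree (Finsupp.single o (k : ℤ) + (Finsupp.single o (i : ℤ) - D)) =
          k + i - d' := by
        rw [map_add, e1, degree_single']; ring
      have h3 := ell_eq_of_lt_degree (D := Finsupp.single o (k : ℤ) +
        (Finsupp.single o (i : ℤ) - D)) (by rw [e2]; omega)
      rw [e2, ell] at h3
      have h4 : riemannRochSpace (Finsupp.single o (k : ℤ)) *
          riemannRochSpace (Finsupp.single o (i : ℤ) - D) ≤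
          riemannRochSpace (Finsupp.single o (k : ℤ) + (Finsupp.single o (i : ℤ) - D)) := by
        rw [Submodule.mul_le]
        intro a ha b hb
        exact mul_mem_riemannRochSpace ha hb
      have h5 := Submodule.finrank_mono h4
      omega
  have hc2 : ∀ D E : Divisor K F, Divisor.degree D = d → Divisor.degree E = e →
      riemannRochSpace (Finsupp.single o (n : ℤ) - D) *
        riemannRochSpace (Finsupp.single o (m : ℤ) - E) =
      riemannRochSpace ((Finsupp.single o (n : ℤ) - D) + (Finsupp.single o (m : ℤ) - E)) := by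
    intro D E hDd hEe
    apply c2
    · rw [map_sub, degree_single', hDd]; omega
    · rw [map_sub, degree_single', hDd, map_sub, degree_single', hEe]; omega
  have hsum : ∀ D E : Divisor K F, Divisor.degree D = d → Divisor.degree E = e →
      finrank K (riemannRochSpace ((Finsupp.single o (n : ℤ) - D) +
        (Finsupp.single o (m : ℤ) - E))) = n + m + 1 - g - d - e := by
    intro D E hDd hEe
    have e1 : Divisor.degree ((Finsupp.single o (n : ℤ) - D) + (Finsupp.single o (m : ℤ) - E)) =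
        n + m - d - e := by
      rw [map_add, map_sub, map_sub, degree_single', degree_single', hDd, hEe]; ring
    have := ell_eq_of_lt_degree (D := (Finsupp.single o (n : ℤ) - D) +
      (Finsupp.single o (m : ℤ) - E)) (by rw [e1]; omega)
    rw [e1, ell] at this
    omega
  obtain ⟨C, hC, hCb⟩ := Frame.exists_UTwo 𝔣 𝔸 (riemannRochSpace (Finsupp.single o (n : ℤ)))
    (riemannRochSpace (Finsupp.single o (k : ℤ))) (riemannRochSpace (Finsupp.single o (m : ℤ)))
    (riemannRochSpace (Finsupp.single o (k : ℤ))) (hV n (by omega)) (hV m (by omega))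
    (hmulV k n (by omega)) (hmulV k m (by omega)) (hmulV n m (by omega))
    (n + 1 - g - d) (m + 1 - g - e) (n + k + 1 - g - d) (m + k + 1 - g - e)
    (n + m + 1 - g - d - e) (by
      intro W hW hWr hWs U hU hUr hUs
      obtain ⟨D, hD, hDd, rfl⟩ := hc1 n d hnd hnk W hW hWr hWs
      obtain ⟨E, hE, hEe, rfl⟩ := hc1 m e hme hmk U hU hUr hUs
      rw [hc2 D E hDd hEe, hsum D E hDd hEe])
  set s := n + m + 1 - g - d - e with hs
  have hC' := ((AdelicStr.adm_archC (𝔸 := 𝔸) s).mul hC).mul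
    ((AdelicStr.adm_archC (𝔸 := 𝔸) (𝔣.N + 1)).pow 2)
  refine ⟨lg 𝔸 (fun v => (𝔸.archC s v * C v) * 𝔸.archC (𝔣.N + 1) v ^ 2),
    fun D E P hD hE hDd hEe => ?_⟩
  set A : Divisor K F := Finsupp.single o (n : ℤ) - D with hA
  set B : Divisor K F := Finsupp.single o (m : ℤ) - E with hB
  obtain ⟨hA1, hA2, hA3⟩ := hc1' n d D hnd hnk hD hDd
  obtain ⟨hB1, hB2, hB3⟩ := hc1' m e E hme hmk hE hEe
  have hAV : riemannRochSpace A ≤ 𝔣.V := hA1.trans (hV n (by omega))
  have hBV : riemannRochSpace B ≤ 𝔣.V := hB1.trans (hV m (by omega))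
  have hABV : riemannRochSpace (A + B) ≤ 𝔣.V := by
    refine le_trans ?_ (hV (n + m) (by omega))
    rw [hA, hB, hadd]
    apply riemannRochSpace_mono
    simpa using add_nonneg hD hE
  have hdA : Divisor.degree A = n - d := by rw [hA, map_sub, degree_single', hDd]
  have hdB : Divisor.degree B = m - e := by rw [hB, map_sub, degree_single', hEe]
  have hAP := not_le_of_degree (A := A) (by rw [hdA]; omega) P
  have hBP := not_le_of_degree (A := B) (by rw [hdB]; omega) P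
  have hABP := not_le_of_degree (A := A + B) (by rw [map_add, hdA, hdB]; omega) P
  obtain ⟨ρ, hρ, hρG, hρu, -⟩ := exists_rhoD (𝔸 := 𝔸) hAV hAP
  obtain ⟨ρ', hρ', hρG', hρu', -⟩ := exists_rhoD (𝔸 := 𝔸) hBV hBP
  obtain ⟨ρ'', hρ'', hρG'', -, hρl''⟩ := exists_rhoD (𝔸 := 𝔸) hABV hABP
  have key : ∀ v, ρ'' v ≤ ((𝔸.archC s v * C v) * 𝔸.archC (𝔣.N + 1) v ^ 2) * (ρ v * ρ' v) := by
    intro v
    obtain ⟨x, hx, hx1, hxn⟩ := hρl'' v
    rw [← hc2 D E hDd hEe] at hx
    obtain ⟨c, a, b, haA, hbB, han, hbn, hcn, hxs⟩ := hCb v _ hA1 hA2 hA3 _ hB1 hB2 hB3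
      (by rw [hc2 D E hDd hEe, hsum D E hDd hEe]) x hx
    have e1 := hρ.1 v
    have e2 := hρ'.1 v
    have e3 := hρ''.1 v
    have e4 := hC.pos v
    have e5 := (AdelicStr.adm_archC (𝔸 := 𝔸) (𝔣.N + 1)).pos v
    have e5' := (AdelicStr.adm_archC (𝔸 := 𝔸) s).pos v
    have e6 := 𝔣.nm_nonneg (𝔸.abv v) x
    have h1 : ld P ((A + B) P) x = ∑ t, c t * (ld P (A P) (a t) * ld P (B P) (b t)) := by
      rw [hxs, map_sum]
      refine Finset.sum_congr rfl fun t _ => ?_
      rw [map_smul, smul_eq_mul, Finsupp.add_apply, ld_mul P (mem_localL_of_mem (haA t) P)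
        (mem_localL_of_mem (hbB t) P)]
    have h2 : 𝔸.abv v (∑ t, c t * (ld P (A P) (a t) * ld P (B P) (b t))) ≤
        fac (𝔸.abv v) (Fintype.card (Fin s)) * (C v * 𝔣.nm (𝔸.abv v) x *
          ((𝔸.archC (𝔣.N + 1) v * (ρ v * 1)) * (𝔸.archC (𝔣.N + 1) v * (ρ' v * 1)))) := by
      apply sum_univ_le_fac (𝔸.abv v) _ (by positivity)
      intro t
      rw [map_mul, map_mul]
      have h3 := hρu v _ (haA t)
      have h4 := hρu' v _ (hbB t)
      have h5 := han t
      have h6 := hbn t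
      have h7 := hcn t
      have h8 := (𝔸.abv v).nonneg (ld P (A P) (a t))
      have h9 := (𝔸.abv v).nonneg (ld P (B P) (b t))
      have h3' : 𝔸.abv v (ld P (A P) (a t)) ≤ 𝔸.archC (𝔣.N + 1) v * (ρ v * 1) :=
        h3.trans (by gcongr)
      have h4' : 𝔸.abv v (ld P (B P) (b t)) ≤ 𝔸.archC (𝔣.N + 1) v * (ρ' v * 1) :=
        h4.trans (by gcongr)
      gcongr
    rw [← h1, hx1, map_one, Fintype.card_fin] at h2
    have h3 := fac_le_archC' (𝔸 := 𝔸) (le_refl s) v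
    calc ρ'' v = ρ'' v * 1 := (mul_one _).symm
      _ ≤ ρ'' v * (fac (𝔸.abv v) s * (C v * 𝔣.nm (𝔸.abv v) x *
          ((𝔸.archC (𝔣.N + 1) v * (ρ v * 1)) * (𝔸.archC (𝔣.N + 1) v * (ρ' v * 1))))) := by gcongr
      _ ≤ ρ'' v * (𝔸.archC s v * (C v * 𝔣.nm (𝔸.abv v) x *
          ((𝔸.archC (𝔣.N + 1) v * (ρ v * 1)) * (𝔸.archC (𝔣.N + 1) v * (ρ' v * 1))))) := by gcongr
      _ = ((𝔸.archC s v * C v) * 𝔸.archC (𝔣.N + 1) v ^ 2) * (ρ v * ρ' v) *
          (ρ'' v * 𝔣.nm (𝔸.abv v) x) := by ring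
      _ ≤ ((𝔸.archC s v * C v) * 𝔸.archC (𝔣.N + 1) v ^ 2) * (ρ v * ρ' v) * 1 := by gcongr
      _ = _ := mul_one _
  have h3 := lg_le hρ'' (hC'.lg.mul (hρ.mul hρ')) key
  rw [lg_mul hC'.lg (hρ.mul hρ'), lg_mul hρ hρ', hρG, hρG', hρG''] at h3
  linarith

end heights

end Fermat.Agent.MW
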