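import Fermat.Agent.MW.Height

set_option autoImplicit false

/-! # Polynomial conditions and reduced bases of products -/

namespace Fermat.Agent.MW

open Matrix Module MvPolynomial

section closed

variable {K : Type*} [Field K] {σ σ' : Type*}

/-- polynomial functions -/
def IsPoly (g : (σ → K) → K) : Prop := ∃ p : MvPolynomial σ K, ∀ z, eval z p = g z

theorem IsPoly.const (c : K) : IsPoly (fun _ : σ → K => c) := ⟨C c, fun z => by simp⟩

theorem IsPoly.coord (i : σ) : IsPoly (fun z : σ → K => z i) := ⟨X i, fun z => by simp⟩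

theorem IsPoly.add {g h : (σ → K) → K} (hg : IsPoly g) (hh : IsPoly h) :
    IsPoly (fun z => g z + h z) := by
  obtain ⟨p, hp⟩ := hg
  obtain ⟨q, hq⟩ := hh
  exact ⟨p + q, fun z => by rw [map_add, hp, hq]⟩

theorem IsPoly.sub {g h : (σ → K) → K} (hg : IsPoly g) (hh : IsPoly h) :
    IsPoly (fun z => g z - h z) := by
  obtain ⟨p, hp⟩ := hg
  obtain ⟨q, hq⟩ := hh
  exact ⟨p - q, fun z => by rw [map_sub, hp, hq]⟩

theorem IsPoly.mul {g h : (σ → K) → K} (hg : IsPoly g) (hh : IsPoly h) :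
    IsPoly (fun z => g z * h z) := by
  obtain ⟨p, hp⟩ := hg
  obtain ⟨q, hq⟩ := hh
  exact ⟨p * q, fun z => by rw [map_mul, hp, hq]⟩

theorem IsPoly.sum {ι : Type*} (s : Finset ι) {g : ι → (σ → K) → K} (hg : ∀ i, IsPoly (g i)) :
    IsPoly (fun z => ∑ i ∈ s, g i z) := by
  choose p hp using hg
  exact ⟨∑ i ∈ s, p i, fun z => by rw [map_sum]; exact Finset.sum_congr rfl fun i _ => hp i z⟩

theorem IsPoly.det {s : ℕ} {A : (σ → K) → Matrix (Fin s) (Fin s) K}
    (hA : ∀ i j, IsPoly (fun z => A z i j)) : IsPoly (fun z => (A z).det) := by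
  choose p hp using hA
  refine ⟨(Matrix.of p).det, fun z => ?_⟩
  rw [RingHom.map_det]
  congr 1
  ext i j
  rw [RingHom.mapMatrix_apply, Matrix.map_apply, Matrix.of_apply, hp]

theorem IsPoly.comap {g : (σ → K) → K} (hg : IsPoly g) (f : σ → σ') :
    IsPoly (fun z : σ' → K => g (fun i => z (f i))) := by
  obtain ⟨p, hp⟩ := hg
  refine ⟨rename f p, fun z => ?_⟩
  rw [eval_rename, hp]
  rfl

theorem IsPoly.congr {g h : (σ → K) → K} (hg : IsPoly g) (hgh : ∀ z, h z = g z) : IsPoly h := by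
  obtain ⟨p, hp⟩ := hg
  exact ⟨p, fun z => by rw [hp, hgh]⟩

/-- closed conditions -/
def IsCl (P : (σ → K) → Prop) : Prop :=
  ∃ S : Finset (MvPolynomial σ K), ∀ z, P z ↔ ∀ p ∈ S, eval z p = 0

theorem IsCl.congr {P Q : (σ → K) → Prop} (hP : IsCl P) (h : ∀ z, Q z ↔ P z) : IsCl Q := by
  obtain ⟨S, hS⟩ := hP
  exact ⟨S, fun z => (h z).trans (hS z)⟩

theorem IsCl.eq {g h : (σ → K) → K} (hg : IsPoly g) (hh : IsPoly h) :
    IsCl (fun z => g z = h z) := by
  obtain ⟨p, hp⟩ := hg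
  obtain ⟨q, hq⟩ := hh
  refine ⟨{p - q}, fun z => ?_⟩
  simp [hp, hq, sub_eq_zero]

theorem IsCl.and {P Q : (σ → K) → Prop} (hP : IsCl P) (hQ : IsCl Q) :
    IsCl (fun z => P z ∧ Q z) := by
  classical
  obtain ⟨S, hS⟩ := hP
  obtain ⟨T, hT⟩ := hQ
  refine ⟨S ∪ T, fun z => ?_⟩
  simp only [hS, hT]
  simp only [Finset.mem_union, or_imp, forall_and]

theorem IsCl.all {ι : Type*} [Finite ι] {P : ι → (σ → K) → Prop} (hP : ∀ i, IsCl (P i)) :
    IsCl (fun z => ∀ i, P i z) := by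
  classical
  have := Fintype.ofFinite ι
  choose S hS using hP
  refine ⟨Finset.univ.biUnion S, fun z => ?_⟩
  simp only [hS, Finset.mem_biUnion, Finset.mem_univ, true_and]
  constructor
  · rintro h p ⟨i, hi⟩
    exact h i p hi
  · intro h i p hi
    exact h p ⟨i, hi⟩

theorem IsCl.comap {P : (σ → K) → Prop} (hP : IsCl P) (f : σ → σ') :
    IsCl (fun z : σ' → K => P (fun i => z (f i))) := by
  classical
  obtain ⟨S, hS⟩ := hP
  refine ⟨S.image (rename f), fun z => ?_⟩
  simp only [hS]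
  simp only [Finset.mem_image, forall_exists_index, and_imp, forall_apply_eq_imp_iff₂, eval_rename]
  rfl

/-- Nullstellensatz on closed subsets -/
theorem exists_lower_bound [IsAlgClosed K] [Finite σ] {𝔸 : AdelicStr K} {τ : Type*} [Finite τ]
    {P : (σ → K) → Prop} (hP : IsCl P) {g : τ → (σ → K) → K} (hg : ∀ t, IsPoly (g t))
    (h : ∀ z, P z → ∃ t, g t z ≠ 0) :
    ∃ C, 𝔸.Adm C ∧ ∀ w, ∀ z : σ → K, (∀ i, 𝔸.abv w (z i) ≤ 1) → P z →
      ∃ t, 1 ≤ C w * 𝔸.abv w (g t z) := by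
  obtain ⟨S, hS⟩ := hP
  choose p hp using hg
  obtain ⟨C, hC, hbd⟩ := AdelicStr.nullstellensatz (𝔸 := 𝔸)
    (p := fun t : S ⊕ τ => Sum.elim (fun q : S => (q : MvPolynomial σ K)) p t) (fun z => by
      by_cases hz : P z
      · obtain ⟨t, ht⟩ := h z hz
        exact ⟨Sum.inr t, by simpa [hp] using ht⟩
      · rw [hS] at hz
        push Not at hz
        obtain ⟨q, hq, hq'⟩ := hz
        exact ⟨Sum.inl ⟨q, hq⟩, by simpa using hq'⟩)
  refine ⟨C, hC, fun w z hz hPz => ?_⟩
  obtain ⟨t, ht⟩ := hbd w z hz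
  rcases t with q | t
  · exfalso
    simp only [Sum.elim_inl] at ht
    rw [(hS z).mp hPz q q.2, map_zero, mul_zero] at ht
    exact absurd ht (by norm_num)
  · exact ⟨t, by simpa [hp] using ht⟩

end closed

theorem det_updateRow_le {k : Type*} [Field k] (v : AbsoluteValue k ℝ) {s : ℕ}
    (A : Matrix (Fin s) (Fin s) k) (b : Fin s → k) (t : Fin s) {m D : ℝ} (hm : 0 ≤ m) (hD : 1 ≤ D)
    (hb : ∀ j, v (b j) ≤ m) (hA : ∀ i j, v (A i j) ≤ D) :
    v (A.updateRow t b).det ≤ fac v s.factorial * (m * D ^ s) := by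
  have hD0 : 0 ≤ D := zero_le_one.trans hD
  rw [det_apply]
  have := sum_univ_le_fac v (fun σ : Equiv.Perm (Fin s) =>
    Equiv.Perm.sign σ • ∏ i, (A.updateRow t b) (σ i) i) (mul_nonneg hm (pow_nonneg hD0 s))
    (fun σ => ?_)
  · simpa [Fintype.card_perm] using this
  · rw [abv_sign_smul, map_prod]
    have hmem : σ.symm t ∈ (Finset.univ : Finset (Fin s)) := Finset.mem_univ _
    rw [← Finset.mul_prod_erase _ _ hmem]
    apply mul_le_mul _ _ (Finset.prod_nonneg fun i _ => v.nonneg _) hm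
    · rw [Equiv.apply_symm_apply, updateRow_self]
      exact hb _
    · calc ∏ x ∈ Finset.univ.erase (σ.symm t), v (A.updateRow t b (σ x) x)
          ≤ ∏ _x ∈ Finset.univ.erase (σ.symm t), D := by
            apply Finset.prod_le_prod (fun i _ => v.nonneg _)
            intro i hi
            have hne : σ i ≠ t := by
              intro h
              apply (Finset.mem_erase.mp hi).1
              rw [← h, Equiv.symm_apply_apply]
            rw [updateRow_ne hne]
            exact hA _ _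
        _ = D ^ (Finset.univ.erase (σ.symm t)).card := by rw [Finset.prod_const]
        _ ≤ D ^ s := by
          apply pow_le_pow_right₀ hD
          calc _ ≤ (Finset.univ : Finset (Fin s)).card := Finset.card_le_card (Finset.erase_subset _ _)
            _ = s := by simp

namespace Frame

variable {K F : Type*} [Field K] [Field F] [Algebra K F] {𝔣 : Frame K F} {𝔸 : AdelicStr K}

/-- minors detect the dimension of the span -/
theorem forall_det_eq_zero_iff {τ : Type*} [Finite τ] {y : τ → F} (hy : ∀ t, y t ∈ 𝔣.V) (s : ℕ) :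
    (∀ (a : Fin s → τ) (J : Fin s → Fin 𝔣.N),
      (Matrix.of fun t u => 𝔣.co (y (a t)) (J u)).det = 0) ↔
      finrank K (Submodule.span K (Set.range y)) < s := by
  have hfin : Module.Finite K (Submodule.span K (Set.range y)) :=
    FiniteDimensional.span_of_finite K (Set.finite_range y)
  constructor
  · intro h
    by_contra hcon
    push Not at hcon
    obtain ⟨f, hf, -, hli⟩ := Submodule.exists_fun_fin_finrank_span_eq K (Set.range y)
    choose a ha using hf
    have hli' : LinearIndependent K (fun t : Fin s => y (a (Fin.castLE hcon t))) := by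
      have : (fun t : Fin s => y (a (Fin.castLE hcon t))) = f ∘ Fin.castLE hcon := by
        ext t
        exact ha _
      rw [this]
      exact hli.comp _ (Fin.castLE_injective hcon)
    obtain ⟨J, hJ⟩ := exists_mnr_ne_zero (𝔣.mat_li hli' fun t => hy _)
    exact hJ (h _ J)
  · intro h a J
    by_contra hcon
    have h1 : LinearIndependent K (fun t => 𝔣.co (y (a t))) := by
      have h2 := (Matrix.linearIndependent_rows_iff_isUnit
        (A := Matrix.of fun t u => 𝔣.co (y (a t)) (J u))).mpr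
        ((Matrix.isUnit_iff_isUnit_det _).mpr (isUnit_iff_ne_zero.mpr hcon))
      exact LinearIndependent.of_comp (LinearMap.funLeft K K J) h2
    have h3 : LinearIndependent K (fun t => y (a t)) := LinearIndependent.of_comp 𝔣.co h1
    have h4 : LinearIndependent K (fun t => (⟨y (a t), Submodule.subset_span ⟨_, rfl⟩⟩ :
        Submodule.span K (Set.range y))) :=
      LinearIndependent.of_comp (Submodule.subtype _) h3
    have := h4.fintype_card_le_finrank
    rw [Fintype.card_fin] at this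
    omega

/-- the condition on the coordinates of a reduced basis -/
def PCond (𝔣 : Frame K F) (A A' : Submodule K F) {r : ℕ} (s₁ : ℕ) (I : Fin r → Fin 𝔣.N)
    (z : Fin r × Fin 𝔣.N → K) : Prop :=
  (∀ i j, z (i, I j) = if i = j then 1 else 0) ∧ (∀ i, ∑ l, z (i, l) • 𝔣.e l ∈ A) ∧
    finrank K (A' * Submodule.span K (Set.range fun i => ∑ l, z (i, l) • 𝔣.e l) :
      Submodule K F) ≤ s₁

theorem isCl_pCond (A A' : Submodule K F) [Module.Finite K A'] (hA : A ≤ 𝔣.V)
    (hA'A : A' * A ≤ 𝔣.V) {r : ℕ} (s₁ : ℕ) (I : Fin r → Fin 𝔣.N) : IsCl (PCond 𝔣 A A' s₁ I) := by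
  classical
  -- membership in `A`
  have hmem : ∀ i : Fin r, IsCl (fun z : Fin r × Fin 𝔣.N → K => ∑ l, z (i, l) • 𝔣.e l ∈ A) := by
    intro i
    obtain ⟨g, hg⟩ := LinearMap.exists_leftInverse_of_injective A.subtype A.ker_subtype
    -- `f ∈ A ↔ f - g f = 0`
    have h1 : ∀ f ∈ 𝔣.V, f ∈ A ↔ ∀ m, 𝔣.co (f - g f) m = 0 := by
      intro f hf
      constructor
      · intro hfA m
        have := LinearMap.congr_fun hg ⟨f, hfA⟩
        simp only [LinearMap.comp_apply, Submodule.subtype_apply, LinearMap.id_apply] at this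
        rw [this, sub_self, map_zero]
        rfl
      · intro h
        have h2 : f - g f = 0 := 𝔣.eq_zero_of_co (𝔣.V.sub_mem hf (hA (g f).2)) (funext h)
        rw [sub_eq_zero] at h2
        rw [h2]
        exact (g f).2
    refine IsCl.congr (P := fun z : Fin r × Fin 𝔣.N → K => ∀ m : Fin 𝔣.N,
      ∑ l, z (i, l) * 𝔣.co (𝔣.e l - g (𝔣.e l)) m = 0) (IsCl.all fun m => ?_) (fun z => ?_)
    · exact IsCl.eq (IsPoly.sum _ fun l => (IsPoly.coord _).mul (IsPoly.const _)) (IsPoly.const 0)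
    · rw [h1 _ (𝔣.sum_mem _)]
      refine forall_congr' fun m => ?_
      have h3 : (∑ l, z (i, l) • 𝔣.e l) - (g (∑ l, z (i, l) • 𝔣.e l) : F) =
          ∑ l, z (i, l) • (𝔣.e l - (g (𝔣.e l) : F)) := by
        simp only [map_sum, map_smul, smul_sub, Finset.sum_sub_distrib,
          AddSubmonoidClass.coe_finsetSum, Submodule.coe_smul]
      rw [h3, map_sum, Finset.sum_apply]
      simp only [map_smul, Pi.smul_apply, smul_eq_mul]
  have hall : IsCl (fun z : Fin r × Fin 𝔣.N → K => ∀ i, ∑ l, z (i, l) • 𝔣.e l ∈ A) :=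
    IsCl.all hmem
  obtain ⟨m, f, -, hfA', hfsp⟩ : ∃ (m : ℕ) (f : Fin m → F), LinearIndependent K f ∧
      (∀ i, f i ∈ A') ∧ ∀ x ∈ A', ∃ c : Fin m → K, x = ∑ i, c i • f i := exists_mem_tuple A'
  have hspan : Submodule.span K (Set.range f) = A' := by
    apply le_antisymm
    · rw [Submodule.span_le]
      rintro _ ⟨i, rfl⟩
      exact hfA' i
    · intro x hx
      obtain ⟨c, rfl⟩ := hfsp x hx
      exact Submodule.sum_mem _ fun i _ => Submodule.smul_mem _ _ (Submodule.subset_span ⟨i, rfl⟩)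
  -- the rank condition
  have hrank : IsCl (fun z : Fin r × Fin 𝔣.N → K =>
      ∀ (a : Fin (s₁ + 1) → Fin m × Fin r) (J : Fin (s₁ + 1) → Fin 𝔣.N),
        (Matrix.of fun t u => 𝔣.co (f (a t).1 * ∑ l, z ((a t).2, l) • 𝔣.e l) (J u)).det = 0) := by
    refine IsCl.all fun a => IsCl.all fun J => IsCl.eq (IsPoly.det fun t u => ?_) (IsPoly.const 0)
    refine IsPoly.congr (g := fun z : Fin r × Fin 𝔣.N → K => ∑ l, z ((a t).2, l) *
      𝔣.co (f (a t).1 * 𝔣.e l) (J u))
      (IsPoly.sum _ fun l => (IsPoly.coord _).mul (IsPoly.const _)) fun z => ?_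
    rw [Matrix.of_apply, Finset.mul_sum, map_sum, Finset.sum_apply]
    refine Finset.sum_congr rfl fun l _ => ?_
    rw [mul_smul_comm, map_smul, Pi.smul_apply, smul_eq_mul]
  have hid : IsCl (fun z : Fin r × Fin 𝔣.N → K => ∀ i j, z (i, I j) = if i = j then 1 else 0) :=
    IsCl.all fun i => IsCl.all fun j => IsCl.eq (IsPoly.coord _) (IsPoly.const _)
  refine (hid.and (hall.and hrank)).congr fun z => ?_
  unfold PCond
  refine and_congr_right fun _ => and_congr_right fun h2 => ?_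
  have h3 : (A' * Submodule.span K (Set.range fun i => ∑ l, z (i, l) • 𝔣.e l) :
      Submodule K F) = Submodule.span K (Set.range fun x : Fin m × Fin r =>
        f x.1 * ∑ l, z (x.2, l) • 𝔣.e l) := by
    rw [← hspan, Submodule.span_mul_span]
    congr 1
    ext x
    simp only [Set.mem_mul, Set.mem_range, Prod.exists]
    constructor
    · rintro ⟨_, ⟨i, rfl⟩, _, ⟨j, rfl⟩, rfl⟩
      exact ⟨i, j, rfl⟩
    · rintro ⟨i, j, rfl⟩
      exact ⟨_, ⟨i, rfl⟩, _, ⟨j, rfl⟩, rfl⟩
  have h4 := forall_det_eq_zero_iff (𝔣 := 𝔣) (y := fun x : Fin m × Fin r =>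
        f x.1 * ∑ l, z (x.2, l) • 𝔣.e l) (fun x => hA'A (Submodule.mul_mem_mul (hfA' _) (h2 _)))
        (s₁ + 1)
  rw [h3, ← Nat.lt_succ_iff]
  exact h4.symm

/-- reduced bases -/
theorem exists_reduced (v : AbsoluteValue K ℝ) {W : Submodule K F} [Module.Finite K W]
    (hWV : W ≤ 𝔣.V) {r : ℕ} (hr : finrank K W = r) :
    ∃ (w : Fin r → F) (I : Fin r → Fin 𝔣.N), (∀ i, w i ∈ W) ∧
      Submodule.span K (Set.range w) = W ∧ (∀ i, 𝔣.nm v (w i) ≤ 1) ∧
      ∀ i j, 𝔣.co (w i) (I j) = if i = j then 1 else 0 := by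
  obtain ⟨r', b, hr', hb, hbW, -⟩ := exists_family W
  obtain rfl : r' = r := hr'.symm.trans hr
  obtain ⟨I, hI0, -, hid, hle⟩ := exists_graph_form v (𝔣.mat_li hb fun i => hWV (hbW i))
  let T : Matrix (Fin r') (Fin r') K := ((𝔣.mat b).submatrix id I)⁻¹
  let w : Fin r' → F := fun i => ∑ j, T i j • b j
  have hmat : T * 𝔣.mat b = 𝔣.mat w := (𝔣.mat_sum T b).symm
  have hwW : ∀ i, w i ∈ W := fun i => W.sum_mem fun j _ => W.smul_mem _ (hbW j)
  have hidw : ∀ i j, 𝔣.co (w i) (I j) = if i = j then 1 else 0 := by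
    intro i j
    have := hid i j
    rwa [show ((𝔣.mat b).submatrix id I)⁻¹ = T from rfl, hmat] at this
  refine ⟨w, I, hwW, ?_, fun i => ?_, hidw⟩
  · have hli : LinearIndependent K w := by
      rw [Fintype.linearIndependent_iff]
      intro c hc i
      have h1 := congrFun (congrArg 𝔣.co hc) (I i)
      rw [map_sum, Finset.sum_apply, map_zero] at h1
      simp only [map_smul, Pi.smul_apply, hidw, smul_eq_mul, mul_ite, mul_one, mul_zero,
        Finset.sum_ite_eq', Finset.mem_univ, if_true, Pi.zero_apply] at h1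
      exact h1
    apply Submodule.eq_of_le_of_finrank_eq
    · rw [Submodule.span_le]
      rintro _ ⟨i, rfl⟩
      exact hwW i
    · rw [finrank_span_eq_card hli, Fintype.card_fin, hr]
  · apply nrm_le v zero_le_one
    intro l
    have := hle i l
    rwa [show ((𝔣.mat b).submatrix id I)⁻¹ = T from rfl, hmat] at this

variable (𝔣 𝔸) in
/-- (U2) -/
theorem exists_UTwo [IsAlgClosed K] (A A' B B' : Submodule K F) [Module.Finite K A]
    [Module.Finite K A'] [Module.Finite K B] [Module.Finite K B'] (hA : A ≤ 𝔣.V) (hB : B ≤ 𝔣.V)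
    (hA'A : A' * A ≤ 𝔣.V) (hB'B : B' * B ≤ 𝔣.V) (hAB : A * B ≤ 𝔣.V) (r r' s₁ s₂ s : ℕ)
    (H : ∀ W ≤ A, finrank K W = r → finrank K (A' * W : Submodule K F) ≤ s₁ →
      ∀ U ≤ B, finrank K U = r' → finrank K (B' * U : Submodule K F) ≤ s₂ →
        s ≤ finrank K (W * U : Submodule K F)) :
    ∃ C, 𝔸.Adm C ∧ ∀ v, ∀ W ≤ A, finrank K W = r → finrank K (A' * W : Submodule K F) ≤ s₁ →
      ∀ U ≤ B, finrank K U = r' → finrank K (B' * U : Submodule K F) ≤ s₂ →
        finrank K (W * U : Submodule K F) = s → ∀ x ∈ W * U, ∃ (c : Fin s → K) (a b : Fin s → F),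
          (∀ t, a t ∈ W) ∧ (∀ t, b t ∈ U) ∧ (∀ t, 𝔣.nm (𝔸.abv v) (a t) ≤ 1) ∧
          (∀ t, 𝔣.nm (𝔸.abv v) (b t) ≤ 1) ∧ (∀ t, 𝔸.abv v (c t) ≤ C v * 𝔣.nm (𝔸.abv v) x) ∧
          x = ∑ t, c t • (a t * b t) := by
  classical
  have key : ∀ IJ : (Fin r → Fin 𝔣.N) × (Fin r' → Fin 𝔣.N), ∃ C, 𝔸.Adm C ∧ ∀ v,
      ∀ z : (Fin r × Fin 𝔣.N) ⊕ (Fin r' × Fin 𝔣.N) → K, (∀ i, 𝔸.abv v (z i) ≤ 1) →
        (PCond 𝔣 A A' s₁ IJ.1 (fun i => z (Sum.inl i)) ∧
          PCond 𝔣 B B' s₂ IJ.2 (fun i => z (Sum.inr i))) →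
        ∃ t : (Fin s → Fin r × Fin r') × (Fin s → Fin 𝔣.N), 1 ≤ C v * 𝔸.abv v
          (Matrix.of fun i j => 𝔣.co ((∑ l, z (Sum.inl ((t.1 i).1, l)) • 𝔣.e l) *
            (∑ l, z (Sum.inr ((t.1 i).2, l)) • 𝔣.e l)) (t.2 j)).det := by
    rintro ⟨I, J⟩
    refine exists_lower_bound (𝔸 := 𝔸) (((isCl_pCond A A' hA hA'A s₁ I).comap Sum.inl).and
      ((isCl_pCond B B' hB hB'B s₂ J).comap Sum.inr)) (fun t => ?_) ?_
    · refine IsPoly.det fun i j => ?_
      refine IsPoly.congr (g := fun z : (Fin r × Fin 𝔣.N) ⊕ (Fin r' × Fin 𝔣.N) → K =>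
        ∑ l, ∑ m, (z (Sum.inl ((t.1 i).1, l)) * z (Sum.inr ((t.1 i).2, m))) *
          𝔣.co (𝔣.e l * 𝔣.e m) (t.2 j)) (IsPoly.sum _ fun l => IsPoly.sum _ fun m =>
            ((IsPoly.coord _).mul (IsPoly.coord _)).mul (IsPoly.const _)) fun z => ?_
      rw [Matrix.of_apply, Finset.sum_mul_sum, map_sum, Finset.sum_apply]
      refine Finset.sum_congr rfl fun l _ => ?_
      rw [map_sum, Finset.sum_apply]
      refine Finset.sum_congr rfl fun m _ => ?_
      rw [smul_mul_smul_comm, map_smul, Pi.smul_apply, smul_eq_mul]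
    · rintro z ⟨⟨hz1, hz2, hz3⟩, ⟨hz1', hz2', hz3'⟩⟩
      set w : Fin r → F := fun i => ∑ l, z (Sum.inl (i, l)) • 𝔣.e l with hw
      set u : Fin r' → F := fun i => ∑ l, z (Sum.inr (i, l)) • 𝔣.e l with hu
      have hwli : LinearIndependent K w := by
        rw [Fintype.linearIndependent_iff]
        intro c hc i
        have h1 := congrFun (congrArg 𝔣.co hc) (I i)
        rw [map_sum, Finset.sum_apply, map_zero] at h1
        simp only [map_smul, Pi.smul_apply, hw, 𝔣.co_sum, smul_eq_mul, Pi.zero_apply] at h1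
        simp only [hz1, mul_ite, mul_one, mul_zero, Finset.sum_ite_eq', Finset.mem_univ,
          if_true] at h1
        exact h1
      have huli : LinearIndependent K u := by
        rw [Fintype.linearIndependent_iff]
        intro c hc i
        have h1 := congrFun (congrArg 𝔣.co hc) (J i)
        rw [map_sum, Finset.sum_apply, map_zero] at h1
        simp only [map_smul, Pi.smul_apply, hu, 𝔣.co_sum, smul_eq_mul, Pi.zero_apply] at h1
        simp only [hz1', mul_ite, mul_one, mul_zero, Finset.sum_ite_eq', Finset.mem_univ,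
          if_true] at h1
        exact h1
      have hWA : Submodule.span K (Set.range w) ≤ A := by
        rw [Submodule.span_le]
        rintro _ ⟨i, rfl⟩
        exact hz2 i
      have hUB : Submodule.span K (Set.range u) ≤ B := by
        rw [Submodule.span_le]
        rintro _ ⟨i, rfl⟩
        exact hz2' i
      have h1 := H _ hWA (by rw [finrank_span_eq_card hwli, Fintype.card_fin]) hz3 _ hUB
        (by rw [finrank_span_eq_card huli, Fintype.card_fin]) hz3'
      have h3 : (Submodule.span K (Set.range w) * Submodule.span K (Set.range u) :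
          Submodule K F) = Submodule.span K (Set.range fun x : Fin r × Fin r' =>
            w x.1 * u x.2) := by
        rw [Submodule.span_mul_span]
        congr 1
        ext x
        simp only [Set.mem_mul, Set.mem_range, Prod.exists]
        constructor
        · rintro ⟨_, ⟨i, rfl⟩, _, ⟨j, rfl⟩, rfl⟩
          exact ⟨i, j, rfl⟩
        · rintro ⟨i, j, rfl⟩
          exact ⟨_, ⟨i, rfl⟩, _, ⟨j, rfl⟩, rfl⟩
      rw [h3] at h1
      by_contra hcon
      push Not at hcon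
      have h4 := (forall_det_eq_zero_iff (𝔣 := 𝔣) (y := fun x : Fin r × Fin r' => w x.1 * u x.2)
        (fun x => hAB (Submodule.mul_mem_mul (hz2 _) (hz2' _))) s).mp fun a J => hcon (a, J)
      omega
  choose C hC hbd using key
  obtain ⟨C₀, hC₀, hCC₀⟩ := AdelicStr.exists_adm_sup C hC
  obtain ⟨D, hD, hDb⟩ := 𝔣.exists_mul_upper 𝔸
  refine ⟨_, hC₀.mul ((AdelicStr.adm_archC s.factorial).mul (hD.pow s)),
    fun v W hW hWr hWs U hU hUr hUs hs x hx => ?_⟩
  have hfW : Module.Finite K W := Submodule.finiteDimensional_of_le hW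
  have hfU : Module.Finite K U := Submodule.finiteDimensional_of_le hU
  obtain ⟨w, I, hwW, hwsp, hwn, hwid⟩ := exists_reduced (𝔸.abv v) (hW.trans hA) hWr
  obtain ⟨u, J, huU, husp, hun, huid⟩ := exists_reduced (𝔸.abv v) (hU.trans hB) hUr
  let z : (Fin r × Fin 𝔣.N) ⊕ (Fin r' × Fin 𝔣.N) → K :=
    Sum.elim (fun i => 𝔣.co (w i.1) i.2) (fun i => 𝔣.co (u i.1) i.2)
  have hzw : ∀ i, ∑ l, z (Sum.inl (i, l)) • 𝔣.e l = w i := fun i => 𝔣.repr (hA (hW (hwW i)))
  have hzu : ∀ i, ∑ l, z (Sum.inr (i, l)) • 𝔣.e l = u i := fun i => 𝔣.repr (hB (hU (huU i)))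
  have hzw' : (fun i => ∑ l, z (Sum.inl (i, l)) • 𝔣.e l) = w := funext hzw
  have hzu' : (fun i => ∑ l, z (Sum.inr (i, l)) • 𝔣.e l) = u := funext hzu
  have hP1 : PCond 𝔣 A A' s₁ I (fun i => z (Sum.inl i)) := by
    refine ⟨hwid, fun i => ?_, ?_⟩
    · show ∑ l, z (Sum.inl (i, l)) • 𝔣.e l ∈ A
      rw [hzw]; exact hW (hwW i)
    · show finrank K (A' * Submodule.span K (Set.range fun i => ∑ l, z (Sum.inl (i, l)) • 𝔣.e l) :
        Submodule K F) ≤ s₁
      rw [hzw', hwsp]; exact hWs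
  have hP2 : PCond 𝔣 B B' s₂ J (fun i => z (Sum.inr i)) := by
    refine ⟨huid, fun i => ?_, ?_⟩
    · show ∑ l, z (Sum.inr (i, l)) • 𝔣.e l ∈ B
      rw [hzu]; exact hU (huU i)
    · show finrank K (B' * Submodule.span K (Set.range fun i => ∑ l, z (Sum.inr (i, l)) • 𝔣.e l) :
        Submodule K F) ≤ s₂
      rw [hzu', husp]; exact hUs
  obtain ⟨t, ht⟩ := hbd (I, J) v z (by
    rintro (i | i)
    · exact (le_nrm (𝔸.abv v) (𝔣.co (w i.1)) i.2).trans (hwn i.1)
    · exact (le_nrm (𝔸.abv v) (𝔣.co (u i.1)) i.2).trans (hun i.1)) ⟨hP1, hP2⟩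
  simp only [hzw, hzu] at ht
  set y : Fin s → F := fun i => w (t.1 i).1 * u (t.1 i).2 with hy
  set M : Matrix (Fin s) (Fin s) K := Matrix.of fun i j => 𝔣.co (y i) (t.2 j) with hM
  have hdet0 : M.det ≠ 0 := by
    intro h0
    rw [h0, map_zero, mul_zero] at ht
    exact absurd ht (by norm_num)
  have hyW : ∀ i, y i ∈ W * U := fun i => Submodule.mul_mem_mul (hwW _) (huU _)
  have hyli : LinearIndependent K y := by
    have h2 : LinearIndependent K M.row := (Matrix.linearIndependent_rows_iff_isUnit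
      (A := M)).mpr ((Matrix.isUnit_iff_isUnit_det _).mpr (isUnit_iff_ne_zero.mpr hdet0))
    have h3 : LinearIndependent K (fun t => 𝔣.co (y t)) :=
      LinearIndependent.of_comp (LinearMap.funLeft K K t.2) h2
    exact LinearIndependent.of_comp 𝔣.co h3
  have hspy : Submodule.span K (Set.range y) = W * U := by
    have hfWU : Module.Finite K (W * U : Submodule K F) := by
      apply Module.Finite.iff_fg.mpr
      exact (Module.Finite.iff_fg.mp hfW).mul (Module.Finite.iff_fg.mp hfU)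
    apply Submodule.eq_of_le_of_finrank_eq
    · rw [Submodule.span_le]
      rintro _ ⟨i, rfl⟩
      exact hyW i
    · rw [finrank_span_eq_card hyli, Fintype.card_fin, hs]
  have hx' : x ∈ Submodule.span K (Set.range y) := by rw [hspy]; exact hx
  rw [Submodule.mem_span_range_iff_exists_fun] at hx'
  obtain ⟨c, hc⟩ := hx'
  refine ⟨c, fun i => w (t.1 i).1, fun i => u (t.1 i).2, fun i => hwW _, fun i => huU _,
    fun i => hwn _, fun i => hun _, fun i => ?_, hc.symm⟩
  -- Cramer's rule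
  have h1 : (fun j => 𝔣.co x (t.2 j)) = ∑ k, c k • M k := by
    ext j
    rw [← hc, map_sum, Finset.sum_apply, Finset.sum_apply]
    simp only [map_smul, hM]
    rfl
  have h2 : (M.updateRow i (fun j => 𝔣.co x (t.2 j))).det = c i * M.det := by
    rw [h1, det_updateRow_sum, smul_eq_mul]
  have h3 := det_updateRow_le (𝔸.abv v) M (fun j => 𝔣.co x (t.2 j)) i
    (𝔣.nm_nonneg (𝔸.abv v) x) (hD.one_le v) (fun j => le_nrm _ _ _) (fun i j => by
      have h4 : 𝔣.nm (𝔸.abv v) (y i) ≤ D v * (1 * 1) :=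
        (hDb v _ (hA (hW (hwW _))) _ (hB (hU (huU _)))).trans (by
          have := hwn (t.1 i).1
          have := hun (t.1 i).2
          have := (hD.pos v).le
          have := 𝔣.nm_nonneg (𝔸.abv v) (w (t.1 i).1)
          have := 𝔣.nm_nonneg (𝔸.abv v) (u (t.1 i).2)
          gcongr)
      rw [mul_one, mul_one] at h4
      exact (le_nrm (𝔸.abv v) (𝔣.co (y i)) (t.2 j)).trans h4)
  rw [h2, map_mul] at h3
  have h5 := fac_le_archC' (𝔸 := 𝔸) (le_refl s.factorial) v
  have e1 := (𝔸.abv v).nonneg (c i)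
  have e2 := (hC (I, J)).pos v
  have e3 := 𝔣.nm_nonneg (𝔸.abv v) x
  have e4 := (hD.pos v)
  have e5 := hCC₀ (I, J) v
  have e6 := fac_pos (𝔸.abv v) s.factorial
  calc 𝔸.abv v (c i) = 𝔸.abv v (c i) * 1 := (mul_one _).symm
    _ ≤ 𝔸.abv v (c i) * (C (I, J) v * 𝔸.abv v M.det) := by gcongr
    _ = C (I, J) v * (𝔸.abv v (c i) * 𝔸.abv v M.det) := by ring
    _ ≤ C (I, J) v * (fac (𝔸.abv v) s.factorial * (𝔣.nm (𝔸.abv v) x * D v ^ s)) := by gcongr
    _ ≤ C₀ v * (𝔸.archC s.factorial v * (𝔣.nm (𝔸.abv v) x * D v ^ s)) := by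
      have := (AdelicStr.adm_archC (𝔸 := 𝔸) s.factorial).pos v
      have := hC₀.pos v
      gcongr
    _ = _ := by ring

end Frame

end Fermat.Agent.MW
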